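import Mathlib
import Fermat.Agent.MU.Lib.BadRed.Mod.UHyp
import Fermat.Agent.Lib.BadRed.Mod.FrobAut

section MergeWrap_S36_Seed_U2 -- from S36/Seed/U2.lean

set_option autoImplicit false
set_option linter.style.haveILetI false
set_option linter.unusedSectionVars false
set_option synthInstance.maxHeartbeats 400000

noncomputable section

namespace Fermat.Agent.S36G

open ModularCurve AlgebraicCurve Fermat.Agent.GaussInt Fermat.Agent.AtkinLehner
  Fermat.Agent.Deuring Fermat.Agent.S28 Fermat.Agent.F3 Fermat.Agent.F3G Fermat.Agent.BadRed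
  Fermat.Agent.S24 UpperHalfPlane Polynomial

local notation "Qb" => AlgebraicClosure ℚ

attribute [local instance 10000] SubalgebraClass.toAlgebra HahnSeries.powerSeriesAlgebra

/-! ### the series of `u₂` -/

section Series

/-- `coeffMap` commutes with `qExpand`. -/
theorem seedU_coeffMap_qExpand {R S : Type*} [CommRing R] [CommRing S] (f : R →+* S) (n : ℕ)
    [NeZero n] (x : LaurentSeries R) :
    coeffMap f (qExpand R n x) = qExpand S n (coeffMap f x) := by
  ext k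
  by_cases hk : (n : ℤ) ∣ k
  · obtain ⟨m, rfl⟩ := hk
    rw [coeffMap_coeff, qExpand_coeff_mul, qExpand_coeff_mul, coeffMap_coeff]
  · rw [coeffMap_coeff, qExpand_coeff_of_not_dvd n _ hk, qExpand_coeff_of_not_dvd n _ hk,
      map_zero]

/-- **the `q`-expansion of `u₂ = Δ(qz) / Δ(q²z)`**, with integral coefficients, over any ring. -/
def uSer2 (R : Type*) [CommRing R] (q : ℕ) [NeZero q] : LaurentSeries R :=
  qExpand R q (uSer R q)

variable (R : Type*) [CommRing R] (q : ℕ) [NeZero q]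

theorem coeffMap_uSer2 {S : Type*} [CommRing S] (f : R →+* S) :
    coeffMap f (uSer2 R q) = uSer2 S q := by
  rw [uSer2, seedU_coeffMap_qExpand, coeffMap_uSer]
  rfl

theorem uSer2_ne_zero [Nontrivial R] : uSer2 R q ≠ 0 := by
  intro h
  apply uSer_ne_zero R q
  apply qExpand_injective (R := R) q
  rw [map_zero]
  exact h

variable (K : Type*) [Field K]

/-- `Δ(z) / Δ(q²z) = u₁ u₂`. -/
theorem uSer_mul_uSer2 : uSer K q * uSer2 K q = uSer K (q * q) := by
  rw [uSer2, uSer_eq_div K (q * q), uSer_eq_div K q, map_div₀, qExpand_qExpand,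
    div_mul_div_comm, mul_comm, mul_div_mul_left _ _ (qExpand_DeltaF_ne_zero K q)]

/-- in characteristic `q`: `u₂ = u₁ ^ q`. -/
theorem uSer2_eq_pow (k : Type*) [Field k] (q : ℕ) [NeZero q] [Fact q.Prime] [CharP k q] :
    uSer2 k q = uSer k q ^ q := by
  rw [Fermat.Agent.Kronecker.pow_char_eq_qExpand_frobenius q, coeffMap_uSer]
  rfl

end Series

/-! ### the element `u₂` of `F_N` -/

section Bar

variable (N q : ℕ) [NeZero N] [NeZero q]

theorem seedU_dvd {N q : ℕ} (h : q * q ∣ N) : q ∣ N := dvd_of_mul_left_dvd h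

/-- **`u₂ = Δ(qz) / Δ(q²z)` as an element of `F_N`**, `q² ∣ N`. -/
def uF2 (h : q * q ∣ N) : modularFunctionFieldBar N :=
  uF N (q * q) h / uF N q (seedU_dvd h)

theorem uF_mul_uF2 (h : q * q ∣ N) : uF N q (seedU_dvd h) * uF2 N q h = uF N (q * q) h := by
  rw [uF2, mul_div_cancel₀ _ (uF_ne_zero N q _)]

theorem uF2_ne_zero (h : q * q ∣ N) : uF2 N q h ≠ 0 :=
  div_ne_zero (uF_ne_zero N (q * q) h) (uF_ne_zero N q _)

theorem coe_uF2 (h : q * q ∣ N) :
    ((uF2 N q h : modularFunctionFieldBar N) : LaurentSeries Qb) = uSer2 Qb q := by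
  have h1 : ((uF2 N q h : modularFunctionFieldBar N) : LaurentSeries Qb) =
      uSer Qb (q * q) / uSer Qb q := rfl
  rw [h1, ← uSer_mul_uSer2, mul_div_cancel_left₀ _ (uSer_ne_zero Qb q)]

theorem uSer2_mem_bar (h : q * q ∣ N) : uSer2 Qb q ∈ modularFunctionFieldBar N := by
  rw [← coe_uF2 N q h]
  exact (uF2 N q h).2

end Bar

/-! ### `u₂` in a Gauss setup -/

section Gauss

variable {N N₀ : ℕ} [NeZero N] [NeZero N₀] {A : ValuationSubring Qb}
  {S : ValSetup Qb (FBar N) (IsLocalRing.ResidueField A)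
    (modularFunctionFieldFullC (IsLocalRing.ResidueField A) N₀)}
  (hS : IsGaussSetup N N₀ A S) (q : ℕ) [NeZero q] (h2 : q * q ∣ N)

theorem seedU_emb_uSer2 : emb A (uSer2 A q) = uSer2 Qb q := coeffMap_uSer2 A q A.subtype

include h2 in
theorem seedU_emb_uSer2_mem : emb A (uSer2 A q) ∈ modularFunctionFieldBar N := by
  rw [seedU_emb_uSer2]
  exact uSer2_mem_bar N q h2

include hS in
/-- **`u₂ ∈ O_v`.** -/
theorem uF2_mem_Ov : uF2 N q h2 ∈ S.Ov := by
  rw [hS.mem_iff, coe_uF2, ← seedU_emb_uSer2 (A := A)]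
  exact emb_mem_gaussSub (seedU_emb_uSer2_mem q h2)

include hS in
/-- the reduction of `u₂` is the series `u₂` over the residue field. -/
theorem coe_red_uF2_uSer2 :
    ((S.red (uF2 N q h2) : modularFunctionFieldFullC (IsLocalRing.ResidueField A) N₀) :
        LaurentSeries (IsLocalRing.ResidueField A)) = uSer2 (IsLocalRing.ResidueField A) q := by
  rw [hS.coe_red _ (uF2_mem_Ov hS q h2), coe_uF2, ← seedU_emb_uSer2 (A := A),
    gaussResFun_emb (seedU_emb_uSer2_mem q h2)]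
  exact coeffMap_uSer2 A q (IsLocalRing.residue A)

include hS in
/-- **`red u₂ = (red u₁) ^ q`.** -/
theorem red_uF2 (hq : q.Prime) (hA : A.LiesOverPrime q) :
    S.red (uF2 N q h2) = S.red (uF N q (seedU_dvd h2)) ^ q := by
  haveI : Fact q.Prime := ⟨hq⟩
  haveI : CharP (IsLocalRing.ResidueField A) q := uh_charP_residue A hq hA
  apply Subtype.ext
  rw [coe_red_uF2_uSer2 hS q h2, IntermediateField.coe_pow, coe_red_uF_uSer hS q (seedU_dvd h2)]
  exact uSer2_eq_pow _ q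

include hS in
/-- the reduction of `u₂` is `ssFun ^ q`. -/
theorem coe_red_uF2 (hq : q.Prime) (hA : A.LiesOverPrime q) :
    ((S.red (uF2 N q h2) : modularFunctionFieldFullC (IsLocalRing.ResidueField A) N₀) :
        LaurentSeries (IsLocalRing.ResidueField A)) = ssFun (IsLocalRing.ResidueField A) q ^ q := by
  rw [red_uF2 hS q h2 hq hA, IntermediateField.coe_pow, coe_red_uF hS q (seedU_dvd h2) hq hA]

include hS in
/-- **the reduction of `u₂` is transcendental over `k`.** -/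
theorem transcendental_red_uF2 (hq : q.Prime) (hA : A.LiesOverPrime q) :
    Transcendental (IsLocalRing.ResidueField A) (S.red (uF2 N q h2)) := by
  rw [red_uF2 hS q h2 hq hA]
  exact (transcendental_red_uF hS q (seedU_dvd h2) hq.two_le).pow hq.pos

include hS in
theorem red_uF2_ne_zero (hq : q.Prime) (hA : A.LiesOverPrime q) : S.red (uF2 N q h2) ≠ 0 := by
  intro h0
  apply transcendental_red_uF2 hS q h2 hq hA
  rw [h0]
  exact isAlgebraic_zero

end Gauss

/-! ### Atkin–Lehner at `Q = q²` -/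

section AL

/-- multiplicative form of `atkinLehner_eq_of_hasExp`: if `u, v, w ∈ F_N` are the expansions of
the functions `f, g, h` on `ℍ` and `(f ∘ W) · g = h`, then `w_Q u · v = w`. -/
theorem seedU_atkinLehner_mul_eq (D : ALData) (u v w : modularFunctionFieldBar (D.Q * D.R))
    (f g h : Fun) (hf : HasExp 1 f (u : LaurentSeries Kbar))
    (hg : HasExp 1 g (v : LaurentSeries Kbar)) (hh : HasExp 1 h (w : LaurentSeries Kbar))
    (H : ∀ τ : ℍ, f (D.W τ) * g τ = h τ) :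
    atkinLehner D u * v = w := by
  obtain ⟨a, b, hb, hu, hab⟩ := exists_BN_of_hasExp _ u f hf
  obtain ⟨a', b', hb', hv, hab'⟩ := exists_BN_of_hasExp _ v g hg
  obtain ⟨a'', b'', hb'', hw, hab''⟩ := exists_BN_of_hasExp _ w h hh
  have hwb : wB D b ≠ 0 := fun h0 => hb ((wB D).injective (h0.trans (map_zero _).symm))
  have key : wB D a * a' * b'' = a'' * (wB D b * b') := by
    apply Subtype.ext
    ext τ
    show (wB D a : Fun) τ * (a' : Fun) τ * (b'' : Fun) τ =
      (a'' : Fun) τ * ((wB D b : Fun) τ * (b' : Fun) τ)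
    rw [wB_apply, wB_apply, coe_wBHom, coe_wBHom, compW_apply, compW_apply, hab (D.W τ), hab' τ,
      hab'' τ, ← H τ]
    ring
  have inj : Function.Injective (algebraMap (BN (D.Q * D.R)) (FB (D.Q * D.R))) :=
    IsFractionRing.injective _ _
  have hb1 : algebraMap (BN (D.Q * D.R)) (FB (D.Q * D.R)) (wB D b) ≠ 0 :=
    fun h0 => hwb (inj (h0.trans (map_zero _).symm))
  have hb2 : algebraMap (BN (D.Q * D.R)) (FB (D.Q * D.R)) b' ≠ 0 :=
    fun h0 => hb' (inj (h0.trans (map_zero _).symm))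
  have hb3 : algebraMap (BN (D.Q * D.R)) (FB (D.Q * D.R)) b'' ≠ 0 :=
    fun h0 => hb'' (inj (h0.trans (map_zero _).symm))
  have e1 : atkinLehner D u * v = equivF (D.Q * D.R)
      (algebraMap (BN (D.Q * D.R)) (FB (D.Q * D.R)) (wB D a * a') /
        algebraMap (BN (D.Q * D.R)) (FB (D.Q * D.R)) (wB D b * b')) := by
    conv_lhs => rw [hu, hv]
    rw [atkinLehner_apply, AlgEquiv.symm_apply_apply, map_div₀, wFB_algebraMap,
      wFB_algebraMap, ← map_mul, div_mul_div_comm, ← map_mul, ← map_mul]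
  rw [e1, hw]
  congr 1
  rw [div_eq_div_iff (by rw [map_mul]; exact mul_ne_zero hb1 hb2) hb3, ← map_mul, ← map_mul, key]

/-- `u₁ (W τ) · (Δ(τ) / Δ(q² τ)) = q ^ 12 · u₁ (τ)` for `W = W_{q²}`. -/
theorem seedU_uFn_W (D : ALData) (q : ℕ) [NeZero q] (hQ : q * q = D.Q) (τ : ℍ) :
    uFn q (D.W τ) * uFn (q * q) τ = (q : ℂ) ^ 12 * uFn q τ := by
  haveI : NeZero (1 * 1) := ⟨by norm_num⟩
  haveI : NeZero (q * q * 1) := ⟨by rw [mul_one]; exact NeZero.ne (q * q)⟩
  haveI : NeZero (q * 1) := ⟨by rw [mul_one]; exact NeZero.ne q⟩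
  have h1 := D.scale_W 1 (q * q) 1 D.R (by rw [one_mul]; exact hQ) (one_mul _) τ
  have h2 := D.scale_W q q 1 D.R hQ (one_mul _) τ
  rw [scale_congr' (one_mul 1) (D.W τ), scale_one', scale_congr' (mul_one (q * q)) τ] at h1
  rw [scale_congr' (mul_one q) (D.W τ), scale_congr' (mul_one q) τ] at h2
  rw [uFn_apply, uFn_apply, uFn_apply, h2, discriminant_sl2_smul]
  conv_lhs => rw [h1, discriminant_sl2_smul]
  have e1 : ((D.gam 1 (q * q) 1 D.R (by rw [one_mul]; exact hQ) (one_mul _)) 1 0 : ℤ) =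
      (D.R : ℤ) := rfl
  have e2 : ((D.gam 1 (q * q) 1 D.R (by rw [one_mul]; exact hQ) (one_mul _)) 1 1 : ℤ) =
      ((q * q : ℕ) : ℤ) := rfl
  have e3 : ((D.gam q q 1 D.R hQ (one_mul _)) 1 0 : ℤ) = (D.R : ℤ) := rfl
  have e4 : ((D.gam q q 1 D.R hQ (one_mul _)) 1 1 : ℤ) = (q : ℤ) := rfl
  rw [e1, e2, e3, e4, coe_scale, coe_scale]
  have hΔ1 := ModularForm.discriminant_ne_zero τ
  have hΔ2 := ModularForm.discriminant_ne_zero (scale q τ)
  have hΔ3 := ModularForm.discriminant_ne_zero (scale (q * q) τ)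
  have hq0 : (q : ℂ) ≠ 0 := by exact_mod_cast NeZero.ne q
  have hden : ((D.R : ℤ) : ℂ) * (τ : ℂ) + (((1 : ℕ) : ℤ) : ℂ) ≠ 0 := by
    have := GensExp.int_linear_ne_zero (D.R : ℤ) 1 (Or.inr one_ne_zero) τ
    simpa using this
  push_cast at hden ⊢
  have hden2 : (D.R : ℂ) * ((q : ℂ) * (τ : ℂ)) + (q : ℂ) ≠ 0 := by
    have : (D.R : ℂ) * ((q : ℂ) * (τ : ℂ)) + (q : ℂ) = (q : ℂ) * ((D.R : ℂ) * (τ : ℂ) + 1) := by
      ring
    rw [this]
    exact mul_ne_zero hq0 hden
  field_simp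

variable (D : ALData) [NeZero (D.Q * D.R)] (q : ℕ) [NeZero q] (hQ : q * q = D.Q)

include hQ in
theorem seedU_dvd_level : q * q ∣ D.Q * D.R := by
  rw [← hQ]
  exact Dvd.intro _ rfl

/-- **`w (u₁) · (u₁ u₂) = q ^ 12 · u₁`.** -/
theorem atkinLehner_uF_mul_sq :
    atkinLehner D (uF (D.Q * D.R) q (seedU_dvd (seedU_dvd_level D q hQ))) *
        uF (D.Q * D.R) (q * q) (seedU_dvd_level D q hQ) =
      algebraMap Qb (modularFunctionFieldBar (D.Q * D.R)) ((q : Qb) ^ 12) *
        uF (D.Q * D.R) q (seedU_dvd (seedU_dvd_level D q hQ)) := by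
  refine seedU_atkinLehner_mul_eq D _ _ _ (uFn q) (uFn (q * q))
    (algebraMap Kbar Fun ((q : Kbar) ^ 12) * uFn q) (hasExp_uFn q) (hasExp_uFn (q * q))
    ((HasExp.algebraMap 1 _).mul (hasExp_uFn q)) (fun τ => ?_)
  rw [seedU_uFn_W D q hQ τ]
  show _ = iota ((q : Kbar) ^ 12) * uFn q τ
  rw [map_pow, map_natCast]

/-- **`w_{q²} (u₁) = q ^ 12 / u₂`.** -/
theorem atkinLehner_uF_sq :
    atkinLehner D (uF (D.Q * D.R) q (seedU_dvd (seedU_dvd_level D q hQ))) =
      algebraMap Qb (modularFunctionFieldBar (D.Q * D.R)) ((q : Qb) ^ 12) /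
        uF2 (D.Q * D.R) q (seedU_dvd_level D q hQ) := by
  have h := atkinLehner_uF_mul_sq D q hQ
  have h1 := uF_ne_zero (D.Q * D.R) q (seedU_dvd (seedU_dvd_level D q hQ))
  have h2 := uF2_ne_zero (D.Q * D.R) q (seedU_dvd_level D q hQ)
  rw [eq_div_iff h2]
  rw [← uF_mul_uF2, ← mul_assoc, mul_comm _ (uF2 _ _ _), ← mul_assoc] at h
  have h3 := mul_right_cancel₀ h1 h
  exact (mul_comm _ _).trans h3

/-- the constant `q ^ 12` is not zero. -/
theorem seedU_const_ne :
    algebraMap Qb (modularFunctionFieldBar (D.Q * D.R)) ((q : Qb) ^ 12) ≠ 0 :=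
  (_root_.map_ne_zero _).mpr (natCast_pow_ne_zero q 12)

/-- **`w_{q²} (u₂) = q ^ 12 / u₁`.** -/
theorem atkinLehner_uF2 :
    atkinLehner D (uF2 (D.Q * D.R) q (seedU_dvd_level D q hQ)) =
      algebraMap Qb (modularFunctionFieldBar (D.Q * D.R)) ((q : Qb) ^ 12) /
        uF (D.Q * D.R) q (seedU_dvd (seedU_dvd_level D q hQ)) := by
  have h := congrArg (atkinLehner D) (atkinLehner_uF_sq D q hQ)
  rw [atkinLehner_atkinLehner, map_div₀, AlgEquiv.commutes] at h
  have h1 := uF_ne_zero (D.Q * D.R) q (seedU_dvd (seedU_dvd_level D q hQ))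
  have h2 : atkinLehner D (uF2 (D.Q * D.R) q (seedU_dvd_level D q hQ)) ≠ 0 :=
    (_root_.map_ne_zero _).mpr (uF2_ne_zero (D.Q * D.R) q (seedU_dvd_level D q hQ))
  rw [eq_div_iff h1]
  rw [eq_div_iff h2] at h
  exact (mul_comm _ _).trans h

/-- `w (q ^ 12 / u₁) = u₂`. -/
theorem atkinLehner_const_div_uF :
    atkinLehner D (algebraMap Qb (modularFunctionFieldBar (D.Q * D.R)) ((q : Qb) ^ 12) /
        uF (D.Q * D.R) q (seedU_dvd (seedU_dvd_level D q hQ))) =
      uF2 (D.Q * D.R) q (seedU_dvd_level D q hQ) := by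
  rw [map_div₀, AlgEquiv.commutes, atkinLehner_uF_sq D q hQ,
    div_div_cancel₀ (seedU_const_ne D q)]

/-- `w (q ^ 12 / u₂) = u₁`. -/
theorem atkinLehner_const_div_uF2 :
    atkinLehner D (algebraMap Qb (modularFunctionFieldBar (D.Q * D.R)) ((q : Qb) ^ 12) /
        uF2 (D.Q * D.R) q (seedU_dvd_level D q hQ)) =
      uF (D.Q * D.R) q (seedU_dvd (seedU_dvd_level D q hQ)) := by
  rw [map_div₀, AlgEquiv.commutes, atkinLehner_uF2 D q hQ,
    div_div_cancel₀ (seedU_const_ne D q)]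

/-! ### the valuation `v_0 = v_∞ ∘ w_{q²}` -/

variable [NeZero D.R] {A : ValuationSubring Qb}
  {S : ValSetup Qb (FBar (D.Q * D.R)) (IsLocalRing.ResidueField A)
    (modularFunctionFieldFullC (IsLocalRing.ResidueField A) D.R)}
  (hS : IsGaussSetup (D.Q * D.R) D.R A S)

include hS in
/-- **`q ^ 12 / u₁ ∈ O_{v_0}`.** -/
theorem const_div_uF_mem_zero :
    algebraMap Qb (FBar (D.Q * D.R)) ((q : Qb) ^ 12) /
        uF (D.Q * D.R) q (seedU_dvd (seedU_dvd_level D q hQ)) ∈ (valSetupZero D S).Ov := by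
  rw [mem_valSetupZero_Ov, atkinLehner_const_div_uF D q hQ]
  exact uF2_mem_Ov hS q _

/-- **the reduction of `q ^ 12 / u₁` at `v_0` is the reduction of `u₂` at `v_∞`.** -/
theorem red_const_div_uF_zero :
    (valSetupZero D S).red (algebraMap Qb (FBar (D.Q * D.R)) ((q : Qb) ^ 12) /
        uF (D.Q * D.R) q (seedU_dvd (seedU_dvd_level D q hQ))) =
      S.red (uF2 (D.Q * D.R) q (seedU_dvd_level D q hQ)) := by
  rw [valSetupZero_red, atkinLehner_const_div_uF D q hQ]

include hS in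
/-- **`q ^ 12 / u₂ ∈ O_{v_0}`.** -/
theorem const_div_uF2_mem_zero :
    algebraMap Qb (FBar (D.Q * D.R)) ((q : Qb) ^ 12) /
        uF2 (D.Q * D.R) q (seedU_dvd_level D q hQ) ∈ (valSetupZero D S).Ov := by
  rw [mem_valSetupZero_Ov, atkinLehner_const_div_uF2 D q hQ]
  exact uF_mem_Ov hS q _

/-- **the reduction of `q ^ 12 / u₂` at `v_0` is the reduction of `u₁` at `v_∞`.** -/
theorem red_const_div_uF2_zero :
    (valSetupZero D S).red (algebraMap Qb (FBar (D.Q * D.R)) ((q : Qb) ^ 12) /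
        uF2 (D.Q * D.R) q (seedU_dvd_level D q hQ)) =
      S.red (uF (D.Q * D.R) q (seedU_dvd (seedU_dvd_level D q hQ))) := by
  rw [valSetupZero_red, atkinLehner_const_div_uF2 D q hQ]

include hS in
/-- the reduction of `q ^ 12 / u₁` at `v_0` is `(red_∞ u₁) ^ q`, transcendental. -/
theorem red_const_div_uF_zero_pow (hq : q.Prime) (hA : A.LiesOverPrime q) :
    (valSetupZero D S).red (algebraMap Qb (FBar (D.Q * D.R)) ((q : Qb) ^ 12) /
        uF (D.Q * D.R) q (seedU_dvd (seedU_dvd_level D q hQ))) =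
      S.red (uF (D.Q * D.R) q (seedU_dvd (seedU_dvd_level D q hQ))) ^ q := by
  rw [red_const_div_uF_zero D q hQ, red_uF2 hS q _ hq hA]

end AL

end Fermat.Agent.S36G
end
end MergeWrap_S36_Seed_U2
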