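import Mathlib
import Fermat.Agent.MU.S36.Igusa.DegOf
import Fermat.Agent.MU.S36.Igusa.RR
import Fermat.Agent.MU.S36.Genus.SS
import Fermat.Agent.MU.S36.Genus.IgGenus
import Fermat.Agent.S36.G.Types
import Fermat.Agent.MU.Lib.Deuring.Setup

section MergeWrap_S36_Seed_EndsVert -- from S36/Seed/EndsVert.lean

set_option autoImplicit false
set_option linter.unusedSectionVars false
set_option linter.style.haveILetI false
set_option synthInstance.maxHeartbeats 400000
set_option maxHeartbeats 1000000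

noncomputable section

open AlgebraicCurve ModularCurve Fermat.Agent.BadRed Fermat.Agent.RR Fermat.Agent.RedTr
  Fermat.Agent.Deuring

namespace Fermat.Agent.S36G

/-! ### the component `k(Z)` (vertices `∞` and `0`) -/

section Base

variable {k : Type} [Field k] (M₀ q : ℕ)

/-- `x` with expansion `ssFun ^ n` is `u ^ n`. -/
theorem sev_eq_pow (n : ℕ) (x u : ↥(modularFunctionFieldFullC k M₀))
    (hu : (u : LaurentSeries k) = ssFun k q) (hx : (x : LaurentSeries k) = ssFun k q ^ n) :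
    x = u ^ n := by
  apply Subtype.ext
  rw [hx, SubmonoidClass.coe_pow, hu]

/-- **the zeros of a function with expansion `ssFun ^ n`** are the supersingular places. -/
theorem sev_pos_iff {n : ℕ} (hn : 0 < n) (x u : ↥(modularFunctionFieldFullC k M₀))
    (hu : (u : LaurentSeries k) = ssFun k q) (hx : (x : LaurentSeries k) = ssFun k q ^ n)
    (Q : Place k ↥(modularFunctionFieldFullC k M₀)) :
    0 < Q.ord x ↔ IsSSPlace k M₀ q Q := by
  rw [gen_isSSPlace_iff M₀ q u hu Q, sev_eq_pow M₀ q n x u hu hx, igram_ord_pow]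
  have hn' : (0 : ℤ) < (n : ℤ) := by exact_mod_cast hn
  constructor
  · intro h
    exact (pos_iff_pos_of_mul_pos h).mp hn'
  · intro h
    exact mul_pos hn' h

/-- **the order of a function with expansion `ssFun ^ n`** at a supersingular place is `12 n`. -/
theorem sev_ord_eq (n : ℕ) (x u : ↥(modularFunctionFieldFullC k M₀))
    (hu : (u : LaurentSeries k) = ssFun k q) (hx : (x : LaurentSeries k) = ssFun k q ^ n)
    (Q : Place k ↥(modularFunctionFieldFullC k M₀))
    (hno : ∀ u' : ↥(modularFunctionFieldFullC k M₀), (u' : LaurentSeries k) = ssFun k q →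
      Q.ord u' = 12) :
    Q.ord x = 12 * n := by
  rw [sev_eq_pow M₀ q n x u hu hx, igram_ord_pow, hno u hu]
  ring

end Base

/-! ### the Igusa component `k(Z)(θ j̄)` (middle vertices) -/

section Mid

variable (M₀ q : ℕ) (hq : q.Prime) (hqM : ¬ q ∣ M₀) (k : Type) [Field k] [IsAlgClosed k]
  [CharP k q]

include hq in
/-- `k(Z) → k(Z)(θ j̄)` is integral. -/
theorem sev_isIntegral : (igIncl k M₀).toRingHom.IsIntegral := by
  obtain ⟨y, t, -, -, -, -, -, hφ⟩ := igram_setup M₀ q hq k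
  exact hφ

include hq hqM in
/-- every place of `k(Z)` is the restriction of a place of `k(Z)(θ j̄)`. -/
theorem sev_exists_restrict (P : Place k ↥(modularFunctionFieldFullC k M₀)) :
    ∃ Q : Place k ↥(igField k M₀),
      Q.restrictAlong (igIncl k M₀) (sev_isIntegral M₀ q hq k) = P := by
  haveI : NeZero M₀ := ⟨fun h => hqM (h ▸ dvd_zero q)⟩
  obtain ⟨y, t, -, -, -, -, hgen, -⟩ := igram_setup M₀ q hq k
  have hRR := igRR M₀ q hq hqM k
  have hE := Fermat.Agent.RRMod.isRRField_fullC' k M₀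
  haveI := hasPD hRR
  have hFI := fundIdK hE hRR (igIncl k M₀) (sev_isIntegral M₀ q hq k)
  have hfin := igram_finiteAlong (igIncl k M₀) y (midDeg q) hgen
  exact exists_restrictAlong_eq hE hRR (igIncl k M₀) (sev_isIntegral M₀ q hq k) hFI hfin P

/-- **the point `P_m`**: a place of `k(Z)(θ j̄)` over `P` (THE place over `P` if `P` is
supersingular). -/
def sevMidPt (P : Place k ↥(modularFunctionFieldFullC k M₀)) : Place k ↥(igField k M₀) :=
  Classical.choose (sev_exists_restrict M₀ q hq hqM k P)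

theorem sev_restrict_midPt (P : Place k ↥(modularFunctionFieldFullC k M₀)) :
    (sevMidPt M₀ q hq hqM k P).restrictAlong (igIncl k M₀) (sev_isIntegral M₀ q hq k) = P :=
  Classical.choose_spec (sev_exists_restrict M₀ q hq hqM k P)

theorem sevMidPt_injective : Function.Injective (sevMidPt M₀ q hq hqM k) := by
  intro P P' h
  rw [← sev_restrict_midPt M₀ q hq hqM k P, h, sev_restrict_midPt M₀ q hq hqM k P']

include hqM in
/-- **total ramification**: a supersingular place `P` of `k(Z)` has only one place of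
`k(Z)(θ j̄)` over it. -/
theorem sev_mid_unique (P : Place k ↥(modularFunctionFieldFullC k M₀))
    (hSS : IsSSPlace k M₀ q P)
    (hno : ∀ u : ↥(modularFunctionFieldFullC k M₀), (u : LaurentSeries k) = ssFun k q →
      P.ord u = 12)
    (Q Q' : Place k ↥(igField k M₀))
    (hQ : Q.restrictAlong (igIncl k M₀) (sev_isIntegral M₀ q hq k) = P)
    (hQ' : Q'.restrictAlong (igIncl k M₀) (sev_isIntegral M₀ q hq k) = P) : Q = Q' := by
  refine igTotRam M₀ q hq hqM k P hSS hno Q Q' (fun x hx => ?_) (fun x hx => ?_)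
  · rw [Fermat.Agent.RRRel.ord_map_pos_iff _ (sev_isIntegral M₀ q hq k), hQ]
    exact hx
  · rw [Fermat.Agent.RRRel.ord_map_pos_iff _ (sev_isIntegral M₀ q hq k), hQ']
    exact hx

include hqM in
/-- **the ramification index** of the place over a supersingular place is `midDeg q`. -/
theorem sev_mid_ram (P : Place k ↥(modularFunctionFieldFullC k M₀))
    (hSS : IsSSPlace k M₀ q P)
    (hno : ∀ u : ↥(modularFunctionFieldFullC k M₀), (u : LaurentSeries k) = ssFun k q →
      P.ord u = 12)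
    (Q : Place k ↥(igField k M₀))
    (hQ : Q.restrictAlong (igIncl k M₀) (sev_isIntegral M₀ q hq k) = P) :
    Place.ramificationIndexAlong (igIncl k M₀) Q = midDeg q := by
  classical
  haveI : NeZero M₀ := ⟨fun h => hqM (h ▸ dvd_zero q)⟩
  have hRR := igRR M₀ q hq hqM k
  have hE := Fermat.Agent.RRMod.isRRField_fullC' k M₀
  haveI := hasPD hRR
  have hφ := sev_isIntegral M₀ q hq k
  have hFI := fundIdK hE hRR (igIncl k M₀) hφ
  have hsum := sum_ramificationIndexAlong hE hRR (igIncl k M₀) hφ hFI P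
  have hfib : Place.fiberAlong (igIncl k M₀) hφ P = {Q} := by
    ext Q'
    rw [Place.mem_fiberAlong, Finset.mem_singleton]
    constructor
    · intro hQ'
      exact sev_mid_unique M₀ q hq hqM k P hSS hno Q' Q hQ' hQ
    · rintro rfl
      exact hQ
  rw [hfib, Finset.sum_singleton, ig_finrankAlong_inclusion,
    igDegree_core M₀ q hq hqM k hRR P hSS hno] at hsum
  exact_mod_cast hsum

/-- `y ∈ k(Z)(θ j̄)` with expansion `ssFun` is the image of `u ∈ k(Z)`. -/
theorem sev_mid_eq_incl (y : ↥(igField k M₀)) (u : ↥(modularFunctionFieldFullC k M₀))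
    (hu : (u : LaurentSeries k) = ssFun k q) (hy : (y : LaurentSeries k) = ssFun k q) :
    y = igIncl k M₀ u := by
  apply Subtype.ext
  rw [hy, ← hu]
  rfl

/-- **the zeros of a function with expansion `ssFun` on the Igusa component** are the places
over the supersingular places. -/
theorem sev_mid_pos_iff (y : ↥(igField k M₀)) (u : ↥(modularFunctionFieldFullC k M₀))
    (hu : (u : LaurentSeries k) = ssFun k q) (hy : (y : LaurentSeries k) = ssFun k q)
    (Q : Place k ↥(igField k M₀)) :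
    0 < Q.ord y ↔
      IsSSPlace k M₀ q (Q.restrictAlong (igIncl k M₀) (sev_isIntegral M₀ q hq k)) := by
  rw [sev_mid_eq_incl M₀ q k y u hu hy,
    Fermat.Agent.RRRel.ord_map_pos_iff _ (sev_isIntegral M₀ q hq k), gen_isSSPlace_iff M₀ q u hu]

include hqM in
/-- **the order of a function with expansion `ssFun` at the point `P_m`** is `12 midDeg q`. -/
theorem sev_mid_ord_eq (y : ↥(igField k M₀)) (u : ↥(modularFunctionFieldFullC k M₀))
    (hu : (u : LaurentSeries k) = ssFun k q) (hy : (y : LaurentSeries k) = ssFun k q)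
    (P : Place k ↥(modularFunctionFieldFullC k M₀)) (hSS : IsSSPlace k M₀ q P)
    (hno : ∀ u : ↥(modularFunctionFieldFullC k M₀), (u : LaurentSeries k) = ssFun k q →
      P.ord u = 12)
    (Q : Place k ↥(igField k M₀))
    (hQ : Q.restrictAlong (igIncl k M₀) (sev_isIntegral M₀ q hq k) = P) :
    Q.ord y = 12 * midDeg q := by
  rw [sev_mid_eq_incl M₀ q k y u hu hy,
    Place.ord_restrictAlong (igIncl k M₀) (sev_isIntegral M₀ q hq k), hQ, hno u hu,
    sev_mid_ram M₀ q hq hqM k P hSS hno Q hQ]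
  ring

end Mid

/-! ### the family: the fields of `ModEndsInput` on the vertical components -/

section Family

variable (M₀ q : ℕ) (hq : q.Prime) (hqM : ¬ q ∣ M₀) (k : Type) [Field k] [IsAlgClosed k]
  [CharP k q]
  {K F : Type} [Field K] [Field F] [Algebra K F]
  {Mid SS : Type}
  (FkP : SS → Type) [∀ P, Field (FkP P)] [∀ P, Algebra k (FkP P)]

/-- **the supersingular point `P` on the vertical component `v`** (`ι` an enumeration of the
supersingular places): `P` itself on `∞` and `0`, the place over `P` on the Igusa components. -/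
def sevPv (ι : SS → Place k ↥(modularFunctionFieldFullC k M₀)) (P : SS) : ∀ v : Vrt Mid,
    Place k (FkOf ↥(modularFunctionFieldFullC k M₀) (fun _ : Mid => ↥(igField k M₀)) FkP
      (Vtx.vert v))
  | Vrt.oo => ι P
  | Vrt.zero => ι P
  | Vrt.mid _ => sevMidPt M₀ q hq hqM k (ι P)

section Pv

variable (ι : SS → Place k ↥(modularFunctionFieldFullC k M₀))

theorem sevPv_oo (P : SS) :
    sevPv M₀ q hq hqM k FkP ι P (Vrt.oo : Vrt Mid) = ι P := rfl

theorem sevPv_zero (P : SS) :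
    sevPv M₀ q hq hqM k FkP ι P (Vrt.zero : Vrt Mid) = ι P := rfl

theorem sevPv_mid (P : SS) (m : Mid) :
    sevPv M₀ q hq hqM k FkP ι P (Vrt.mid m) = sevMidPt M₀ q hq hqM k (ι P) := rfl

theorem sevPv_mid_restrict (P : SS) (m : Mid) :
    Place.restrictAlong (igIncl k M₀) (sev_isIntegral M₀ q hq k)
      (sevPv M₀ q hq hqM k FkP ι P (Vrt.mid m)) = ι P :=
  sev_restrict_midPt M₀ q hq hqM k (ι P)

/-- **`pv_inj`** for `sevPv`. -/
theorem sevPv_inj (hι : Function.Injective ι) (v : Vrt Mid) (P P' : SS)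
    (h : sevPv M₀ q hq hqM k FkP ι P v = sevPv M₀ q hq hqM k FkP ι P' v) : P = P' := by
  cases v with
  | oo => exact hι h
  | zero => exact hι h
  | mid m => exact hι (sevMidPt_injective M₀ q hq hqM k h)

end Pv

variable (S : ∀ c : Vtx Mid SS, ValSetup K F k
    (FkOf ↥(modularFunctionFieldFullC k M₀) (fun _ : Mid => ↥(igField k M₀)) FkP c))
  (pv : SS → ∀ v : Vrt Mid,
    Place k (FkOf ↥(modularFunctionFieldFullC k M₀) (fun _ : Mid => ↥(igField k M₀)) FkP
      (Vtx.vert v)))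
  (Soo S0 : ValSetup K F k ↥(modularFunctionFieldFullC k M₀))
  (Sm : Mid → ValSetup K F k ↥(igField k M₀))
  (hno : ∀ Q : Place k ↥(modularFunctionFieldFullC k M₀), IsSSPlace k M₀ q Q →
    ∀ u : ↥(modularFunctionFieldFullC k M₀), (u : LaurentSeries k) = ssFun k q → Q.ord u = 12)

/-! #### the vertex `∞`  (`hSoo : S ∞ = Soo` is `rfl` in the applications) -/

/-- the zeros on `∞` (`zA`: `n = q`; `z1oo`: `n = 1`). -/
theorem sev_z_oo (hSoo : S (Vtx.vert Vrt.oo) = Soo)
    (hsurj : ∀ Q : Place k ↥(modularFunctionFieldFullC k M₀), IsSSPlace k M₀ q Q →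
      ∃ P, pv P Vrt.oo = Q)
    {n : ℕ} (hn : 0 < n) (x : F) (u : ↥(modularFunctionFieldFullC k M₀))
    (hu : (u : LaurentSeries k) = ssFun k q)
    (hx : ((Soo.red x : ↥(modularFunctionFieldFullC k M₀)) : LaurentSeries k) = ssFun k q ^ n)
    (Q : Place k (FkOf ↥(modularFunctionFieldFullC k M₀) (fun _ : Mid => ↥(igField k M₀)) FkP
      (Vtx.vert Vrt.oo)))
    (hQ : 0 < Q.ord ((S (Vtx.vert Vrt.oo)).red x)) :
    ∃ P, pv P Vrt.oo = Q := by
  subst hSoo
  exact hsurj Q ((sev_pos_iff M₀ q hn ((S (Vtx.vert Vrt.oo)).red x) u hu hx Q).mp hQ)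

include hno in
/-- the orders on `∞` (`oA`: `n = q`; `o1oo`: `n = 1`). -/
theorem sev_o_oo (hSoo : S (Vtx.vert Vrt.oo) = Soo)
    (hss : ∀ P, IsSSPlace k M₀ q (pv P Vrt.oo))
    (n : ℕ) (x : F) (u : ↥(modularFunctionFieldFullC k M₀))
    (hu : (u : LaurentSeries k) = ssFun k q)
    (hx : ((Soo.red x : ↥(modularFunctionFieldFullC k M₀)) : LaurentSeries k) = ssFun k q ^ n)
    (P : SS) :
    (pv P Vrt.oo).ord ((S (Vtx.vert Vrt.oo)).red x) = 12 * n := by
  subst hSoo
  exact sev_ord_eq M₀ q n ((S (Vtx.vert Vrt.oo)).red x) u hu hx (pv P Vrt.oo)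
    (hno (pv P Vrt.oo) (hss P))

include hq in
/-- **field `zA`** of `ModEndsInput` (`uA = u₂`, `↑(red_∞ u₂) = ssFun ^ q`). -/
theorem sev_zA (hSoo : S (Vtx.vert Vrt.oo) = Soo)
    (hsurj : ∀ Q : Place k ↥(modularFunctionFieldFullC k M₀), IsSSPlace k M₀ q Q →
      ∃ P, pv P Vrt.oo = Q)
    (uA : F) (u : ↥(modularFunctionFieldFullC k M₀))
    (hu : (u : LaurentSeries k) = ssFun k q)
    (hx : ((Soo.red uA : ↥(modularFunctionFieldFullC k M₀)) : LaurentSeries k) = ssFun k q ^ q)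
    (Q : Place k (FkOf ↥(modularFunctionFieldFullC k M₀) (fun _ : Mid => ↥(igField k M₀)) FkP
      (Vtx.vert Vrt.oo)))
    (hQ : 0 < Q.ord ((S (Vtx.vert Vrt.oo)).red uA)) :
    ∃ P, pv P Vrt.oo = Q :=
  sev_z_oo M₀ q k FkP S pv Soo hSoo hsurj hq.pos uA u hu hx Q hQ

include hno in
/-- **field `oA`** of `ModEndsInput`, `wA = 12 q`. -/
theorem sev_oA (hSoo : S (Vtx.vert Vrt.oo) = Soo)
    (hss : ∀ P, IsSSPlace k M₀ q (pv P Vrt.oo))
    (uA : F) (u : ↥(modularFunctionFieldFullC k M₀))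
    (hu : (u : LaurentSeries k) = ssFun k q)
    (hx : ((Soo.red uA : ↥(modularFunctionFieldFullC k M₀)) : LaurentSeries k) = ssFun k q ^ q)
    (P : SS) :
    (pv P Vrt.oo).ord ((S (Vtx.vert Vrt.oo)).red uA) = 12 * (q : ℤ) :=
  sev_o_oo M₀ q k FkP S pv Soo hno hSoo hss q uA u hu hx P

/-- **field `z1oo`** of `ModEndsInput` (`↑(red_∞ u₁) = ssFun`). -/
theorem sev_z1oo (hSoo : S (Vtx.vert Vrt.oo) = Soo)
    (hsurj : ∀ Q : Place k ↥(modularFunctionFieldFullC k M₀), IsSSPlace k M₀ q Q →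
      ∃ P, pv P Vrt.oo = Q)
    (u1 : F)
    (hx : ((Soo.red u1 : ↥(modularFunctionFieldFullC k M₀)) : LaurentSeries k) = ssFun k q)
    (Q : Place k (FkOf ↥(modularFunctionFieldFullC k M₀) (fun _ : Mid => ↥(igField k M₀)) FkP
      (Vtx.vert Vrt.oo)))
    (hQ : 0 < Q.ord ((S (Vtx.vert Vrt.oo)).red u1)) :
    ∃ P, pv P Vrt.oo = Q :=
  sev_z_oo M₀ q k FkP S pv Soo hSoo hsurj Nat.one_pos u1 (Soo.red u1) hx
    (by rw [hx, pow_one]) Q hQ

include hno in
/-- **field `o1oo`** of `ModEndsInput`, `w1 = 12`. -/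
theorem sev_o1oo (hSoo : S (Vtx.vert Vrt.oo) = Soo)
    (hss : ∀ P, IsSSPlace k M₀ q (pv P Vrt.oo))
    (u1 : F)
    (hx : ((Soo.red u1 : ↥(modularFunctionFieldFullC k M₀)) : LaurentSeries k) = ssFun k q)
    (P : SS) :
    (pv P Vrt.oo).ord ((S (Vtx.vert Vrt.oo)).red u1) = 12 := by
  subst hSoo
  exact hno (pv P Vrt.oo) (hss P) ((S (Vtx.vert Vrt.oo)).red u1) hx

/-! #### the vertex `0`  (`hS0 : S 0 = S0`) -/

/-- the zeros on `0`. -/
theorem sev_z_zero (hS0 : S (Vtx.vert Vrt.zero) = S0)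
    (hsurj : ∀ Q : Place k ↥(modularFunctionFieldFullC k M₀), IsSSPlace k M₀ q Q →
      ∃ P, pv P Vrt.zero = Q)
    {n : ℕ} (hn : 0 < n) (x : F) (u : ↥(modularFunctionFieldFullC k M₀))
    (hu : (u : LaurentSeries k) = ssFun k q)
    (hx : ((S0.red x : ↥(modularFunctionFieldFullC k M₀)) : LaurentSeries k) = ssFun k q ^ n)
    (Q : Place k (FkOf ↥(modularFunctionFieldFullC k M₀) (fun _ : Mid => ↥(igField k M₀)) FkP
      (Vtx.vert Vrt.zero)))
    (hQ : 0 < Q.ord ((S (Vtx.vert Vrt.zero)).red x)) :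
    ∃ P, pv P Vrt.zero = Q := by
  subst hS0
  exact hsurj Q ((sev_pos_iff M₀ q hn ((S (Vtx.vert Vrt.zero)).red x) u hu hx Q).mp hQ)

include hno in
/-- the orders on `0`. -/
theorem sev_o_zero (hS0 : S (Vtx.vert Vrt.zero) = S0)
    (hss : ∀ P, IsSSPlace k M₀ q (pv P Vrt.zero))
    (n : ℕ) (x : F) (u : ↥(modularFunctionFieldFullC k M₀))
    (hu : (u : LaurentSeries k) = ssFun k q)
    (hx : ((S0.red x : ↥(modularFunctionFieldFullC k M₀)) : LaurentSeries k) = ssFun k q ^ n)
    (P : SS) :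
    (pv P Vrt.zero).ord ((S (Vtx.vert Vrt.zero)).red x) = 12 * n := by
  subst hS0
  exact sev_ord_eq M₀ q n ((S (Vtx.vert Vrt.zero)).red x) u hu hx (pv P Vrt.zero)
    (hno (pv P Vrt.zero) (hss P))

include hq in
/-- **field `z2`** of `ModEndsInput` (`x = ϖ₂ / u2 = q¹² / u₁`, `↑(red_0 x) = ssFun ^ q`). -/
theorem sev_z2 (hS0 : S (Vtx.vert Vrt.zero) = S0)
    (hsurj : ∀ Q : Place k ↥(modularFunctionFieldFullC k M₀), IsSSPlace k M₀ q Q →
      ∃ P, pv P Vrt.zero = Q)
    (x : F) (u : ↥(modularFunctionFieldFullC k M₀))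
    (hu : (u : LaurentSeries k) = ssFun k q)
    (hx : ((S0.red x : ↥(modularFunctionFieldFullC k M₀)) : LaurentSeries k) = ssFun k q ^ q)
    (Q : Place k (FkOf ↥(modularFunctionFieldFullC k M₀) (fun _ : Mid => ↥(igField k M₀)) FkP
      (Vtx.vert Vrt.zero)))
    (hQ : 0 < Q.ord ((S (Vtx.vert Vrt.zero)).red x)) :
    ∃ P, pv P Vrt.zero = Q :=
  sev_z_zero M₀ q k FkP S pv S0 hS0 hsurj hq.pos x u hu hx Q hQ

include hno in
/-- **field `o2`** of `ModEndsInput`, `w2 = 12 q`. -/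
theorem sev_o2 (hS0 : S (Vtx.vert Vrt.zero) = S0)
    (hss : ∀ P, IsSSPlace k M₀ q (pv P Vrt.zero))
    (x : F) (u : ↥(modularFunctionFieldFullC k M₀))
    (hu : (u : LaurentSeries k) = ssFun k q)
    (hx : ((S0.red x : ↥(modularFunctionFieldFullC k M₀)) : LaurentSeries k) = ssFun k q ^ q)
    (P : SS) :
    (pv P Vrt.zero).ord ((S (Vtx.vert Vrt.zero)).red x) = 12 * (q : ℤ) :=
  sev_o_zero M₀ q k FkP S pv S0 hno hS0 hss q x u hu hx P

/-! #### the Igusa components  (`hSm : ∀ m, S (mid m) = Sm m`) -/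

include hqM hno in
/-- **field `z1m`** of `ModEndsInput` (`↑(red_m u₁) = ssFun`): the zeros of `red_m u₁` are the
points `P_m`. -/
theorem sev_z1m (hSm : ∀ m, S (Vtx.vert (Vrt.mid m)) = Sm m)
    (hsurj : ∀ (m : Mid) (Q : Place k ↥(modularFunctionFieldFullC k M₀)),
      IsSSPlace k M₀ q Q → ∃ P,
        Place.restrictAlong (igIncl k M₀) (sev_isIntegral M₀ q hq k) (pv P (Vrt.mid m)) = Q)
    (u1 : F) (u : ↥(modularFunctionFieldFullC k M₀))
    (hu : (u : LaurentSeries k) = ssFun k q)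
    (hx : ∀ m, ((((Sm m).red u1 : ↥(igField k M₀))) : LaurentSeries k) = ssFun k q)
    (m : Mid)
    (Q : Place k (FkOf ↥(modularFunctionFieldFullC k M₀) (fun _ : Mid => ↥(igField k M₀)) FkP
      (Vtx.vert (Vrt.mid m))))
    (hQ : 0 < Q.ord ((S (Vtx.vert (Vrt.mid m))).red u1)) :
    ∃ P, pv P (Vrt.mid m) = Q := by
  have hx' := hx m
  rw [← hSm m] at hx'
  have h1 : IsSSPlace k M₀ q
      (Place.restrictAlong (igIncl k M₀) (sev_isIntegral M₀ q hq k) Q) :=
    (sev_mid_pos_iff M₀ q hq k ((S (Vtx.vert (Vrt.mid m))).red u1) u hu hx' Q).mp hQ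
  obtain ⟨P, hP⟩ := hsurj m _ h1
  exact ⟨P, sev_mid_unique M₀ q hq hqM k _ h1 (hno _ h1) (pv P (Vrt.mid m)) Q hP rfl⟩

include hqM hno in
/-- **field `o1m`** of `ModEndsInput`, `wM = 12 midDeg q`. -/
theorem sev_o1m (hSm : ∀ m, S (Vtx.vert (Vrt.mid m)) = Sm m)
    (hss : ∀ P m, IsSSPlace k M₀ q
      (Place.restrictAlong (igIncl k M₀) (sev_isIntegral M₀ q hq k) (pv P (Vrt.mid m))))
    (u1 : F) (u : ↥(modularFunctionFieldFullC k M₀))
    (hu : (u : LaurentSeries k) = ssFun k q)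
    (hx : ∀ m, ((((Sm m).red u1 : ↥(igField k M₀))) : LaurentSeries k) = ssFun k q)
    (P : SS) (m : Mid) :
    (pv P (Vrt.mid m)).ord ((S (Vtx.vert (Vrt.mid m))).red u1) = 12 * (midDeg q : ℤ) := by
  have hx' := hx m
  rw [← hSm m] at hx'
  exact sev_mid_ord_eq M₀ q hq hqM k ((S (Vtx.vert (Vrt.mid m))).red u1) u hu hx' _ (hss P m)
    (hno _ (hss P m)) (pv P (Vrt.mid m)) rfl

/-- **field `pv_inj`** of `ModEndsInput`, for ANY `pv` whose points lie over pairwise distinct
places `ι P` of `k(Z)`. -/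
theorem sev_pv_inj (ι : SS → Place k ↥(modularFunctionFieldFullC k M₀))
    (hι : Function.Injective ι)
    (hoo : ∀ P, pv P Vrt.oo = ι P) (hzero : ∀ P, pv P Vrt.zero = ι P)
    (hmid : ∀ P m, Place.restrictAlong (igIncl k M₀) (sev_isIntegral M₀ q hq k)
      (pv P (Vrt.mid m)) = ι P)
    (v : Vrt Mid) (P P' : SS) (h : pv P v = pv P' v) : P = P' := by
  cases v with
  | oo => exact hι ((hoo P).symm.trans (h.trans (hoo P')))
  | zero => exact hι ((hzero P).symm.trans (h.trans (hzero P')))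
  | mid m =>
    apply hι
    rw [← hmid P m, h, hmid P' m]

end Family

end Fermat.Agent.S36G
end
end MergeWrap_S36_Seed_EndsVert
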