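import Mathlib
import Fermat.Agent.MU.S36.Ig.EpsGen
import Fermat.Agent.MU.Lib.BadRed.Mod.UParamFun
import Fermat.Agent.MU.Lib.BadRed.Mod.UParamW
import Fermat.Agent.MU.S36.Seed.U2
import Fermat.Agent.MU.S36.Igusa.Exp
import Fermat.Agent.MU.S36.Igusa.ExpExists

section MergeWrap_S36_Seed_UMidAn -- from S36/Seed/UMidAn.lean

set_option autoImplicit false
set_option linter.style.haveILetI false

noncomputable section

namespace Fermat.Agent.S36G

open ModularCurve UpperHalfPlane Fermat.Agent.S24 Fermat.Agent.S24.GensExp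
  Fermat.Agent.Kronecker Fermat.Agent.S48WKron Fermat.Agent.S36Ig Fermat.Agent.BadRed
  Fermat.Agent.AtkinLehner
open scoped MatrixGroups

/-- `[[1, b], [0, 1]]`. -/
def umidT (b : ℤ) : SL(2, ℤ) :=
  ⟨!![1, b; 0, 1], by rw [Matrix.det_fin_two_of]; ring⟩

/-- `[[q, -b], [c, w]]`, `q w + c b = 1`. -/
def umidAux (q : ℕ) (c b w : ℤ) (h : (q : ℤ) * w + c * b = 1) : SL(2, ℤ) :=
  ⟨!![(q : ℤ), -b; c, w], by
    rw [Matrix.det_fin_two_of]
    linear_combination h⟩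

variable (q : ℕ) [NeZero q]

/-- `q · g(τ) = g'(q τ)`, `g = [[1,0],[q c,1]]`, `g' = [[1,0],[c,1]]`. -/
theorem umid_scale_low (c : ℤ) (τ : ℍ) :
    scale q (epsLow ((q : ℤ) * c) • τ) = epsLow c • scale q τ := by
  apply UpperHalfPlane.ext
  have h1 := sl2_denom_ne_zero (epsLow ((q : ℤ) * c)) τ
  have h2 := sl2_denom_ne_zero (epsLow c) (scale q τ)
  rw [coe_scale, coe_sl2_smul, coe_sl2_smul, coe_scale]
  rw [coe_scale] at h2
  simp only [epsLow_00, epsLow_01, epsLow_10, epsLow_11] at h1 h2 ⊢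
  push_cast at h1 h2 ⊢
  field_simp
  ring

/-- `q (τ + b/q) = q τ + b`. -/
theorem umid_scale_aff (b : ℤ) (τ : ℍ) :
    scale q (aff q q b (Nat.pos_of_ne_zero (NeZero.ne q)) (Nat.pos_of_ne_zero (NeZero.ne q)) τ) =
      umidT b • scale q τ := by
  apply UpperHalfPlane.ext
  have hq : (q : ℂ) ≠ 0 := by exact_mod_cast NeZero.ne q
  rw [coe_scale, coe_sl2_smul, coe_aff, coe_scale]
  have e00 : (umidT b) 0 0 = 1 := rfl
  have e01 : (umidT b) 0 1 = b := rfl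
  have e10 : (umidT b) 1 0 = 0 := rfl
  have e11 : (umidT b) 1 1 = 1 := rfl
  rw [e00, e01, e10, e11]
  push_cast
  field_simp
  ring

/-- `q² · g(τ) = γ''(τ + b/q)`. -/
theorem umid_scale2_low (c b w : ℤ) (h : (q : ℤ) * w + c * b = 1) (τ : ℍ) :
    scale q (scale q (epsLow ((q : ℤ) * c) • τ)) =
      umidAux q c b w h •
        aff q q b (Nat.pos_of_ne_zero (NeZero.ne q)) (Nat.pos_of_ne_zero (NeZero.ne q)) τ := by
  apply UpperHalfPlane.ext
  have h1 := sl2_denom_ne_zero (epsLow ((q : ℤ) * c)) τ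
  have h2 := sl2_denom_ne_zero (umidAux q c b w h)
    (aff q q b (Nat.pos_of_ne_zero (NeZero.ne q)) (Nat.pos_of_ne_zero (NeZero.ne q)) τ)
  have hq : (q : ℂ) ≠ 0 := by exact_mod_cast NeZero.ne q
  have hC : ((q : ℂ) * (w : ℂ) + (c : ℂ) * (b : ℂ)) = 1 := by
    exact_mod_cast congrArg (Int.cast : ℤ → ℂ) h
  rw [coe_scale, coe_scale, coe_sl2_smul, coe_sl2_smul, coe_aff]
  rw [coe_aff] at h2
  have e00 : (umidAux q c b w h) 0 0 = (q : ℤ) := rfl
  have e01 : (umidAux q c b w h) 0 1 = -b := rfl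
  have e10 : (umidAux q c b w h) 1 0 = c := rfl
  have e11 : (umidAux q c b w h) 1 1 = w := rfl
  rw [e10, e11] at h2
  rw [e00, e01, e10, e11]
  simp only [epsLow_00, epsLow_01, epsLow_10, epsLow_11] at h1 ⊢
  push_cast at h1 h2 ⊢
  have hden : (c : ℂ) * (((q : ℂ) * (τ : ℂ) + (b : ℂ)) / (q : ℂ)) + (w : ℂ) =
      ((q : ℂ) * (c : ℂ) * (τ : ℂ) + 1) / (q : ℂ) := by
    field_simp
    linear_combination hC
  rw [hden] at h2 ⊢
  have h3 : (q : ℂ) * (c : ℂ) * (τ : ℂ) + 1 ≠ 0 := h1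
  field_simp
  ring

/-- **`u(q · g τ) · u(τ + b/q) = q ^ 12`.** -/
theorem umid_u2_mul (c b w : ℤ) (h : (q : ℤ) * w + c * b = 1) (τ : ℍ) :
    uFn q (scale q (epsLow ((q : ℤ) * c) • τ)) *
      uFn q (aff q q b (Nat.pos_of_ne_zero (NeZero.ne q)) (Nat.pos_of_ne_zero (NeZero.ne q)) τ) =
      (q : ℂ) ^ 12 := by
  have hq : (q : ℂ) ≠ 0 := by exact_mod_cast NeZero.ne q
  have hC : ((q : ℂ) * (w : ℂ) + (c : ℂ) * (b : ℂ)) = 1 := by
    exact_mod_cast congrArg (Int.cast : ℤ → ℂ) h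
  rw [uFn_apply, uFn_apply, umid_scale2_low q c b w h, umid_scale_low, umid_scale_aff,
    discriminant_sl2_smul, discriminant_sl2_smul, discriminant_sl2_smul]
  have h1 := sl2_denom_ne_zero (epsLow c) (scale q τ)
  have h2 := sl2_denom_ne_zero (umidAux q c b w h)
    (aff q q b (Nat.pos_of_ne_zero (NeZero.ne q)) (Nat.pos_of_ne_zero (NeZero.ne q)) τ)
  have e00 : (umidAux q c b w h) 0 0 = (q : ℤ) := rfl
  have e01 : (umidAux q c b w h) 0 1 = -b := rfl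
  have e10 : (umidAux q c b w h) 1 0 = c := rfl
  have e11 : (umidAux q c b w h) 1 1 = w := rfl
  have t10 : (umidT b) 1 0 = 0 := rfl
  have t11 : (umidT b) 1 1 = 1 := rfl
  rw [e10, e11] at h2 ⊢
  rw [t10, t11]
  simp only [epsLow_10, epsLow_11] at h1 ⊢
  rw [coe_aff] at h2 ⊢
  rw [coe_scale] at h1 ⊢
  have hden : (c : ℂ) * (((q : ℂ) * (τ : ℂ) + (b : ℂ)) / (q : ℂ)) + (w : ℂ) =
      ((c : ℂ) * ((q : ℂ) * (τ : ℂ)) + 1) / (q : ℂ) := by
    field_simp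
    linear_combination hC
  push_cast at h1 h2 ⊢
  rw [hden] at h2 ⊢
  have hΔ1 := ModularForm.discriminant_ne_zero (scale q τ)
  have hΔ2 := ModularForm.discriminant_ne_zero
    (aff q q b (Nat.pos_of_ne_zero (NeZero.ne q)) (Nat.pos_of_ne_zero (NeZero.ne q)) τ)
  simp only [zero_mul, zero_add, one_pow, mul_one]
  rw [div_pow]
  have h1' : (c : ℂ) * (q : ℂ) * (τ : ℂ) + 1 ≠ 0 := by rwa [mul_assoc]
  field_simp

/-- the expansion of `τ ↦ u(τ + b/q)` in `e(τ/(M₀ q²))`: `u(z Q)`, `Q = e(τ)`, `z = e(b/q)`. -/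
theorem umid_hasExp_aff (M₀ : ℕ) [NeZero M₀] [NeZero (M₀ * q * q)] (b : ℤ) (z : Kbarˣ)
    (hzq : z ^ q = 1)
    (hz : iota (z : Kbar) = Complex.exp (2 * Real.pi * Complex.I * (b : ℂ) / (q : ℂ))) :
    HasExp (M₀ * q * q)
      (fun τ => uFn q (aff q q b (Nat.pos_of_ne_zero (NeZero.ne q))
        (Nat.pos_of_ne_zero (NeZero.ne q)) τ))
      (qExpand Kbar (M₀ * q * q) (scaleL z (uSer Kbar q))) := by
  haveI : NeZero (q * (M₀ * q)) :=
    ⟨mul_ne_zero (NeZero.ne q) (mul_ne_zero (NeZero.ne M₀) (NeZero.ne q))⟩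
  have hφ : ∀ τ : ℍ, uParam 1 (aff q q b (Nat.pos_of_ne_zero (NeZero.ne q))
      (Nat.pos_of_ne_zero (NeZero.ne q)) τ)
      = iota (z : Kbar) * uParam (M₀ * q * q) τ ^ (q * (M₀ * q)) := by
    intro τ
    rw [uParam_one_aff (M₀ * q * q) q q (M₀ * q) b _ _
      (by ring) (Nat.mul_pos (Nat.pos_of_ne_zero (NeZero.ne M₀))
        (Nat.pos_of_ne_zero (NeZero.ne q))), hz]
  have h1 := epsTw_hasExp_comp (hasExp_uFn q) _ z
    (eps_norm_iota_of_pow (NeZero.ne q) hzq) (q * (M₀ * q)) hφ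
  rw [qExpand_congr (show q * (M₀ * q) = M₀ * q * q by ring)] at h1
  exact h1

/-- **the middle cusp**: `(u₂ ∘ g) · u(τ + b/q) = q ^ 12`, `u₂(τ) = u(q τ)`,
`g = [[1, 0], [M₀ q t, 1]]`, `q w + M₀ t b = 1`. -/
theorem umid_u2_low_mul (M₀ : ℕ) (t b w : ℤ) (h : (q : ℤ) * w + (M₀ : ℤ) * t * b = 1) (τ : ℍ) :
    uFn q (scale q (epsLow ((M₀ : ℤ) * q * t) • τ)) *
      uFn q (aff q q b (Nat.pos_of_ne_zero (NeZero.ne q)) (Nat.pos_of_ne_zero (NeZero.ne q)) τ) =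
      (q : ℂ) ^ 12 := by
  have hc : (M₀ : ℤ) * q * t = (q : ℤ) * ((M₀ : ℤ) * t) := by ring
  rw [hc]
  exact umid_u2_mul q ((M₀ : ℤ) * t) b w h τ

end Fermat.Agent.S36G
end
end MergeWrap_S36_Seed_UMidAn

section MergeWrap_S36_Seed_UMid -- from S36/Seed/UMid.lean

set_option autoImplicit false
set_option linter.style.haveILetI false
set_option linter.unusedSectionVars false

noncomputable section

namespace Fermat.Agent.S36G

open ModularCurve UpperHalfPlane Fermat.Agent.S24 Fermat.Agent.S24.GensExp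
  Fermat.Agent.Kronecker Fermat.Agent.S48WKron Fermat.Agent.S36Ig Fermat.Agent.BadRed
  Fermat.Agent.AtkinLehner
open scoped MatrixGroups

local notation "Qb" => AlgebraicClosure ℚ

variable (M₀ q : ℕ) [NeZero M₀] [NeZero q]

theorem umid_jF_eq_jdBar (N d : ℕ) [NeZero d] (hd : d ∣ N) : jF N d hd = jdBar N d hd := by
  apply Subtype.ext
  rw [coe_jF, coe_jdBar]

/-- the ring homomorphism `a ↦ (ε a)(Q^N)` on `B_N`. -/
def umidPhi (N : ℕ) [NeZero N]
    (ε : ↥(modularFunctionFieldBar N) →ₐ[Qb] LaurentSeries Qb) :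
    BN N →+* LaurentSeries Qb :=
  (qExpand Qb N).comp
    (ε.toRingHom.comp
      ((equivF N).toAlgHom.toRingHom.comp (algebraMap (BN N) (FB N))))

theorem umidPhi_apply (N : ℕ) [NeZero N]
    (ε : ↥(modularFunctionFieldBar N) →ₐ[Qb] LaurentSeries Qb) (a : BN N) :
    umidPhi N ε a = qExpand Qb N (ε (equivF N (algebraMap (BN N) (FB N) a))) := rfl

/-- **the middle expansion is the expansion of `f ∘ g`**, on `B_N = ℚ̄[j_d : d ∣ N]`. -/
theorem umid_bridge_BN (hq : q.Prime) {z : Qbˣ}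
    {ε : ↥(modularFunctionFieldBar (M₀ * q * q)) →ₐ[Qb] LaurentSeries Qb}
    (hε : IsMidExp M₀ q z ε) (t b w : ℤ) (h : (q : ℤ) * w + (M₀ : ℤ) * t * b = 1)
    (hzq : z ^ q = 1)
    (hz : iota (z : Qb) = Complex.exp (2 * Real.pi * Complex.I * (b : ℂ) / (q : ℂ)))
    {f : Fun} (hf : f ∈ BN (M₀ * q * q)) :
    HasExp (M₀ * q * q) ((epsLow ((M₀ : ℤ) * q * t))⁻¹ • f)
      (umidPhi (M₀ * q * q) ε ⟨f, hf⟩) := by
  induction hf using Algebra.adjoin_induction with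
  | mem x hx =>
    obtain ⟨d, hdne, hd, rfl⟩ := hx
    have e1 : (⟨jd d, Algebra.subset_adjoin ⟨d, hdne, hd, rfl⟩⟩ : BN (M₀ * q * q)) =
        jdB (M₀ * q * q) d hd := rfl
    rw [e1, umidPhi_apply, equivF_jdB, umid_jF_eq_jdBar]
    rcases igx_dvd_cases hq hd with h1 | ⟨d', hd', hDeq⟩
    · rw [igx_jdBar_alpha M₀ q d h1 hd, hε.alpha, coe_jdBar, eps_low_smul_jd M₀ q d h1 t,
        qExpand_qExpand]
      exact hasExp_jd (M₀ * q * q) d hd
    · subst hDeq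
      haveI hd'ne : NeZero d' := ⟨by
        rintro rfl
        exact hdne.out (by simp)⟩
      haveI : NeZero (q * q * d') :=
        ⟨mul_ne_zero (mul_ne_zero (NeZero.ne q) (NeZero.ne q)) (NeZero.ne d')⟩
      rw [igx_jdBar_beta2 M₀ q d' hd' hd, hε.beta2, coe_jdBar]
      have h2 := eps_hasExp_low_smul_jd M₀ q d' hd' t b w h z hzq hz
      have e2 : jd (d' * q * q) = jd (q * q * d') := by
        ext τ
        show jFun (scale (d' * q * q) τ) = jFun (scale (q * q * d') τ)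
        congr 1
        apply UpperHalfPlane.ext
        rw [coe_scale, coe_scale]
        push_cast
        ring
      rw [e2]
      exact h2
  | algebraMap c =>
    have e1 : (⟨algebraMap Qb Fun c, Subalgebra.algebraMap_mem _ c⟩ : BN (M₀ * q * q)) =
        algebraMap Qb (BN (M₀ * q * q)) c := rfl
    have e2 : (epsLow ((M₀ : ℤ) * q * t))⁻¹ • (algebraMap Qb Fun c) = algebraMap Qb Fun c := by
      ext τ
      simp
    rw [e1, e2, umidPhi_apply, ← IsScalarTower.algebraMap_apply, AlgEquiv.commutes,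
      AlgHom.commutes, qExpand_algebraMap]
    exact HasExp.algebraMap (M₀ * q * q) c
  | add x y hx hy ihx ihy =>
    have e1 : (⟨x + y, add_mem hx hy⟩ : BN (M₀ * q * q)) = ⟨x, hx⟩ + ⟨y, hy⟩ := rfl
    rw [e1, map_add, smul_add]
    exact ihx.add ihy
  | mul x y hx hy ihx ihy =>
    have e1 : (⟨x * y, mul_mem hx hy⟩ : BN (M₀ * q * q)) = ⟨x, hx⟩ * ⟨y, hy⟩ := rfl
    rw [e1, map_mul, smul_mul']
    exact ihx.mul ihy

/-! ### `u₁` -/

theorem umid_dvd1 : q ∣ M₀ * q * q := Dvd.intro_left _ rfl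

theorem umid_dvd2 : q * q ∣ M₀ * q * q := ⟨M₀, by ring⟩

theorem umid_uF_eq_alpha :
    uF (M₀ * q * q) q (umid_dvd1 M₀ q) =
      heckeAlphaBar Qb (M₀ * q) q (uF (M₀ * q) q (Dvd.intro_left _ rfl)) := by
  apply Subtype.ext
  rw [coe_heckeAlphaBar, coe_uF, coe_uF]

/-- **`ε_z u₁ = u₁`** (as series). -/
theorem umid_eps_uF {z : Qbˣ}
    {ε : ↥(modularFunctionFieldBar (M₀ * q * q)) →ₐ[Qb] LaurentSeries Qb}
    (hε : IsMidExp M₀ q z ε) :
    ε (uF (M₀ * q * q) q (umid_dvd1 M₀ q)) = uSer Qb q := by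
  rw [umid_uF_eq_alpha, hε.alpha, coe_uF]

/-! ### `u₂` -/

/-- the `q`-expansion of `τ ↦ u(q τ)` is `uSer2`. -/
theorem umid_hasExp_uFn_scale : HasExp 1 (fun τ => uFn q (scale q τ)) (uSer2 Qb q) := by
  have hφ : ∀ τ : ℍ, uParam 1 (scale q τ) = iota ((1 : Qbˣ) : Qb) * uParam 1 τ ^ q := by
    intro τ
    rw [uParam_one_scale 1 q τ, Units.val_one, map_one, one_mul, one_mul]
  have h1 := epsTw_hasExp_comp (hasExp_uFn q) (scale q) 1
    (by rw [Units.val_one, map_one, norm_one]) q hφ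
  rw [scaleL_one] at h1
  exact h1

/-- **`ε_z u₂ · u₁(z Q) = q ^ 12`**: the middle expansion of `u₂ = Δ(qτ) / Δ(q²τ)` is
`q ^ 12 · Δ(Q^q) / Δ(z Q)`. -/
theorem umid_eps_uF2 (hq : q.Prime) (hqM : ¬ q ∣ M₀) {z : Qbˣ} (hz : IsPrimitiveRoot z q)
    {ε : ↥(modularFunctionFieldBar (M₀ * q * q)) →ₐ[Qb] LaurentSeries Qb}
    (hε : IsMidExp M₀ q z ε) :
    ε (uF2 (M₀ * q * q) q (umid_dvd2 M₀ q)) * scaleL z (uSer Qb q) =
      algebraMap Qb (LaurentSeries Qb) ((q : Qb) ^ 12) := by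
  obtain ⟨b, hb, hzb⟩ := igEx_exists_exp q z hz
  have hzq : z ^ q = 1 := hz.pow_eq_one
  obtain ⟨w, t, hwt⟩ : ∃ w t : ℤ, (q : ℤ) * w + (M₀ : ℤ) * t * ((b : ℕ) : ℤ) = 1 := by
    have hc1 : Nat.Coprime q M₀ := (Nat.Prime.coprime_iff_not_dvd hq).mpr hqM
    have hc : Nat.Coprime q (M₀ * b) := Nat.Coprime.mul_right hc1 hb.symm
    have h1 : IsCoprime (q : ℤ) ((M₀ * b : ℕ) : ℤ) := Nat.isCoprime_iff_coprime.mpr hc
    obtain ⟨u, v, huv⟩ := h1
    refine ⟨u, v, ?_⟩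
    push_cast at huv
    linear_combination huv
  -- `u₂ = a / c` with `a, c ∈ B_N`
  have hexp : HasExp 1 (fun τ => uFn q (scale q τ))
      ((uF2 (M₀ * q * q) q (umid_dvd2 M₀ q) : modularFunctionFieldBar (M₀ * q * q)) :
        LaurentSeries Kbar) := by
    rw [coe_uF2]
    exact umid_hasExp_uFn_scale q
  obtain ⟨a, c, hc0, hu, hac⟩ :=
    exists_BN_of_hasExp (M₀ * q * q) (uF2 (M₀ * q * q) q (umid_dvd2 M₀ q)) _ hexp
  have ha := umid_bridge_BN M₀ q hq hε t b w hwt hzq hzb a.2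
  have hc := umid_bridge_BN M₀ q hq hε t b w hwt hzq hzb c.2
  obtain ⟨F2, hF2⟩ : ∃ F2 : Fun, F2 = fun τ => uFn q (aff q q (b : ℤ)
      (Nat.pos_of_ne_zero (NeZero.ne q)) (Nat.pos_of_ne_zero (NeZero.ne q)) τ) := ⟨_, rfl⟩
  have haff : HasExp (M₀ * q * q) F2 (qExpand Kbar (M₀ * q * q) (scaleL z (uSer Kbar q))) := by
    rw [hF2]
    exact umid_hasExp_aff q M₀ (b : ℤ) z hzq hzb
  -- the product
  have h1 := ha.mul haff
  have h2 := (HasExp.algebraMap (M₀ * q * q) ((q : Qb) ^ 12)).mul hc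
  have hfun : ((epsLow ((M₀ : ℤ) * q * t))⁻¹ • (a : Fun)) * F2 =
      algebraMap Kbar Fun ((q : Qb) ^ 12) * ((epsLow ((M₀ : ℤ) * q * t))⁻¹ • (c : Fun)) := by
    ext τ
    rw [hF2]
    show (a : Fun) ((epsLow ((M₀ : ℤ) * q * t))⁻¹⁻¹ • τ) * uFn q (aff q q (b : ℤ) _ _ τ) =
      iota ((q : Qb) ^ 12) * (c : Fun) ((epsLow ((M₀ : ℤ) * q * t))⁻¹⁻¹ • τ)
    rw [hac, inv_inv, map_pow, map_natCast]
    have h3 := umid_u2_low_mul q M₀ t b w hwt τ
    linear_combination ((c : Fun) (epsLow ((M₀ : ℤ) * q * t) • τ)) * h3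
  rw [hfun] at h1
  have h4 := h1.unique h2
  -- back to `ε`
  rw [show (⟨(a : Fun), a.2⟩ : BN (M₀ * q * q)) = a from rfl,
    show (⟨(c : Fun), c.2⟩ : BN (M₀ * q * q)) = c from rfl,
    umidPhi_apply, umidPhi_apply, ← qExpand_algebraMap (M₀ * q * q), ← map_mul, ← map_mul] at h4
  have h5 := qExpand_injective (R := Qb) (N := M₀ * q * q) h4
  have hcne : ε (equivF (M₀ * q * q)
      (algebraMap (BN (M₀ * q * q)) (FB (M₀ * q * q)) c)) ≠ 0 := by
    intro h0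
    have h6 : algebraMap (BN (M₀ * q * q)) (FB (M₀ * q * q)) c = 0 := by
      have h7 : ε (equivF (M₀ * q * q) (algebraMap (BN (M₀ * q * q)) (FB (M₀ * q * q)) c)) =
          ε 0 := by rw [h0, map_zero]
      have h8 := ε.toRingHom.injective h7
      have h9 : equivF (M₀ * q * q) (algebraMap (BN (M₀ * q * q)) (FB (M₀ * q * q)) c) =
          equivF (M₀ * q * q) 0 := by rw [h8, map_zero]
      exact (equivF (M₀ * q * q)).injective h9
    exact hc0 ((IsFractionRing.injective (BN (M₀ * q * q)) (FB (M₀ * q * q)))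
      (h6.trans (map_zero _).symm))
  rw [hu, map_div₀, map_div₀, div_mul_eq_mul_div, h5, mul_div_assoc, div_self hcne, mul_one]

end Fermat.Agent.S36G
end
end MergeWrap_S36_Seed_UMid
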