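import Mathlib
import Fermat.Agent.Lib.BadRed.HPVal.Circle
import Fermat.Agent.Lib.FF.Value
import Fermat.Agent.Lib.BadRed.HPVal.DiscTaylor
import Fermat.Agent.MU.Lib.BadRed.Nodal.Setup

section MergeWrap_Lib_BadRed_HPVal_RestrAbs -- from Lib/BadRed/HPVal/RestrAbs.lean

set_option autoImplicit false

noncomputable section

namespace Fermat.Agent.HPVal

open Polynomial

variable {F : Type*} [Field F] {k : Type*} [Field k]

/-- `V` is a circle valuation ring for the data `(B, ϖ, t, ev)`. -/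
structure IsCircleVal (V : ValuationSubring F) (B : Subring F) (ϖ t : F) (ev : B →+* k) :
    Prop where
  le : ∀ b ∈ B, b ∈ V
  Y_mem : t * ϖ⁻¹ ∈ V
  nonunits_iff : ∀ G : (↥B)[X], CircleData.evalHom B ϖ t G ∈ V.nonunits ↔ G.map ev = 0

/-- existence of a circle valuation ring (restatement of `CircleData.exists_circle`). -/
theorem CircleData.exists_isCircleVal {O B : Subring F} {ϖ t : F} {ev : B →+* k}
    (D : CircleData O B ϖ t ev) : ∃ V : ValuationSubring F, IsCircleVal V B ϖ t ev := by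
  obtain ⟨V, h1, h2, h3⟩ := D.exists_circle
  exact ⟨V, h1, h2, h3⟩

namespace IsCircleVal

variable {V V' : ValuationSubring F} {B : Subring F} {ϖ t : F} {ev : B →+* k}

theorem evalHom_mem (hV : IsCircleVal V B ϖ t ev) (G : (↥B)[X]) :
    CircleData.evalHom B ϖ t G ∈ V := by
  show Polynomial.eval₂ B.subtype (t * ϖ⁻¹) G ∈ V
  rw [Polynomial.eval₂_eq_sum]
  refine Subring.sum_mem V.toSubring fun i _ => ?_
  exact mul_mem (hV.le _ (G.coeff i).2) (pow_mem hV.Y_mem _)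

theorem inv_mem_of_map_ne (hV : IsCircleVal V B ϖ t ev) {G : (↥B)[X]} (hG : G.map ev ≠ 0) :
    (CircleData.evalHom B ϖ t G)⁻¹ ∈ V := by
  by_contra hinv
  have h1 : CircleData.evalHom B ϖ t G ∈ V.nonunits := by
    rw [ValuationSubring.mem_nonunits_iff_or]
    exact Or.inr hinv
  exact hG ((hV.nonunits_iff G).mp h1)

theorem ne_zero_of_map_ne (hV : IsCircleVal V B ϖ t ev) {G : (↥B)[X]} (hG : G.map ev ≠ 0) :
    CircleData.evalHom B ϖ t G ≠ 0 := by
  intro h0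
  apply hG
  rw [← hV.nonunits_iff G, ValuationSubring.mem_nonunits_iff_or]
  exact Or.inl h0

theorem unit_of_map_ne (hV : IsCircleVal V B ϖ t ev) {G : (↥B)[X]} (hG : G.map ev ≠ 0) :
    CircleData.evalHom B ϖ t G ∈ V ∧ (CircleData.evalHom B ϖ t G)⁻¹ ∈ V :=
  ⟨hV.evalHom_mem G, hV.inv_mem_of_map_ne hG⟩

/-- `b ∈ B` is a non-unit of `V` iff it vanishes at the centre. -/
theorem nonunits_iff_ev (hV : IsCircleVal V B ϖ t ev) (b : B) :
    (b : F) ∈ V.nonunits ↔ ev b = 0 := by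
  have h1 := hV.nonunits_iff (C b)
  rw [CircleData.evalHom_C, Polynomial.map_C] at h1
  rw [h1]
  exact Polynomial.C_eq_zero

/-- `t / ϖ` is a unit of `V`. -/
theorem Y_inv_mem (hV : IsCircleVal V B ϖ t ev) : (t * ϖ⁻¹)⁻¹ ∈ V := by
  have h1 := hV.inv_mem_of_map_ne (G := X) (by
    rw [Polynomial.map_X]
    exact Polynomial.X_ne_zero)
  rwa [CircleData.evalHom_X] at h1

/-- **uniqueness, one inclusion.**  `Cst` = the constants; `(N)`: every `f ≠ 0` is
`c * G₁ (t/ϖ) / G₂ (t/ϖ)` with `c` a constant and `G̅₁, G̅₂ ≠ 0`. -/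
theorem le_of_norm (hV : IsCircleVal V B ϖ t ev) (hV' : IsCircleVal V' B ϖ t ev)
    (Cst : Set F) (hC : ∀ c ∈ Cst, c ∈ V → c ∈ V')
    (hN : ∀ f : F, f ≠ 0 → ∃ c ∈ Cst, ∃ G₁ G₂ : (↥B)[X], G₁.map ev ≠ 0 ∧ G₂.map ev ≠ 0 ∧
      f * CircleData.evalHom B ϖ t G₂ = c * CircleData.evalHom B ϖ t G₁) :
    V ≤ V' := by
  intro f hf
  rcases eq_or_ne f 0 with rfl | hf0
  · exact zero_mem _
  obtain ⟨c, hc, G₁, G₂, h1, h2, hrel⟩ := hN f hf0
  have hu1 := hV.ne_zero_of_map_ne h1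
  have hu2 := hV.ne_zero_of_map_ne h2
  have hcV : c ∈ V := by
    have : c = f * CircleData.evalHom B ϖ t G₂ * (CircleData.evalHom B ϖ t G₁)⁻¹ := by
      rw [hrel, mul_assoc, mul_inv_cancel₀ hu1, mul_one]
    rw [this]
    exact mul_mem (mul_mem hf (hV.evalHom_mem G₂)) (hV.inv_mem_of_map_ne h1)
  have hcV' := hC c hc hcV
  have : f = c * CircleData.evalHom B ϖ t G₁ * (CircleData.evalHom B ϖ t G₂)⁻¹ := by
    rw [← hrel, mul_assoc, mul_inv_cancel₀ hu2, mul_one]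
  rw [this]
  exact mul_mem (mul_mem hcV' (hV'.evalHom_mem G₁)) (hV'.inv_mem_of_map_ne h2)

/-- **uniqueness of the circle valuation ring** (given the norm formula `(N)`). -/
theorem eq_of_norm (hV : IsCircleVal V B ϖ t ev) (hV' : IsCircleVal V' B ϖ t ev)
    (Cst : Set F) (hC : ∀ c ∈ Cst, c ∈ V ↔ c ∈ V')
    (hN : ∀ f : F, f ≠ 0 → ∃ c ∈ Cst, ∃ G₁ G₂ : (↥B)[X], G₁.map ev ≠ 0 ∧ G₂.map ev ≠ 0 ∧
      f * CircleData.evalHom B ϖ t G₂ = c * CircleData.evalHom B ϖ t G₁) :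
    V = V' :=
  le_antisymm (hV.le_of_norm hV' Cst (fun c hc => (hC c hc).mp) hN)
    (hV'.le_of_norm hV Cst (fun c hc => (hC c hc).mpr) hN)

/-- the same with the constants `K ⊆ F` and a valuation ring `A` of `K`. -/
theorem eq_of_norm_algebra {K : Type*} [Field K] [Algebra K F] (A : ValuationSubring K)
    (hV : IsCircleVal V B ϖ t ev) (hV' : IsCircleVal V' B ϖ t ev)
    (hA : ∀ c : K, algebraMap K F c ∈ V ↔ c ∈ A)
    (hA' : ∀ c : K, algebraMap K F c ∈ V' ↔ c ∈ A)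
    (hN : ∀ f : F, f ≠ 0 → ∃ (c : K) (G₁ G₂ : (↥B)[X]), G₁.map ev ≠ 0 ∧ G₂.map ev ≠ 0 ∧
      f * CircleData.evalHom B ϖ t G₂ = algebraMap K F c * CircleData.evalHom B ϖ t G₁) :
    V = V' := by
  refine hV.eq_of_norm hV' (Set.range (algebraMap K F)) ?_ ?_
  · rintro _ ⟨c, rfl⟩
    rw [hA, hA']
  · intro f hf
    obtain ⟨c, G₁, G₂, h1, h2, h3⟩ := hN f hf
    exact ⟨_, ⟨c, rfl⟩, G₁, G₂, h1, h2, h3⟩

/-- the norm formula for `F = Frac B` from the norm formula on `B`. -/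
theorem norm_of_frac {K : Type*} [Field K] [Algebra K F]
    (hfrac : ∀ f : F, ∃ g ∈ B, g ≠ 0 ∧ f * g ∈ B)
    (hNB : ∀ g ∈ B, g ≠ 0 → ∃ (c : K) (G : (↥B)[X]), c ≠ 0 ∧ G.map ev ≠ 0 ∧
      g = algebraMap K F c * CircleData.evalHom B ϖ t G) :
    ∀ f : F, f ≠ 0 → ∃ (c : K) (G₁ G₂ : (↥B)[X]), G₁.map ev ≠ 0 ∧ G₂.map ev ≠ 0 ∧
      f * CircleData.evalHom B ϖ t G₂ = algebraMap K F c * CircleData.evalHom B ϖ t G₁ := by
  intro f hf
  obtain ⟨g, hg, hg0, hfg⟩ := hfrac f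
  obtain ⟨c₂, G₂, hc₂, hG₂, h2⟩ := hNB g hg hg0
  obtain ⟨c₁, G₁, hc₁, hG₁, h1⟩ := hNB (f * g) hfg (mul_ne_zero hf hg0)
  refine ⟨c₁ * c₂⁻¹, G₁, G₂, hG₁, hG₂, ?_⟩
  have hc₂F : algebraMap K F c₂ ≠ 0 := by simpa using hc₂
  have h3 : CircleData.evalHom B ϖ t G₂ = (algebraMap K F c₂)⁻¹ * g := by
    rw [h2, ← mul_assoc, inv_mul_cancel₀ hc₂F, one_mul]
  rw [h3, map_mul, map_inv₀]
  calc f * ((algebraMap K F c₂)⁻¹ * g) = (algebraMap K F c₂)⁻¹ * (f * g) := by ring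
    _ = (algebraMap K F c₂)⁻¹ * (algebraMap K F c₁ * CircleData.evalHom B ϖ t G₁) := by rw [← h1]
    _ = _ := by ring

/-- **separation**: if `s ∈ B ∩ B'` vanishes at the centre of `V` and not at the centre of `V'`,
then `V'` is not contained in `V`. -/
theorem not_le_of_sep {B' : Subring F} {ϖ' t' : F} {ev' : B' →+* k}
    (hV : IsCircleVal V B ϖ t ev) (hV' : IsCircleVal V' B' ϖ' t' ev')
    {s : F} (hs : s ∈ B) (hs' : s ∈ B') (h0 : ev ⟨s, hs⟩ = 0) (h1 : ev' ⟨s, hs'⟩ ≠ 0) :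
    ¬ V' ≤ V := by
  intro hle
  have hsV : s ∈ V.nonunits := (hV.nonunits_iff_ev ⟨s, hs⟩).mpr h0
  have hsV' : s ∉ V'.nonunits := fun h => h1 ((hV'.nonunits_iff_ev ⟨s, hs'⟩).mp h)
  rw [ValuationSubring.mem_nonunits_iff_or] at hsV hsV'
  rw [not_or, not_not] at hsV'
  rcases hsV with h | h
  · exact hsV'.1 h
  · exact h (hle hsV'.2)

theorem ne_of_sep {B' : Subring F} {ϖ' t' : F} {ev' : B' →+* k}
    (hV : IsCircleVal V B ϖ t ev) (hV' : IsCircleVal V' B' ϖ' t' ev')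
    {s : F} (hs : s ∈ B) (hs' : s ∈ B') (h0 : ev ⟨s, hs⟩ = 0) (h1 : ev' ⟨s, hs'⟩ ≠ 0) :
    V ≠ V' := by
  intro h
  exact hV.not_le_of_sep hV' hs hs' h0 h1 h.ge

/-- **incomparability** from a separating function with values `0` and `1`. -/
theorem incomparable_of_sep {B' : Subring F} {ϖ' t' : F} {ev' : B' →+* k}
    (hV : IsCircleVal V B ϖ t ev) (hV' : IsCircleVal V' B' ϖ' t' ev')
    {s : F} (hs : s ∈ B) (hs' : s ∈ B') (h0 : ev ⟨s, hs⟩ = 0) (h1 : ev' ⟨s, hs'⟩ = 1) :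
    ¬ V' ≤ V ∧ ¬ V ≤ V' := by
  refine ⟨hV.not_le_of_sep hV' hs hs' h0 (by rw [h1]; exact one_ne_zero), ?_⟩
  have hs1 : 1 - s ∈ B := sub_mem (one_mem _) hs
  have hs1' : 1 - s ∈ B' := sub_mem (one_mem _) hs'
  have e1 : ev ⟨1 - s, hs1⟩ = 1 := by
    have : (⟨1 - s, hs1⟩ : B) = 1 - ⟨s, hs⟩ := rfl
    rw [this, map_sub, map_one, h0, sub_zero]
  have e1' : ev' ⟨1 - s, hs1'⟩ = 0 := by
    have : (⟨1 - s, hs1'⟩ : B') = 1 - ⟨s, hs'⟩ := rfl
    rw [this, map_sub, map_one, h1, sub_self]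
  exact hV'.not_le_of_sep hV hs1' hs1 e1' (by rw [e1]; exact one_ne_zero)

end IsCircleVal

/-! ### (R): the restriction of `w_P` to an old copy of `F₀` -/

section Restr

variable {F₀ : Type*} [Field F₀] {Fk : Type*} [Field Fk] [Algebra k Fk]

/-- the old-function hypothesis: `ι b ∈ Ow` with constant residue `ev b`, for all `b ∈ B`. -/
def RestrOld (ι : F₀ →+* F) (Ow : ValuationSubring F) (ρ : Ow →+* Fk) (B : Subring F₀)
    (ev : B →+* k) : Prop :=
  ∀ b : B, ∃ h : ι (b : F₀) ∈ Ow, ρ ⟨ι (b : F₀), h⟩ = algebraMap k Fk (ev b)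

variable {ι : F₀ →+* F} {Ow : ValuationSubring F} {ρ : Ow →+* Fk} {B : Subring F₀}
  {ev : B →+* k}

/-- the ring homomorphism `B → Ow`, `b ↦ ι b`. -/
def RestrOld.hom (h : RestrOld ι Ow ρ B ev) : B →+* Ow :=
  (ι.comp B.subtype).codRestrict Ow fun b => (h b).1

theorem RestrOld.coe_hom (h : RestrOld ι Ow ρ B ev) (b : B) : ((h.hom b : Ow) : F) = ι b := rfl

theorem RestrOld.ρ_hom (h : RestrOld ι Ow ρ B ev) (b : B) :
    ρ (h.hom b) = algebraMap k Fk (ev b) :=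
  (h b).2

/-- `B[X] → Ow`, `b ↦ ι b`, `X ↦ ι (t/ϖ)`. -/
def RestrOld.polyHom (h : RestrOld ι Ow ρ B ev) {ϖ t : F₀} (hW : ι (t * ϖ⁻¹) ∈ Ow) :
    (↥B)[X] →+* Ow :=
  Polynomial.eval₂RingHom h.hom ⟨ι (t * ϖ⁻¹), hW⟩

theorem RestrOld.coe_polyHom (h : RestrOld ι Ow ρ B ev) {ϖ t : F₀} (hW : ι (t * ϖ⁻¹) ∈ Ow)
    (G : (↥B)[X]) : ((h.polyHom hW G : Ow) : F) = ι (CircleData.evalHom B ϖ t G) := by
  have h1 : (Ow.subtype.comp (h.polyHom hW)) = ι.comp (CircleData.evalHom B ϖ t) := by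
    apply Polynomial.ringHom_ext
    · intro b
      simp [RestrOld.polyHom, CircleData.evalHom, RestrOld.coe_hom]
    · simp [RestrOld.polyHom, CircleData.evalHom]
  exact congrArg (fun φ => φ G) h1

theorem RestrOld.ρ_polyHom (h : RestrOld ι Ow ρ B ev) {ϖ t : F₀} (hW : ι (t * ϖ⁻¹) ∈ Ow)
    (G : (↥B)[X]) :
    ρ (h.polyHom hW G) = Polynomial.aeval (ρ ⟨ι (t * ϖ⁻¹), hW⟩) (G.map ev) := by
  have h1 : ρ.comp (h.polyHom hW) =
      ((Polynomial.aeval (R := k) (ρ ⟨ι (t * ϖ⁻¹), hW⟩)).toRingHom).comp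
        (Polynomial.mapRingHom ev) := by
    apply Polynomial.ringHom_ext
    · intro b
      simp [RestrOld.polyHom, RestrOld.ρ_hom]
    · simp [RestrOld.polyHom]
  exact congrArg (fun φ => φ G) h1

/-- **(R)**: the restriction of `Ow` to the old copy `ι F₀` is a circle valuation ring. -/
theorem isCircleVal_comap (hρ : ∀ x : Ow, ρ x = 0 ↔ ¬ IsUnit x)
    (hold : RestrOld ι Ow ρ B ev) {ϖ t : F₀} (hW : ι (t * ϖ⁻¹) ∈ Ow)
    (htr : Transcendental k (ρ ⟨ι (t * ϖ⁻¹), hW⟩)) :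
    IsCircleVal (Ow.comap ι) B ϖ t ev where
  le := fun b hb => (hold ⟨b, hb⟩).1
  Y_mem := hW
  nonunits_iff := fun G => by
    have hmem : ∀ y : F₀, y ∈ (Ow.comap ι).nonunits ↔ ι y ∈ Ow.nonunits := by
      intro y
      rw [ValuationSubring.mem_nonunits_iff_or, ValuationSubring.mem_nonunits_iff_or,
        ValuationSubring.mem_comap, map_inv₀, map_eq_zero]
    rw [hmem, ← hold.coe_polyHom hW G, ValuationSubring.coe_mem_nonunits_iff,
      IsLocalRing.mem_maximalIdeal, mem_nonunits_iff, ← hρ, hold.ρ_polyHom hW G]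
    constructor
    · intro h0
      by_contra hne
      exact htr ⟨_, hne, h0⟩
    · intro h0
      rw [h0, map_zero]

/-- the old-function hypothesis passes from a subring `C ≤ B` to `B` if every `b ∈ B` has a
denominator in `C` which does not vanish at the centre. -/
theorem restrOld_of_loc (hρ : ∀ x : Ow, ρ x = 0 ↔ ¬ IsUnit x)
    (C : Subring F₀) (hCB : C ≤ B)
    (hC : ∀ c : C, ∃ h : ι (c : F₀) ∈ Ow, ρ ⟨ι (c : F₀), h⟩ =
      algebraMap k Fk (ev ⟨c, hCB c.2⟩))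
    (hloc : ∀ b : B, ∃ (d : F₀) (hd : d ∈ C), ev ⟨d, hCB hd⟩ ≠ 0 ∧ (b : F₀) * d ∈ C) :
    RestrOld ι Ow ρ B ev := by
  intro b
  obtain ⟨d, hd, hd0, hbd⟩ := hloc b
  obtain ⟨hdO, hdρ⟩ := hC ⟨d, hd⟩
  obtain ⟨haO, haρ⟩ := hC ⟨(b : F₀) * d, hbd⟩
  have hρd : ρ ⟨ι d, hdO⟩ ≠ 0 := by
    rw [hdρ]
    exact fun h0 => hd0 ((map_eq_zero_iff _ (algebraMap k Fk).injective).mp h0)
  have hunit : IsUnit (⟨ι d, hdO⟩ : Ow) := by
    by_contra hnu
    exact hρd ((hρ _).mpr hnu)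
  obtain ⟨u, hu⟩ := hunit
  have hd0F : ι d ≠ 0 := by
    intro h0
    apply hρd
    have : (⟨ι d, hdO⟩ : Ow) = 0 := Subtype.ext h0
    rw [this, map_zero]
  have huinv : (((u⁻¹ : Owˣ) : Ow) : F) = (ι d)⁻¹ := by
    have h0 : ((u⁻¹ : Owˣ) : Ow) * ⟨ι d, hdO⟩ = 1 := by
      rw [← hu]
      exact u.inv_mul
    have h1 : (((u⁻¹ : Owˣ) : Ow) : F) * ι d = 1 := congrArg Subtype.val h0
    exact eq_inv_of_mul_eq_one_left h1
  have hbO : ι (b : F₀) ∈ Ow := by
    have h1 : ι (b : F₀) = ι ((b : F₀) * d) * (ι d)⁻¹ := by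
      rw [map_mul, mul_assoc, mul_inv_cancel₀ hd0F, mul_one]
    rw [h1, ← huinv]
    exact mul_mem haO (u⁻¹ : Owˣ).1.2
  refine ⟨hbO, ?_⟩
  have hmul : (⟨ι (b : F₀), hbO⟩ : Ow) * ⟨ι d, hdO⟩ = ⟨ι ((b : F₀) * d), haO⟩ :=
    Subtype.ext (by simp [map_mul])
  have h2 := congrArg ρ hmul
  rw [map_mul, haρ, hdρ] at h2
  have h3 : (⟨(b : F₀) * d, hCB hbd⟩ : B) = b * ⟨d, hCB hd⟩ := rfl
  rw [h3, map_mul, map_mul] at h2
  have hne : algebraMap k Fk (ev ⟨d, hCB hd⟩) ≠ 0 := by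
    rw [← hdρ]
    exact hρd
  exact mul_right_cancel₀ hne h2

/-- **(R), final form**: the restriction of `Ow` to the old copy of `F₀` IS the disc valuation
ring `V` (any circle valuation ring for the same data with the same constants), given the norm
formula `(N)` on `F₀`. -/
theorem restr_comap_eq {K : Type*} [Field K] [Algebra K F₀] (A : ValuationSubring K)
    (hρ : ∀ x : Ow, ρ x = 0 ↔ ¬ IsUnit x)
    (hold : RestrOld ι Ow ρ B ev) {ϖ t : F₀} (hW : ι (t * ϖ⁻¹) ∈ Ow)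
    (htr : Transcendental k (ρ ⟨ι (t * ϖ⁻¹), hW⟩))
    (hOA : ∀ c : K, ι (algebraMap K F₀ c) ∈ Ow ↔ c ∈ A)
    {V : ValuationSubring F₀} (hV : IsCircleVal V B ϖ t ev)
    (hVA : ∀ c : K, algebraMap K F₀ c ∈ V ↔ c ∈ A)
    (hN : ∀ f : F₀, f ≠ 0 → ∃ (c : K) (G₁ G₂ : (↥B)[X]), G₁.map ev ≠ 0 ∧ G₂.map ev ≠ 0 ∧
      f * CircleData.evalHom B ϖ t G₂ = algebraMap K F₀ c * CircleData.evalHom B ϖ t G₁) :
    Ow.comap ι = V :=
  (isCircleVal_comap hρ hold hW htr).eq_of_norm_algebra A hV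
    (fun c => by rw [ValuationSubring.mem_comap]; exact hOA c) hVA hN

end Restr

end Fermat.Agent.HPVal
end
end MergeWrap_Lib_BadRed_HPVal_RestrAbs

section MergeWrap_S36_Seed_Old -- from S36/Seed/Old.lean

set_option autoImplicit false

noncomputable section
attribute [local instance 10000] SubalgebraClass.toAlgebra HahnSeries.powerSeriesAlgebra

namespace Fermat.Agent.S36G

open Polynomial Fermat.Agent.HPVal AlgebraicCurve Fermat.Agent.RR Fermat.Agent.FF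

section Abs

variable {F : Type*} [Field F] {k : Type*} [Field k] {Fk : Type*} [Field Fk] [Algebra k Fk]

/-- a root of a monic polynomial over a valuation ring lies in the valuation ring. -/
theorem wpo_mem_of_root (Ow : ValuationSubring F) (P : Polynomial Ow) (hP : P.Monic) (x : F)
    (hx : Polynomial.eval₂ (algebraMap Ow F) x P = 0) : x ∈ Ow := by
  have hint : IsIntegral Ow x := ⟨P, hP, hx⟩
  obtain ⟨y, hy⟩ := (IsIntegrallyClosed.isIntegral_iff (R := Ow) (K := F)).mp hint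
  rw [← hy]
  exact y.2

/-- the residue of a root is a root of the reduced polynomial. -/
theorem wpo_eval_map_res (Ow : ValuationSubring F) (ρ : Ow →+* Fk) (P : Polynomial Ow) (x : Ow)
    (hx : Polynomial.eval₂ (algebraMap Ow F) (x : F) P = 0) : (P.map ρ).eval (ρ x) = 0 := by
  have h1 : algebraMap Ow F (P.eval x) = 0 := by
    rw [← hx, Polynomial.eval, Polynomial.hom_eval₂, RingHom.comp_id]
    rfl
  have h2 : P.eval x = 0 :=
    FaithfulSMul.algebraMap_injective Ow F (by rw [h1, map_zero])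
  have h3 : ρ (P.eval x) = Polynomial.eval₂ ρ (ρ x) P := by
    rw [Polynomial.eval, Polynomial.hom_eval₂, RingHom.comp_id]
  rw [Polynomial.eval_map, ← h3, h2, map_zero]

/-- the roots of `(X - b₁) (X ^ q - b₃ ^ q)` in characteristic `q`. -/
theorem wpo_root_cases (q : ℕ) [Fact q.Prime] [CharP Fk q] (b₁ b₃ : k) (y : Fk)
    (hy : (((X - C b₁) * (X ^ q - C (b₃ ^ q)) : Polynomial k).map (algebraMap k Fk)).eval y = 0) :
    y = algebraMap k Fk b₁ ∨ y = algebraMap k Fk b₃ := by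
  rw [Polynomial.map_mul, Polynomial.eval_mul, Polynomial.map_sub, Polynomial.map_sub,
    Polynomial.map_X, Polynomial.map_C, Polynomial.map_pow, Polynomial.map_X, Polynomial.map_C,
    Polynomial.eval_sub, Polynomial.eval_sub, Polynomial.eval_X, Polynomial.eval_C,
    Polynomial.eval_pow, Polynomial.eval_X, Polynomial.eval_C, map_pow] at hy
  rcases mul_eq_zero.mp hy with h | h
  · exact Or.inl (sub_eq_zero.mp h)
  · right
    rw [← sub_pow_char] at h
    exact sub_eq_zero.mp (pow_eq_zero_iff (Fact.out : q.Prime).ne_zero |>.mp h)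

variable {F₀ : Type*} [Field F₀]

/-- **one old function**: if the `ι₁`-old functions of `B` reduce to the constants `ev'` and
`ι₀ g` is a root of `ι₁ (C)`, `C ∈ B[X]` monic with `ev' C = (X - b₁) (X ^ q - b₃ ^ q)`, then
`ι₀ g ∈ Ow` and its residue is the constant `b₁` or the constant `b₃`. -/
theorem wpo_old_of_root (q : ℕ) [Fact q.Prime] [CharP Fk q] (ι₁ ι₀ : F₀ →+* F)
    (Ow : ValuationSubring F) (ρ : Ow →+* Fk) (B : Subring F₀) (ev' : B →+* k)
    (h1 : RestrOld ι₁ Ow ρ B ev') (Cg : Polynomial B) (hC : Cg.Monic) (b₁ b₃ : k)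
    (hCev : Cg.map ev' = (X - C b₁) * (X ^ q - C (b₃ ^ q))) (g : F₀)
    (hroot : Polynomial.eval₂ (ι₁.comp B.subtype) (ι₀ g) Cg = 0) :
    ∃ h : ι₀ g ∈ Ow, ρ ⟨ι₀ g, h⟩ = algebraMap k Fk b₁ ∨ ρ ⟨ι₀ g, h⟩ = algebraMap k Fk b₃ := by
  set P : Polynomial Ow := Cg.map h1.hom with hP
  have hPm : P.Monic := hC.map _
  have hcomp : (algebraMap Ow F).comp h1.hom = ι₁.comp B.subtype := by
    ext b
    rfl
  have hPx : Polynomial.eval₂ (algebraMap Ow F) (ι₀ g) P = 0 := by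
    rw [hP, Polynomial.eval₂_map, hcomp]
    exact hroot
  have hmem : ι₀ g ∈ Ow := wpo_mem_of_root Ow P hPm _ hPx
  refine ⟨hmem, ?_⟩
  have h2 := wpo_eval_map_res Ow ρ P ⟨ι₀ g, hmem⟩ hPx
  have hρ : ρ.comp h1.hom = (algebraMap k Fk).comp ev' := by
    ext b
    exact h1.ρ_hom b
  rw [hP, Polynomial.map_map, hρ, ← Polynomial.map_map, hCev] at h2
  exact wpo_root_cases q b₁ b₃ _ h2

/-- **WP-OLD, abstract form**: the `ι₀`-old functions of `B₀` reduce on `Ow` to the constants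
`ev₀`, as soon as every `g ∈ B₀` has a monic Kronecker polynomial `C_g ∈ B[X]` with
`ι₁ (C_g) (ι₀ g) = 0` whose reduction at the centre is `(X - ev₀ g) (X ^ q - (ev₀ g) ^ q)`. -/
theorem wpo_restrOld (q : ℕ) [Fact q.Prime] [CharP Fk q] (ι₁ ι₀ : F₀ →+* F)
    (Ow : ValuationSubring F) (ρ : Ow →+* Fk) (B : Subring F₀) (ev' : B →+* k)
    (h1 : RestrOld ι₁ Ow ρ B ev') (B₀ : Subring F₀) (ev₀ : B₀ →+* k)
    (hKC : ∀ g : B₀, ∃ Cg : Polynomial B, Cg.Monic ∧
      Cg.map ev' = (X - C (ev₀ g)) * (X ^ q - C (ev₀ g ^ q)) ∧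
      Polynomial.eval₂ (ι₁.comp B.subtype) (ι₀ (g : F₀)) Cg = 0) :
    RestrOld ι₀ Ow ρ B₀ ev₀ := by
  intro g
  obtain ⟨Cg, hC, hCev, hroot⟩ := hKC g
  obtain ⟨h, hres⟩ := wpo_old_of_root q ι₁ ι₀ Ow ρ B ev' h1 Cg hC _ _ hCev (g : F₀) hroot
  exact ⟨h, hres.elim id id⟩

end Abs

/-! ### Evaluation of the Kronecker polynomial at the centre -/

section Eval

variable {k : Type*} [Field k] {Fk : Type*} [Field Fk] [Algebra k Fk] (hFk : IsRRField k Fk)

/-- values of powers. -/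
theorem wpo_valueAt_pow (P : Place k Fk) {f : Fk} (hf : f ∈ P.toValuationSubring) (n : ℕ) :
    valueAt hFk P (f ^ n) = valueAt hFk P f ^ n := by
  induction n with
  | zero => rw [pow_zero, pow_zero, valueAt_one]
  | succ n ih => rw [pow_succ, pow_succ, valueAt_mul hFk P (pow_mem hf n) hf, ih]

variable (q : ℕ) (τ : SemilinearAut k Fk) (hτ : ∀ c : k, SemilinearAut.baseAut τ c = c ^ q)

include hτ in
/-- the value of the Frobenius twist `τ y` at `P'` is the `q`-th power of the value of `y` at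
`τ⁻¹ P'`. -/
theorem wpo_valueAt_smul (P' : Place k Fk) (y : Fk) :
    valueAt hFk P' (τ • y) = valueAt hFk (τ⁻¹ • P') y ^ q := by
  have h := valueAt_smul hFk τ (τ⁻¹ • P') y
  rw [smul_inv_smul, hτ] at h
  exact h

include hτ in
/-- the value of `(τ⁻¹ y) ^ q` (`= y(t^q)`) at `P'` is the value of `y` at `τ P'`. -/
theorem wpo_valueAt_inv_smul_pow (P' : Place k Fk) (y : Fk)
    (hy : y ∈ (τ • P').toValuationSubring) :
    valueAt hFk P' ((τ⁻¹ • y) ^ q) = valueAt hFk (τ • P') y := by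
  have h := valueAt_smul hFk τ⁻¹ (τ • P') y
  rw [inv_smul_smul] at h
  have hmem : τ⁻¹ • y ∈ P'.toValuationSubring := by
    have h1 : τ⁻¹ • y ∈ (τ⁻¹ • (τ • P')).toValuationSubring := by
      rw [SemilinearAut.smul_toValuationSubring]
      exact ValuationSubring.smul_mem_pointwise_smul τ⁻¹ y _ hy
    rwa [inv_smul_smul] at h1
  rw [wpo_valueAt_pow hFk P' hmem, h, ← hτ, SemilinearAut.baseAut_inv,
    RingEquiv.apply_symm_apply]

/-- **the reduced Kronecker polynomial at the centre**: if `d₁, d₂` are regular at `P'` with the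
values `b₁, b₂`, the coefficients of `(X - d₁) (X ^ q - d₂)` are regular at `P'` and their values
are the coefficients of `(X - b₁) (X ^ q - b₂)`. -/
theorem wpo_valueAt_coeff (P' : Place k Fk) {d₁ d₂ : Fk} (h₁ : d₁ ∈ P'.toValuationSubring)
    (h₂ : d₂ ∈ P'.toValuationSubring) (i : ℕ) :
    ((X - C d₁) * (X ^ q - C d₂) : Polynomial Fk).coeff i ∈ P'.toValuationSubring ∧
      valueAt hFk P' (((X - C d₁) * (X ^ q - C d₂) : Polynomial Fk).coeff i) =
        ((X - C (valueAt hFk P' d₁)) * (X ^ q - C (valueAt hFk P' d₂)) : Polynomial k).coeff i := by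
  set O := P'.toValuationSubring with hO
  set D' : Polynomial O := (X - C ⟨d₁, h₁⟩) * (X ^ q - C ⟨d₂, h₂⟩) with hD'
  have hmap : D'.map O.subtype = (X - C d₁) * (X ^ q - C d₂) := by
    rw [hD', Polynomial.map_mul, Polynomial.map_sub, Polynomial.map_sub, Polynomial.map_X,
      Polynomial.map_pow, Polynomial.map_X, Polynomial.map_C, Polynomial.map_C]
    rfl
  have hcoe : ((X - C d₁) * (X ^ q - C d₂) : Polynomial Fk).coeff i =
      ((D'.coeff i : O) : Fk) := by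
    rw [← hmap, Polynomial.coeff_map]
    rfl
  refine ⟨by rw [hcoe]; exact (D'.coeff i).2, ?_⟩
  have hval : (D'.map (valueHom hFk P')) =
      (X - C (valueAt hFk P' d₁)) * (X ^ q - C (valueAt hFk P' d₂)) := by
    rw [hD', Polynomial.map_mul, Polynomial.map_sub, Polynomial.map_sub, Polynomial.map_X,
      Polynomial.map_pow, Polynomial.map_X, Polynomial.map_C, Polynomial.map_C,
      valueAt_of_mem hFk P' h₁, valueAt_of_mem hFk P' h₂]
  rw [← hval, Polynomial.coeff_map, hcoe, valueAt_of_mem hFk P' (D'.coeff i).2]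

end Eval

/-! ### The old functions with a Kronecker datum -/

section Datum

open Fermat.Agent.S18Key Fermat.Agent.Deuring Fermat.Agent.BadRed

variable {K F₀ F k Fk0 FkP : Type*} [Field K] [Field F₀] [Algebra K F₀] [Field F] [Algebra K F]
  [Field k] [Field Fk0] [Algebra k Fk0] [Field FkP] [Algebra k FkP]

/-- the hypothesis **(OLD)** for the `ι`-copy on the ring `R_Q = discRing S0 Q`, in the form of
`HPVal.RestrOld`. -/
theorem wpo_restrOld_of_old (S0 : RedSetup K F₀ k Fk0) (hFk0 : IsRRField k Fk0)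
    (Q : Place k Fk0) (ι : F₀ →ₐ[K] F) (S : ValSetup K F k FkP)
    (hold : ∀ g ∈ discRing S0 Q, ∀ c : k, ValAt Q (S0.red g) c →
      ι g ∈ S.Ov ∧ S.red (ι g) = algebraMap k FkP c) :
    RestrOld (ι : F₀ →+* F) S.Ov S.ρ (discRing S0 Q) (discEv S0 Q hFk0) := by
  intro b
  have hreg : S0.red (b : F₀) ∈ Q.toValuationSubring :=
    Fermat.Agent.S24Res.mem_of_ord_nonneg Q (ord_red_nonneg_of_mem b.2)
  have hval : ValAt Q (S0.red (b : F₀)) (discEv S0 Q hFk0 b) := by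
    rw [discEv_apply]
    exact valueAt_spec hFk0 Q hreg
  obtain ⟨hmem, hred⟩ := hold b b.2 _ hval
  refine ⟨hmem, ?_⟩
  rw [← hred, ValSetup.red_of_mem S hmem]
  rfl

/-- **The Kronecker datum** of a function `g` for the reduction `S0` and the Frobenius `τ` of the
special fibre: a monic polynomial `C_g` over `F₀` whose coefficients lie in the ring `B'` and
reduce to the coefficients of `(X - (τ⁻¹ ḡ) ^ q) (X ^ q - τ ḡ)`. -/
structure KCDatum (S0 : RedSetup K F₀ k Fk0) (q : ℕ) (τ : SemilinearAut k Fk0)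
    (B' : Subring F₀) (g : F₀) (Cg : Polynomial F₀) : Prop where
  monic : Cg.Monic
  coeff_mem : ∀ i, Cg.coeff i ∈ B'
  coeff_red : ∀ i, S0.red (Cg.coeff i) =
    ((X - C ((τ⁻¹ • S0.red g) ^ q)) * (X ^ q - C (τ • S0.red g)) : Polynomial Fk0).coeff i

variable (S0 : RedSetup K F₀ k Fk0) (hFk0 : IsRRField k Fk0) (q : ℕ) [Fact q.Prime] [CharP k q]
  (τ : SemilinearAut k Fk0) (hτ : ∀ c : k, SemilinearAut.baseAut τ c = c ^ q)
  (S : ValSetup K F k FkP) (ι₁ ι : F₀ →ₐ[K] F) (P P' : Place k Fk0)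

include hτ in
/-- **WP-OLD for one function**: `w_P` is built over the copy `ι₁` with centre `P'` (`hold1`),
`τ P' = τ⁻¹ P' = P` (the supersingular places are `𝔽_{q²}`-rational), `g` has a Kronecker datum
with coefficients in `R_{P'}`, `ḡ` is regular at `P`, and `ι g` is a root of `ι₁ (C_g)`.
Then `ι g` is integral for `w_P` and reduces to the CONSTANT `ḡ (P)`. -/
theorem wpo_old_of_datum (hP : τ • P' = P) (hP' : τ⁻¹ • P' = P)
    (hold1 : ∀ g ∈ discRing S0 P', ∀ c : k, ValAt P' (S0.red g) c →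
      ι₁ g ∈ S.Ov ∧ S.red (ι₁ g) = algebraMap k FkP c)
    {g : F₀} {Cg : Polynomial F₀} (hKC : KCDatum S0 q τ (discRing S0 P') g Cg)
    (hreg : S0.red g ∈ P.toValuationSubring)
    (hroot : Cg.eval₂ (ι₁ : F₀ →+* F) (ι g) = 0) :
    ι g ∈ S.Ov ∧ S.red (ι g) = algebraMap k FkP (valueAt hFk0 P (S0.red g)) := by
  have : CharP FkP q := charP_of_injective_algebraMap (algebraMap k FkP).injective q
  have h1 := wpo_restrOld_of_old S0 hFk0 P' ι₁ S hold1
  -- the polynomial over `R_{P'}`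
  set B := discRing S0 P' with hB
  have hcoeffs : (↑Cg.coeffs : Set F₀) ⊆ B := by
    intro x hx
    obtain ⟨i, -, rfl⟩ := Polynomial.mem_coeffs_iff.mp (Finset.mem_coe.mp hx)
    exact hKC.coeff_mem i
  set Cg' : Polynomial B := Cg.toSubring B hcoeffs with hCg'
  have hmap : Cg'.map B.subtype = Cg := Polynomial.map_toSubring Cg B hcoeffs
  have hmonic : Cg'.Monic := (Polynomial.monic_toSubring Cg B hcoeffs).mpr hKC.monic
  have hcoe : ∀ i, ((Cg'.coeff i : B) : F₀) = Cg.coeff i := fun i =>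
    Polynomial.coeff_toSubring Cg B hcoeffs
  -- regularity of the two roots of the reduced polynomial
  have hd₂ : τ • S0.red g ∈ P'.toValuationSubring := by
    have h2 : τ • S0.red g ∈ (τ • P).toValuationSubring := by
      rw [SemilinearAut.smul_toValuationSubring]
      exact ValuationSubring.smul_mem_pointwise_smul τ _ _ hreg
    rwa [← hP', smul_inv_smul] at h2
  have hd₁' : τ⁻¹ • S0.red g ∈ P'.toValuationSubring := by
    have h2 : τ⁻¹ • S0.red g ∈ (τ⁻¹ • P).toValuationSubring := by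
      rw [SemilinearAut.smul_toValuationSubring]
      exact ValuationSubring.smul_mem_pointwise_smul τ⁻¹ _ _ hreg
    rwa [← hP, inv_smul_smul] at h2
  have hd₁ : (τ⁻¹ • S0.red g) ^ q ∈ P'.toValuationSubring := pow_mem hd₁' q
  have hb₁ : valueAt hFk0 P' ((τ⁻¹ • S0.red g) ^ q) = valueAt hFk0 P (S0.red g) := by
    rw [wpo_valueAt_inv_smul_pow hFk0 q τ hτ P' _ (by rw [hP]; exact hreg), hP]
  have hb₂ : valueAt hFk0 P' (τ • S0.red g) = valueAt hFk0 P (S0.red g) ^ q := by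
    rw [wpo_valueAt_smul hFk0 q τ hτ, hP']
  -- the reduced polynomial at the centre
  have hCev : Cg'.map (discEv S0 P' hFk0) =
      (X - C (valueAt hFk0 P (S0.red g))) * (X ^ q - C (valueAt hFk0 P (S0.red g) ^ q)) := by
    ext i
    rw [Polynomial.coeff_map, discEv_apply, hcoe, hKC.coeff_red i,
      (wpo_valueAt_coeff hFk0 q P' hd₁ hd₂ i).2, hb₁, hb₂]
  have hroot' : Polynomial.eval₂ ((ι₁ : F₀ →+* F).comp B.subtype) ((ι : F₀ →+* F) g) Cg' = 0 := by
    rw [← Polynomial.eval₂_map, hmap]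
    exact hroot
  obtain ⟨hmem, hres⟩ := wpo_old_of_root q (ι₁ : F₀ →+* F) (ι : F₀ →+* F) S.Ov S.ρ B
    (discEv S0 P' hFk0) h1 Cg' hmonic _ _ hCev g hroot'
  refine ⟨hmem, ?_⟩
  have hred : S.red (ι g) = S.ρ ⟨(ι : F₀ →+* F) g, hmem⟩ := ValSetup.red_of_mem S hmem
  rw [hred]
  exact hres.elim id id

end Datum

end Fermat.Agent.S36G
end
end MergeWrap_S36_Seed_Old
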