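import Mathlib
import Fermat.Agent.MU.Lib.BadRed.KroneckerCharpoly
import Fermat.Agent.MU.Lib.BadRed.Mod.ALDegeneracy
import Fermat.Agent.MU.S36.Seed.Old
import Fermat.Agent.MU.S36.HPVal.Defs
import Fermat.Agent.MU.Lib.BadRed.KroneckerCharpolyGen

section MergeWrap_S36_Seed_OldRoot -- from S36/Seed/OldRoot.lean

set_option autoImplicit false
set_option linter.style.haveILetI false
set_option linter.unusedSectionVars false
set_option linter.unusedVariables false

noncomputable section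

namespace Fermat.Agent.S36G

open Polynomial ModularCurve AlgebraicCurve Fermat.Agent.AtkinLehner Fermat.Agent.BadRed

local notation "Qb" => AlgebraicClosure ℚ

attribute [local instance 10000] SubalgebraClass.toAlgebra HahnSeries.powerSeriesAlgebra

/-! ### abstract: transport of a root relation -/

section Abstract

variable {R S T : Type*} [CommRing R] [CommRing S] [CommRing T]

/-- `φ(C)(y) = 0 ⟹ (ψ ∘ φ)(C)(ψ y) = 0`. -/
theorem olr_eval₂_comp (C : R[X]) (φ : R →+* S) (ψ : S →+* T) (y : S)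
    (h : C.eval₂ φ y = 0) : C.eval₂ (ψ.comp φ) (ψ y) = 0 := by
  rw [← Polynomial.hom_eval₂, h, map_zero]

/-- `eval₂` against a map is `eval` of the mapped polynomial. -/
theorem olr_eval_map_of_eval₂ (C : R[X]) (φ : R →+* S) (y : S)
    (h : C.eval₂ φ y = 0) : (C.map φ).eval y = 0 := by
  rw [Polynomial.eval_map]
  exact h

end Abstract

/-! ### level casts and the involution `w_q` of `F_{M₀ q}` -/

section Cast

/-- the identity between the function fields of equal levels (local copy, to keep the import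
closure small). -/
def olrCast {M M' : ℕ} (h : M = M') :
    ↥(modularFunctionFieldBar M) ≃ₐ[Qb] ↥(modularFunctionFieldBar M') :=
  IntermediateField.equivOfEq (congrArg modularFunctionFieldBar h)

theorem olrCast_rfl {M : ℕ} (x : ↥(modularFunctionFieldBar M)) :
    olrCast (rfl : M = M) x = x := by
  unfold olrCast
  rw [IntermediateField.equivOfEq_rfl]
  rfl

theorem coe_olrCast {M M' : ℕ} (h : M = M') (x : ↥(modularFunctionFieldBar M)) :
    ((olrCast h x : ↥(modularFunctionFieldBar M')) : LaurentSeries Qb) =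
      (x : LaurentSeries Qb) := by
  subst h
  rw [olrCast_rfl]

end Cast

section WD

variable (D : ALData) [NeZero D.Q] [NeZero D.R]

/-- the Atkin–Lehner involution `w_Q` moved to the level `R * Q` (the level of the Prelude's
degeneracy maps `heckeAlphaBar Qb R Q`, `heckeBetaBar Qb R Q`). -/
def olrW : ↥(modularFunctionFieldBar (D.R * D.Q)) ≃ₐ[Qb] ↥(modularFunctionFieldBar (D.R * D.Q)) :=
  ((olrCast (mul_comm D.R D.Q)).trans (atkinLehner D)).trans (olrCast (mul_comm D.Q D.R))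

theorem olrW_apply (y : ↥(modularFunctionFieldBar (D.R * D.Q))) :
    olrW D y = olrCast (mul_comm D.Q D.R) (atkinLehner D (olrCast (mul_comm D.R D.Q) y)) := by
  unfold olrW
  rw [AlgEquiv.trans_apply, AlgEquiv.trans_apply]

theorem olrCast_heckeAlphaBar (x : ↥(modularFunctionFieldBar D.R)) :
    olrCast (mul_comm D.R D.Q) (heckeAlphaBar Qb D.R D.Q x) = alphaQ D x := by
  apply Subtype.ext
  rw [coe_olrCast, coe_heckeAlphaBar, coe_alphaQ]

theorem olrCast_heckeBetaBar (x : ↥(modularFunctionFieldBar D.R)) :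
    olrCast (mul_comm D.R D.Q) (heckeBetaBar Qb D.R D.Q x) = betaQ D x := by
  apply Subtype.ext
  rw [coe_olrCast, coe_heckeBetaBar, coe_betaQ]

theorem olrCast_alphaQ (x : ↥(modularFunctionFieldBar D.R)) :
    olrCast (mul_comm D.Q D.R) (alphaQ D x) = heckeAlphaBar Qb D.R D.Q x := by
  apply Subtype.ext
  rw [coe_olrCast, coe_heckeAlphaBar, coe_alphaQ]

theorem olrCast_betaQ (x : ↥(modularFunctionFieldBar D.R)) :
    olrCast (mul_comm D.Q D.R) (betaQ D x) = heckeBetaBar Qb D.R D.Q x := by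
  apply Subtype.ext
  rw [coe_olrCast, coe_heckeBetaBar, coe_betaQ]

/-- `W ∘ α = β`. -/
theorem olrW_alpha (x : ↥(modularFunctionFieldBar D.R)) :
    olrW D (heckeAlphaBar Qb D.R D.Q x) = heckeBetaBar Qb D.R D.Q x := by
  rw [olrW_apply, olrCast_heckeAlphaBar, atkinLehner_alphaQ, olrCast_betaQ]

/-- `W ∘ β = α`. -/
theorem olrW_beta (x : ↥(modularFunctionFieldBar D.R)) :
    olrW D (heckeBetaBar Qb D.R D.Q x) = heckeAlphaBar Qb D.R D.Q x := by
  rw [olrW_apply, olrCast_heckeBetaBar, atkinLehner_betaQ, olrCast_alphaQ]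

/-- `W² = 1`. -/
theorem olrW_olrW (y : ↥(modularFunctionFieldBar (D.R * D.Q))) : olrW D (olrW D y) = y := by
  rw [olrW_apply, olrW_apply]
  have h1 : olrCast (mul_comm D.R D.Q)
      (olrCast (mul_comm D.Q D.R) (atkinLehner D (olrCast (mul_comm D.R D.Q) y))) =
        atkinLehner D (olrCast (mul_comm D.R D.Q) y) := by
    apply Subtype.ext
    rw [coe_olrCast, coe_olrCast]
  rw [h1, atkinLehner_atkinLehner]
  apply Subtype.ext
  rw [coe_olrCast, coe_olrCast]

end WD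

section W

/-- the transport of `olrW` to levels given by equations. -/
theorem olr_exists_w_aux (D : ALData) (M₀ q : ℕ) [NeZero M₀] [NeZero q]
    (hR : D.R = M₀) (hQ : D.Q = q) :
    ∃ W : ↥(modularFunctionFieldBar (M₀ * q)) ≃ₐ[Qb] ↥(modularFunctionFieldBar (M₀ * q)),
      (∀ x : ↥(modularFunctionFieldBar M₀),
        W (heckeAlphaBar Qb M₀ q x) = heckeBetaBar Qb M₀ q x) ∧
      (∀ x : ↥(modularFunctionFieldBar M₀),
        W (heckeBetaBar Qb M₀ q x) = heckeAlphaBar Qb M₀ q x) ∧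
      (∀ y, W (W y) = y) := by
  subst hR
  subst hQ
  exact ⟨olrW D, olrW_alpha D, olrW_beta D, olrW_olrW D⟩

variable (M₀ q : ℕ) [NeZero M₀] [NeZero q]

/-- **Atkin–Lehner at level `M₀ q`**: there is an automorphism `W` of `F_{M₀ q}` exchanging the
two degeneracy maps `a₀, b₀ : F_{M₀} → F_{M₀ q}`. -/
theorem olr_exists_w (hcop : Nat.Coprime q M₀) :
    ∃ W : ↥(modularFunctionFieldBar (M₀ * q)) ≃ₐ[Qb] ↥(modularFunctionFieldBar (M₀ * q)),
      (∀ x : ↥(modularFunctionFieldBar M₀),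
        W (heckeAlphaBar Qb M₀ q x) = heckeBetaBar Qb M₀ q x) ∧
      (∀ x : ↥(modularFunctionFieldBar M₀),
        W (heckeBetaBar Qb M₀ q x) = heckeAlphaBar Qb M₀ q x) ∧
      (∀ y, W (W y) = y) := by
  have hq : 0 < q := Nat.pos_of_ne_zero (NeZero.ne q)
  have hM : 0 < M₀ := Nat.pos_of_ne_zero (NeZero.ne M₀)
  obtain ⟨D, hQ, hR⟩ := ALData.exists_of_coprime hq hM hcop
  exact olr_exists_w_aux D M₀ q hR hQ

/-- `a ∘ b₀ = b ∘ a₀` (`= ι₁`, `g ↦ g(qz)`). -/
theorem olr_alpha_beta_comm :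
    (heckeAlphaBar Qb (M₀ * q) q).comp (heckeBetaBar Qb M₀ q) =
      (heckeBetaBar Qb (M₀ * q) q).comp (heckeAlphaBar Qb M₀ q) := by
  refine AlgHom.ext fun x => Subtype.ext ?_
  rw [AlgHom.comp_apply, AlgHom.comp_apply, coe_heckeAlphaBar, coe_heckeBetaBar,
    coe_heckeBetaBar, coe_heckeAlphaBar]

end W

/-! ### (R): the old functions `ι₀ g`, `ι₂ g` are roots of `ι₁(C)` -/

section Root

variable (M₀ q : ℕ) [NeZero M₀] [NeZero q]

/-- **(R), `ι₂`**: `a₀(C)(b₀ g) = 0 ⟹ ι₁(C)(ι₂ g) = 0` (apply `b`; no coprimality needed). -/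
theorem olr_root_i2 (C : (↥(modularFunctionFieldBar M₀))[X]) (g : ↥(modularFunctionFieldBar M₀))
    (h : C.eval₂ (heckeAlphaBar Qb M₀ q).toRingHom (heckeBetaBar Qb M₀ q g) = 0) :
    C.eval₂ ((heckeAlphaBar Qb (M₀ * q) q).comp (heckeBetaBar Qb M₀ q)).toRingHom
      ((heckeBetaBar Qb (M₀ * q) q).comp (heckeBetaBar Qb M₀ q) g) = 0 := by
  rw [olr_alpha_beta_comm]
  exact olr_eval₂_comp C (heckeAlphaBar Qb M₀ q).toRingHom
    (heckeBetaBar Qb (M₀ * q) q).toRingHom _ h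

/-- **(R), `ι₀`**: `a₀(C)(b₀ g) = 0 ⟹ ι₁(C)(ι₀ g) = 0` (apply `w_q`, then `a`). -/
theorem olr_root_i0 (hcop : Nat.Coprime q M₀)
    (C : (↥(modularFunctionFieldBar M₀))[X]) (g : ↥(modularFunctionFieldBar M₀))
    (h : C.eval₂ (heckeAlphaBar Qb M₀ q).toRingHom (heckeBetaBar Qb M₀ q g) = 0) :
    C.eval₂ ((heckeAlphaBar Qb (M₀ * q) q).comp (heckeBetaBar Qb M₀ q)).toRingHom
      ((heckeAlphaBar Qb (M₀ * q) q).comp (heckeAlphaBar Qb M₀ q) g) = 0 := by
  obtain ⟨W, hWα, hWβ, -⟩ := olr_exists_w M₀ q hcop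
  -- apply `W`
  have h1 := olr_eval₂_comp C (heckeAlphaBar Qb M₀ q).toRingHom
    (W : ↥(modularFunctionFieldBar (M₀ * q)) →+* ↥(modularFunctionFieldBar (M₀ * q))) _ h
  have e1 : (W : ↥(modularFunctionFieldBar (M₀ * q)) →+* ↥(modularFunctionFieldBar (M₀ * q))).comp
      (heckeAlphaBar Qb M₀ q).toRingHom = (heckeBetaBar Qb M₀ q).toRingHom :=
    RingHom.ext fun x => hWα x
  have e2 : (W : ↥(modularFunctionFieldBar (M₀ * q)) →+* ↥(modularFunctionFieldBar (M₀ * q)))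
      (heckeBetaBar Qb M₀ q g) = heckeAlphaBar Qb M₀ q g := hWβ g
  rw [e1, e2] at h1
  -- apply `a`
  exact olr_eval₂_comp C (heckeBetaBar Qb M₀ q).toRingHom
    (heckeAlphaBar Qb (M₀ * q) q).toRingHom _ h1

/-- (R), `ι₂`, in the form `(C.map ι₁).eval (ι₂ g) = 0`. -/
theorem olr_root_i2_map (C : (↥(modularFunctionFieldBar M₀))[X])
    (g : ↥(modularFunctionFieldBar M₀))
    (h : C.eval₂ (heckeAlphaBar Qb M₀ q).toRingHom (heckeBetaBar Qb M₀ q g) = 0) :
    (C.map ((heckeAlphaBar Qb (M₀ * q) q).comp (heckeBetaBar Qb M₀ q)).toRingHom).eval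
      (heckeBetaBar Qb (M₀ * q) q (heckeBetaBar Qb M₀ q g)) = 0 :=
  olr_eval_map_of_eval₂ C _ _ (olr_root_i2 M₀ q C g h)

/-- (R), `ι₀`, in the form `(C.map ι₁).eval (ι₀ g) = 0`. -/
theorem olr_root_i0_map (hcop : Nat.Coprime q M₀) (C : (↥(modularFunctionFieldBar M₀))[X])
    (g : ↥(modularFunctionFieldBar M₀))
    (h : C.eval₂ (heckeAlphaBar Qb M₀ q).toRingHom (heckeBetaBar Qb M₀ q g) = 0) :
    (C.map ((heckeAlphaBar Qb (M₀ * q) q).comp (heckeBetaBar Qb M₀ q)).toRingHom).eval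
      (heckeAlphaBar Qb (M₀ * q) q (heckeAlphaBar Qb M₀ q g)) = 0 :=
  olr_eval_map_of_eval₂ C _ _ (olr_root_i0 M₀ q hcop C g h)

/-- (R) for the characteristic polynomial `C_g` of `b₀ g` along `a₀`: `ι₁(C_g)(ι₂ g) = 0`. -/
theorem olr_charpoly_root_i2 (hfin : FiniteAlong Qb (heckeAlphaBar Qb M₀ q))
    (g : ↥(modularFunctionFieldBar M₀)) :
    ((charpolyAlong (heckeAlphaBar Qb M₀ q) hfin (heckeBetaBar Qb M₀ q g)).map
        ((heckeAlphaBar Qb (M₀ * q) q).comp (heckeBetaBar Qb M₀ q)).toRingHom).eval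
      (heckeBetaBar Qb (M₀ * q) q (heckeBetaBar Qb M₀ q g)) = 0 :=
  olr_root_i2_map M₀ q _ g (aeval_charpolyAlong _ hfin _)

/-- (R) for the characteristic polynomial `C_g` of `b₀ g` along `a₀`: `ι₁(C_g)(ι₀ g) = 0`. -/
theorem olr_charpoly_root_i0 (hcop : Nat.Coprime q M₀)
    (hfin : FiniteAlong Qb (heckeAlphaBar Qb M₀ q)) (g : ↥(modularFunctionFieldBar M₀)) :
    ((charpolyAlong (heckeAlphaBar Qb M₀ q) hfin (heckeBetaBar Qb M₀ q g)).map
        ((heckeAlphaBar Qb (M₀ * q) q).comp (heckeBetaBar Qb M₀ q)).toRingHom).eval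
      (heckeAlphaBar Qb (M₀ * q) q (heckeAlphaBar Qb M₀ q g)) = 0 :=
  olr_root_i0_map M₀ q hcop _ g (aeval_charpolyAlong _ hfin _)

/-- **The statement (R) of the plan WP-OLD**, for the level `M₀` and the prime `q`. -/
def OldRootStatement : Prop :=
  ∀ (hfin : FiniteAlong Qb (heckeAlphaBar Qb M₀ q)) (g : ↥(modularFunctionFieldBar M₀)),
    ((charpolyAlong (heckeAlphaBar Qb M₀ q) hfin (heckeBetaBar Qb M₀ q g)).map
        ((heckeAlphaBar Qb (M₀ * q) q).comp (heckeBetaBar Qb M₀ q)).toRingHom).eval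
      (heckeAlphaBar Qb (M₀ * q) q (heckeAlphaBar Qb M₀ q g)) = 0 ∧
    ((charpolyAlong (heckeAlphaBar Qb M₀ q) hfin (heckeBetaBar Qb M₀ q g)).map
        ((heckeAlphaBar Qb (M₀ * q) q).comp (heckeBetaBar Qb M₀ q)).toRingHom).eval
      (heckeBetaBar Qb (M₀ * q) q (heckeBetaBar Qb M₀ q g)) = 0

/-- **(R) holds** for every `q` coprime to `M₀`. -/
theorem oldRoot (hcop : Nat.Coprime q M₀) : OldRootStatement M₀ q := fun hfin g =>
  ⟨olr_charpoly_root_i0 M₀ q hcop hfin g, olr_charpoly_root_i2 M₀ q hfin g⟩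

end Root

end Fermat.Agent.S36G
end
end MergeWrap_S36_Seed_OldRoot

section MergeWrap_S36_Seed_OldMod -- from S36/Seed/OldMod.lean

set_option autoImplicit false
set_option linter.style.haveILetI false
set_option linter.unusedSectionVars false
set_option linter.unusedVariables false
set_option synthInstance.maxHeartbeats 400000

noncomputable section
attribute [local instance 10000] SubalgebraClass.toAlgebra HahnSeries.powerSeriesAlgebra

namespace Fermat.Agent.S36G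

open Polynomial ModularCurve AlgebraicCurve Fermat.Agent.F3 Fermat.Agent.F3G
  Fermat.Agent.GaussInt Fermat.Agent.Deuring Fermat.Agent.BadRed Fermat.Agent.HPVal
  Fermat.Agent.S18Key Fermat.Agent.RR Fermat.Agent.Kronecker

local notation "Qb" => AlgebraicClosure ℚ

/-! ### abstract part -/

section Abs

variable {K F₀ F k Fk0 FkP : Type*} [Field K] [Field F₀] [Algebra K F₀] [Field F] [Algebra K F]
  [Field k] [Field Fk0] [Algebra k Fk0] [Field FkP] [Algebra k FkP]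

/-- the reduction of `g ∈ R_P` takes the value `discEv g` at `P`. -/
theorem oldMod_valAt_discEv (S0 : RedSetup K F₀ k Fk0) (P : Place k Fk0) (hFk : IsRRField k Fk0)
    (g : discRing S0 P) : ValAt P (S0.red (g : F₀)) (discEv S0 P hFk g) := by
  rw [discEv_apply]
  exact Fermat.Agent.FF.valueAt_spec hFk P
    (Fermat.Agent.S24Res.mem_of_ord_nonneg P (ord_red_nonneg_of_mem g.2))

/-- a value of the reduction of `g ∈ R_P` at `P` is `discEv g`. -/
theorem oldMod_discEv_eq_of_valAt (S0 : RedSetup K F₀ k Fk0) (P : Place k Fk0)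
    (hFk : IsRRField k Fk0) (g : discRing S0 P) {c : k} (h : ValAt P (S0.red (g : F₀)) c) :
    discEv S0 P hFk g = c := by
  rw [discEv_apply]
  exact (Fermat.Agent.FF.valueAt_eq_iff hFk P
    (Fermat.Agent.S24Res.mem_of_ord_nonneg P (ord_red_nonneg_of_mem g.2)) c).mpr h

/-- `ValSetup.red` on an element of `Ov`. -/
theorem oldMod_red_of_mem (S : ValSetup K F k FkP) {x : F} (h : x ∈ S.Ov) :
    S.red x = S.ρ ⟨x, h⟩ := by
  unfold ValSetup.red
  rw [dif_pos h]

/-- `WPOld` gives `RestrOld` for `B = R_P`, `ev = discEv`. -/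
theorem oldMod_restrOld_of_wpOld (S0 : RedSetup K F₀ k Fk0) (P : Place k Fk0)
    (hFk : IsRRField k Fk0) (ι : F₀ →ₐ[K] F) (S : ValSetup K F k FkP) (h : WPOld S0 P ι S) :
    RestrOld ι.toRingHom S.Ov S.ρ (discRing S0 P) (discEv S0 P hFk) := by
  intro b
  obtain ⟨hm, hr⟩ := h (b : F₀) b.2 _ (oldMod_valAt_discEv S0 P hFk b)
  refine ⟨hm, ?_⟩
  rw [← hr]
  exact (oldMod_red_of_mem S hm).symm

/-- `RestrOld` for `B = R_P`, `ev = discEv` gives `WPOld`. -/
theorem oldMod_wpOld_of_restrOld (S0 : RedSetup K F₀ k Fk0) (P : Place k Fk0)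
    (hFk : IsRRField k Fk0) (ι : F₀ →ₐ[K] F) (S : ValSetup K F k FkP)
    (h : RestrOld ι.toRingHom S.Ov S.ρ (discRing S0 P) (discEv S0 P hFk)) :
    WPOld S0 P ι S := by
  intro g hg c hc
  obtain ⟨hm, hr⟩ := h ⟨g, hg⟩
  have hm' : ι g ∈ S.Ov := hm
  refine ⟨hm', ?_⟩
  rw [oldMod_red_of_mem S hm', ← oldMod_discEv_eq_of_valAt S0 P hFk ⟨g, hg⟩ hc]
  exact hr

/-- **abstract wiring**: if the `ι₁`-old functions of `R_{P'}` reduce to constants and every
`g ∈ R_P` has a monic Kronecker polynomial `C_g ∈ R_{P'}[X]` with `ι₁(C_g)(ι g) = 0` and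
`ev' (C_g) = (X - ḡ(P)) (X ^ q - ḡ(P) ^ q)`, then the `ι`-old functions of `R_P` reduce to
constants. -/
theorem oldMod_wpOld_of_kc (q : ℕ) [Fact q.Prime] [CharP FkP q]
    (S0 : RedSetup K F₀ k Fk0) (hFk : IsRRField k Fk0) (P P' : Place k Fk0)
    (ι₁ ι : F₀ →ₐ[K] F) (S : ValSetup K F k FkP) (hold1 : WPOld S0 P' ι₁ S)
    (hKC : ∀ g : discRing S0 P, ∃ Cg : Polynomial (discRing S0 P'), Cg.Monic ∧
      Cg.map (discEv S0 P' hFk) =
        (X - C (discEv S0 P hFk g)) * (X ^ q - C (discEv S0 P hFk g ^ q)) ∧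
      ((Cg.map (discRing S0 P').subtype).map ι₁.toRingHom).eval (ι (g : F₀)) = 0) :
    WPOld S0 P ι S := by
  refine oldMod_wpOld_of_restrOld S0 P hFk ι S ?_
  refine wpo_restrOld q ι₁.toRingHom ι.toRingHom S.Ov S.ρ (discRing S0 P')
    (discEv S0 P' hFk) (oldMod_restrOld_of_wpOld S0 P' hFk ι₁ S hold1) (discRing S0 P)
    (discEv S0 P hFk) ?_
  intro g
  obtain ⟨Cg, hm, hev, hroot⟩ := hKC g
  refine ⟨Cg, hm, hev, ?_⟩
  rw [Polynomial.map_map, Polynomial.eval_map] at hroot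
  exact hroot

/-- the lift of a polynomial with coefficients in a subring. -/
theorem oldMod_exists_lift {R : Type*} [CommRing R] (B : Subring R) (C₀ : Polynomial R)
    (hC : ∀ n, C₀.coeff n ∈ B) : ∃ Cg : Polynomial B, Cg.map B.subtype = C₀ := by
  have h : (↑C₀.coeffs : Set R) ⊆ (B : Set R) := by
    intro x hx
    obtain ⟨n, -, rfl⟩ := Polynomial.mem_coeffs_iff.mp (Finset.mem_coe.mp hx)
    exact hC n
  exact ⟨C₀.toSubring B h, Polynomial.map_toSubring C₀ B h⟩

/-- a lift of a monic polynomial is monic. -/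
theorem oldMod_monic_of_map {R : Type*} [CommRing R] (B : Subring R) (Cg : Polynomial B)
    (h : (Cg.map B.subtype).Monic) : Cg.Monic :=
  Polynomial.monic_of_injective Subtype.val_injective h

end Abs

/-! ### modular part -/

section Mod

variable (M₀ q : ℕ) [NeZero M₀] [NeZero q] {A : ValuationSubring Qb}
  (S0 : RedSetup Qb (FBar M₀) (IsLocalRing.ResidueField A)
    ↥(modularFunctionFieldFullC (IsLocalRing.ResidueField A) M₀))
  (hFk : IsRRField (IsLocalRing.ResidueField A)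
    ↥(modularFunctionFieldFullC (IsLocalRing.ResidueField A) M₀))
  (P P' : Place (IsLocalRing.ResidueField A)
    ↥(modularFunctionFieldFullC (IsLocalRing.ResidueField A) M₀))

/-- **(O2) + (O3)**: for `g ∈ R_P` the coefficients of `C_g = charpolyAlong α₀ (β₀ g)` have no
pole at the places of `F₀` which reduce to `P'`. -/
def OldCoeffRegular : Prop :=
  ∀ (hfin : FiniteAlong Qb (heckeAlphaBar Qb M₀ q)) (g : discRing S0 P) (n : ℕ)
    (x : Place Qb (FBar M₀)), S0.r x = P' →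
    0 ≤ x.ord ((charpolyAlong (heckeAlphaBar Qb M₀ q) hfin
      (heckeBetaBar Qb M₀ q (g : FBar M₀))).coeff n)

/-- for `g ∈ R_P` the coefficients of `C_g = charpolyAlong α₀ (β₀ g)` lie in `R_{P'}`. -/
def OldCoeffMem : Prop :=
  ∀ (hfin : FiniteAlong Qb (heckeAlphaBar Qb M₀ q)) (g : discRing S0 P) (n : ℕ),
    (charpolyAlong (heckeAlphaBar Qb M₀ q) hfin
      (heckeBetaBar Qb M₀ q (g : FBar M₀))).coeff n ∈ discRing S0 P'

/-- **(O4)**: the values at `P'` of the coefficients of `C_g` are the coefficients of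
`(X - ḡ(P)) (X ^ q - ḡ(P) ^ q)`. -/
def OldEvAt : Prop :=
  ∀ (hfin : FiniteAlong Qb (heckeAlphaBar Qb M₀ q)) (g : discRing S0 P)
    (Cg : Polynomial (discRing S0 P')),
    Cg.map (discRing S0 P').subtype =
      charpolyAlong (heckeAlphaBar Qb M₀ q) hfin (heckeBetaBar Qb M₀ q (g : FBar M₀)) →
    Cg.map (discEv S0 P' hFk) =
      (X - C (discEv S0 P hFk g)) * (X ^ q - C (discEv S0 P hFk g ^ q))

variable {M₀ q S0 P P'}

/-- **(O1)** in the language of `S0`: the coefficients of `C_g` are integral for `S0`. -/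
theorem oldMod_coeff_mem_Ov (hq : q.Prime) (hqM : ¬ q ∣ M₀) (hA : A.LiesOverPrime q)
    (hG : IsGaussRed M₀ A S0) (hfin : FiniteAlong Qb (heckeAlphaBar Qb M₀ q))
    (g : FBar M₀) (hg : g ∈ S0.Ov) (n : ℕ) :
    (charpolyAlong (heckeAlphaBar Qb M₀ q) hfin (heckeBetaBar Qb M₀ q g)).coeff n ∈ S0.Ov := by
  haveI : Fact q.Prime := ⟨hq⟩
  haveI : CharP (IsLocalRing.ResidueField A) q := charP_residueField_of_liesOverPrime A q hq hA
  have hg' : g ∈ gaussOvS M₀ hq A hA := (hG.mem_iff g).mp hg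
  obtain ⟨Pg, -, -, hmap, -⟩ := kroneckerCharpolyGen M₀ hqM hq A hA hfin ⟨g, hg'⟩
  rw [← hmap, Polynomial.coeff_map]
  exact (hG.mem_iff _).mpr (Pg.coeff n).2

/-- (O1) + (O2) + (O3) ⟹ the coefficients of `C_g` lie in `R_{P'}`. -/
theorem oldMod_coeffMem (hq : q.Prime) (hqM : ¬ q ∣ M₀) (hA : A.LiesOverPrime q)
    (hG : IsGaussRed M₀ A S0) (hreg : OldCoeffRegular M₀ q S0 P P') :
    OldCoeffMem M₀ q S0 P P' := fun hfin g n =>
  ⟨oldMod_coeff_mem_Ov hq hqM hA hG hfin (g : FBar M₀) g.2.1 n, fun x hx => hreg hfin g n x hx⟩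

/-- the Kronecker data of `g ∈ R_P` for the abstract wiring. -/
theorem oldMod_kc (hmem : OldCoeffMem M₀ q S0 P P') (hev : OldEvAt M₀ q S0 hFk P P')
    (hfin : FiniteAlong Qb (heckeAlphaBar Qb M₀ q)) (g : discRing S0 P) :
    ∃ Cg : Polynomial (discRing S0 P'), Cg.Monic ∧
      Cg.map (discEv S0 P' hFk) =
        (X - C (discEv S0 P hFk g)) * (X ^ q - C (discEv S0 P hFk g ^ q)) ∧
      Cg.map (discRing S0 P').subtype =
        charpolyAlong (heckeAlphaBar Qb M₀ q) hfin (heckeBetaBar Qb M₀ q (g : FBar M₀)) := by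
  obtain ⟨Cg, hCg⟩ := oldMod_exists_lift (discRing S0 P') _ (hmem hfin g)
  refine ⟨Cg, oldMod_monic_of_map _ Cg ?_, hev hfin g Cg hCg, hCg⟩
  rw [hCg]
  exact charpolyAlong_monic _ _ _

variable {FkP : Type} [Field FkP] [Algebra (IsLocalRing.ResidueField A) FkP]

/-- **`old0` from `old1`**. -/
theorem oldMod_old0 (hq : q.Prime) (hqM : ¬ q ∣ M₀) (hA : A.LiesOverPrime q)
    (S : ValSetup Qb (FBar (M₀ * q * q)) (IsLocalRing.ResidueField A) FkP)
    (hfin : FiniteAlong Qb (heckeAlphaBar Qb M₀ q))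
    (hold1 : WPOld S0 P' (wpdIota1 M₀ q) S)
    (hmem : OldCoeffMem M₀ q S0 P P') (hev : OldEvAt M₀ q S0 hFk P P') :
    WPOld S0 P (wpIota0 M₀ q) S := by
  haveI : Fact q.Prime := ⟨hq⟩
  haveI : CharP (IsLocalRing.ResidueField A) q := charP_residueField_of_liesOverPrime A q hq hA
  haveI : CharP FkP q :=
    charP_of_injective_algebraMap (algebraMap (IsLocalRing.ResidueField A) FkP).injective q
  have hcop : Nat.Coprime q M₀ := (Nat.Prime.coprime_iff_not_dvd hq).mpr hqM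
  refine oldMod_wpOld_of_kc q S0 hFk P P' (wpdIota1 M₀ q) (wpIota0 M₀ q) S hold1 fun g => ?_
  obtain ⟨Cg, hm, hCev, hCg⟩ := oldMod_kc hFk hmem hev hfin g
  refine ⟨Cg, hm, hCev, ?_⟩
  rw [hCg]
  exact olr_charpoly_root_i0 M₀ q hcop hfin (g : FBar M₀)

/-- **`old2` from `old1`**. -/
theorem oldMod_old2 (hq : q.Prime) (hA : A.LiesOverPrime q)
    (S : ValSetup Qb (FBar (M₀ * q * q)) (IsLocalRing.ResidueField A) FkP)
    (hfin : FiniteAlong Qb (heckeAlphaBar Qb M₀ q))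
    (hold1 : WPOld S0 P' (wpdIota1 M₀ q) S)
    (hmem : OldCoeffMem M₀ q S0 P P') (hev : OldEvAt M₀ q S0 hFk P P') :
    WPOld S0 P (wpIota2 M₀ q) S := by
  haveI : Fact q.Prime := ⟨hq⟩
  haveI : CharP (IsLocalRing.ResidueField A) q := charP_residueField_of_liesOverPrime A q hq hA
  haveI : CharP FkP q :=
    charP_of_injective_algebraMap (algebraMap (IsLocalRing.ResidueField A) FkP).injective q
  refine oldMod_wpOld_of_kc q S0 hFk P P' (wpdIota1 M₀ q) (wpIota2 M₀ q) S hold1 fun g => ?_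
  obtain ⟨Cg, hm, hCev, hCg⟩ := oldMod_kc hFk hmem hev hfin g
  refine ⟨Cg, hm, hCev, ?_⟩
  rw [hCg]
  exact olr_charpoly_root_i2 M₀ q hfin (g : FBar M₀)

/-- **OLD, final wiring**: the fields `old0` and `old2` of `WPOut` from `old1`, the membership
of the coefficients of the Kronecker polynomials and their values at the centre. -/
theorem oldMod_old02 (hq : q.Prime) (hqM : ¬ q ∣ M₀) (hA : A.LiesOverPrime q)
    (S : ValSetup Qb (FBar (M₀ * q * q)) (IsLocalRing.ResidueField A) FkP)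
    (hfin : FiniteAlong Qb (heckeAlphaBar Qb M₀ q))
    (hold1 : WPOld S0 P' (wpdIota1 M₀ q) S)
    (hmem : OldCoeffMem M₀ q S0 P P') (hev : OldEvAt M₀ q S0 hFk P P') :
    WPOld S0 P (wpIota0 M₀ q) S ∧ WPOld S0 P (wpIota2 M₀ q) S :=
  ⟨oldMod_old0 hFk hq hqM hA S hfin hold1 hmem hev, oldMod_old2 hFk hq hA S hfin hold1 hmem hev⟩

/-- **OLD, final wiring**, from (O2) + (O3) (`OldCoeffRegular`), (O4) (`OldEvAt`) and the Gauss
property of `S0` ((O1) is `kroneckerCharpolyGen`). -/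
theorem oldMod_old02_of_regular (hq : q.Prime) (hqM : ¬ q ∣ M₀) (hA : A.LiesOverPrime q)
    (hG : IsGaussRed M₀ A S0)
    (S : ValSetup Qb (FBar (M₀ * q * q)) (IsLocalRing.ResidueField A) FkP)
    (hfin : FiniteAlong Qb (heckeAlphaBar Qb M₀ q))
    (hold1 : WPOld S0 P' (wpdIota1 M₀ q) S)
    (hreg : OldCoeffRegular M₀ q S0 P P') (hev : OldEvAt M₀ q S0 hFk P P') :
    WPOld S0 P (wpIota0 M₀ q) S ∧ WPOld S0 P (wpIota2 M₀ q) S :=
  oldMod_old02 hFk hq hqM hA S hfin hold1 (oldMod_coeffMem hq hqM hA hG hreg) hev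

/-! ### the same wiring from the lift statement (OLD-LIFT) -/

variable (M₀ q S0 P P') in
/-- **(O1) + (O2) + (O3), lift form (OLD-LIFT)**: for `g ∈ R_P` the polynomial
`C_g = charpolyAlong α₀ (β₀ g)` has a monic lift to `R_{P'}[X]`. -/
def OldLiftAt : Prop :=
  ∀ (hfin : FiniteAlong Qb (heckeAlphaBar Qb M₀ q)) (g : FBar M₀), g ∈ discRing S0 P →
    ∃ Cg : Polynomial (discRing S0 P'), Cg.Monic ∧
      Cg.map (discRing S0 P').subtype =
        charpolyAlong (heckeAlphaBar Qb M₀ q) hfin (heckeBetaBar Qb M₀ q g)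

/-- the lift form follows from the membership of the coefficients. -/
theorem oldMod_liftAt_of_coeffMem (hmem : OldCoeffMem M₀ q S0 P P') :
    OldLiftAt M₀ q S0 P P' := fun hfin g hg => by
  obtain ⟨Cg, hCg⟩ := oldMod_exists_lift (discRing S0 P') _ (hmem hfin ⟨g, hg⟩)
  refine ⟨Cg, oldMod_monic_of_map _ Cg ?_, hCg⟩
  rw [hCg]
  exact charpolyAlong_monic _ _ _

/-- the membership of the coefficients follows from the lift form. -/
theorem oldMod_coeffMem_of_liftAt (hlift : OldLiftAt M₀ q S0 P P') :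
    OldCoeffMem M₀ q S0 P P' := fun hfin g n => by
  obtain ⟨Cg, -, hCg⟩ := hlift hfin (g : FBar M₀) g.2
  rw [← hCg, Polynomial.coeff_map]
  exact (Cg.coeff n).2

/-- **OLD, final wiring, lift form**: the fields `old0` and `old2` of `WPOut` from `old1`,
OLD-LIFT (`OldLiftAt`) and OLD-EV (`OldEvAt`). -/
theorem oldMod_old02_of_lift (hq : q.Prime) (hqM : ¬ q ∣ M₀) (hA : A.LiesOverPrime q)
    (S : ValSetup Qb (FBar (M₀ * q * q)) (IsLocalRing.ResidueField A) FkP)
    (hfin : FiniteAlong Qb (heckeAlphaBar Qb M₀ q))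
    (hold1 : WPOld S0 P' (wpdIota1 M₀ q) S)
    (hlift : OldLiftAt M₀ q S0 P P') (hev : OldEvAt M₀ q S0 hFk P P') :
    WPOld S0 P (wpIota0 M₀ q) S ∧ WPOld S0 P (wpIota2 M₀ q) S :=
  oldMod_old02 hFk hq hqM hA S hfin hold1 (oldMod_coeffMem_of_liftAt hlift) hev

/-- **OLD for a `WPOut`-shaped datum**: if `old1` holds at the centre `P'`, then `old0` and
`old2` hold at `P` (this is what the assembly `Val.lean` consumes: `S`, `P'` ARBITRARY). -/
theorem oldMod_old02_iff_ready (hq : q.Prime) (hqM : ¬ q ∣ M₀) (hA : A.LiesOverPrime q)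
    (hfin : FiniteAlong Qb (heckeAlphaBar Qb M₀ q))
    (hlift : OldLiftAt M₀ q S0 P P') (hev : OldEvAt M₀ q S0 hFk P P') :
    ∀ (FkP : Type) [Field FkP] [Algebra (IsLocalRing.ResidueField A) FkP]
      (S : ValSetup Qb (FBar (M₀ * q * q)) (IsLocalRing.ResidueField A) FkP),
      WPOld S0 P' (wpdIota1 M₀ q) S →
        WPOld S0 P (wpIota0 M₀ q) S ∧ WPOld S0 P (wpIota2 M₀ q) S :=
  fun _ _ _ S hold1 => oldMod_old02_of_lift hFk hq hqM hA S hfin hold1 hlift hev

end Mod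

end Fermat.Agent.S36G
end
end MergeWrap_S36_Seed_OldMod
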