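import Fermat.Agent.MU.Lib.BadRed.Final.FrobKey
import Fermat.Agent.MU.S36.Genus.SS

section MergeWrap_S36_Seed_SSFrob -- from S36/Seed/SSFrob.lean

set_option autoImplicit false
set_option linter.style.haveILetI false
set_option linter.unusedSectionVars false
set_option linter.unusedVariables false
set_option synthInstance.maxHeartbeats 400000
set_option maxHeartbeats 1000000

/-!
# Cluster G (S36), SEED / WP-OLD, seat SS-FQ2: the supersingular places are rational over the
field with `q²` elements  (helper18)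

`k` = the residue field of a valuation ring `A` of `ℚ̄` over the prime `q`, `Fk₀ = k(X₀(M₀))`
(`modularFunctionFieldFullC k M₀`), `τ = frobAut k M₀ q` the coefficientwise Frobenius of `Fk₀`.
For every supersingular place `P` of `Fk₀` (a zero of the function with expansion `ssFun`):
`τ² • P = P`.

Proof: cluster T's nodal seed at level `q M₀` (`fwSeed`): the nodes are the supersingular places,
`s₂ i = τ⁻¹ • s₁ i`, and the node condition for the old functions `w (α g₀)` together with the
separation of the non-cuspidal places by old functions gives `τ • P = τ⁻¹ • P`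
(`Bridge/P2Mod.p2m_frob_sq_node₁`, `Mod/FrobFix.frob_sq_smul_node₁`).  Needs the auxiliary level
(`AuxLevelOK q M₀`: `3 ∣ M₀` if `q = 2`, `2 ∣ M₀` if `q = 3`), as cluster T.

* `ssFrob_sq_smul_of_gauss` : for an Atkin-Lehner datum `D` and a Gauss setup `S`, zeros of
  `S.red u`;
* `ssFrob_sq_smul_AL`       : for an Atkin-Lehner datum `D`, `IsSSPlace k D.R D.Q P`;
* `ssFrob_sq_smul`          : for `q`, `M₀` coprime, `IsSSPlace k M₀ q P`;
* `ssFrob_smul_eq_inv_smul` : `τ • P = τ⁻¹ • P`.
-/

noncomputable section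
attribute [local instance 10000] SubalgebraClass.toAlgebra HahnSeries.powerSeriesAlgebra

namespace Fermat.Agent.S36G

open IntermediateField ModularCurve AlgebraicCurve Fermat.Agent.F3 Fermat.Agent.F3G
  Fermat.Agent.GaussInt Fermat.Agent.AtkinLehner Fermat.Agent.Deuring Fermat.Agent.RR
  Fermat.Agent.BadRed

local notation "Qb" => AlgebraicClosure ℚ

attribute [local instance] fwFintype

section Gauss

variable (D : ALData) [NeZero D.Q] [NeZero D.R] [NeZero (D.Q * D.R)]
  (A : ValuationSubring Qb) (hq : D.Q.Prime) (hA : A.LiesOverPrime D.Q) (hqR : ¬ D.Q ∣ D.R)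
  (S : ValSetup Qb (modularFunctionFieldBar (D.Q * D.R)) (IsLocalRing.ResidueField A)
    (modularFunctionFieldFullC (IsLocalRing.ResidueField A) D.R))
  (hS : IsGaussSetup (D.Q * D.R) D.R A S) (hL : HasLattice S)
  [Fact D.Q.Prime] [CharP (IsLocalRing.ResidueField A) D.Q]
  [PerfectRing (IsLocalRing.ResidueField A) D.Q]

include hq hA hqR hS hL in
/-- `τ²` fixes the zeros of the reduction of `u` (a Gauss setup at level `q M₀` given). -/
theorem ssFrob_sq_smul_of_gauss (haux : AuxLevelOK D.Q D.R)
    (P : Place (IsLocalRing.ResidueField A)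
      (modularFunctionFieldFullC (IsLocalRing.ResidueField A) D.R))
    (hP : 0 < P.ord (S.red (fwU D))) :
    (frobAut (IsLocalRing.ResidueField A) D.R D.Q *
      frobAut (IsLocalRing.ResidueField A) D.R D.Q) • P = P := by
  haveI := infinite_residue A
  have hsep := fw_sep D A hq hA hqR S hS haux
  exact p2m_frob_sq_node₁ D hq hA hqR (fwSeed D A hq hA hqR S hS hL haux hsep) hS
    (fun f => Iff.rfl) (fun f _ => valSetupZero_red D S f) rfl (fun i => i.2) (fun i => rfl)
    (genusFF_eq_of_aux D.R hq hqR haux hA) ⟨P, hP⟩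

end Gauss

/-- **(Fq2)** for an Atkin-Lehner datum: `τ²` fixes the supersingular places. -/
theorem ssFrob_sq_smul_AL (D : ALData) (hQ : D.Q.Prime) (haux : AuxLevelOK D.Q D.R)
    (A : ValuationSubring Qb) (hA : A.LiesOverPrime D.Q)
    [Fact D.Q.Prime] [CharP (IsLocalRing.ResidueField A) D.Q]
    [PerfectRing (IsLocalRing.ResidueField A) D.Q]
    (P : Place (IsLocalRing.ResidueField A)
      (modularFunctionFieldFullC (IsLocalRing.ResidueField A) D.R))
    (hP : IsSSPlace (IsLocalRing.ResidueField A) D.R D.Q P) :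
    (frobAut (IsLocalRing.ResidueField A) D.R D.Q *
      frobAut (IsLocalRing.ResidueField A) D.R D.Q) • P = P := by
  haveI : NeZero D.Q := ⟨hQ.ne_zero⟩
  haveI : NeZero D.R := ⟨D.hR.ne'⟩
  haveI : NeZero (D.Q * D.R) := ⟨mul_ne_zero hQ.ne_zero D.hR.ne'⟩
  have hqR := fk_not_dvd D hQ
  have hS := isGaussSetup_gaussSetupBad D hQ hqR A hA
  have hL := hasLattice_gaussSetupBad D hQ hqR A hA
  refine ssFrob_sq_smul_of_gauss D A hQ hA hqR _ hS hL haux P ?_
  exact (gen_isSSPlace_iff D.R D.Q _ (fw_coe_red_uF D A hQ hA _ hS) P).mp hP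

/-- **(Fq2)**: the supersingular places of `X₀(M₀)` in characteristic `q` are rational over the
field with `q²` elements: `τ² • P = P`. -/
theorem ssFrob_sq_smul {q M₀ : ℕ} (hq : q.Prime) (hM : 0 < M₀) (hqM : ¬ q ∣ M₀)
    (haux : AuxLevelOK q M₀) (A : ValuationSubring Qb) (hA : A.LiesOverPrime q)
    [Fact q.Prime] [CharP (IsLocalRing.ResidueField A) q]
    [PerfectRing (IsLocalRing.ResidueField A) q]
    (P : Place (IsLocalRing.ResidueField A)
      (modularFunctionFieldFullC (IsLocalRing.ResidueField A) M₀))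
    (hP : IsSSPlace (IsLocalRing.ResidueField A) M₀ q P) :
    (frobAut (IsLocalRing.ResidueField A) M₀ q *
      frobAut (IsLocalRing.ResidueField A) M₀ q) • P = P := by
  obtain ⟨D, hDQ, hDR⟩ := ALData.exists_of_coprime hq.pos hM
    ((Nat.Prime.coprime_iff_not_dvd hq).mpr hqM)
  subst hDQ hDR
  exact ssFrob_sq_smul_AL D hq haux A hA P hP

/-- **(Fq2)**, in the form `τ • P = τ⁻¹ • P`. -/
theorem ssFrob_smul_eq_inv_smul {q M₀ : ℕ} (hq : q.Prime) (hM : 0 < M₀) (hqM : ¬ q ∣ M₀)
    (haux : AuxLevelOK q M₀) (A : ValuationSubring Qb) (hA : A.LiesOverPrime q)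
    [Fact q.Prime] [CharP (IsLocalRing.ResidueField A) q]
    [PerfectRing (IsLocalRing.ResidueField A) q]
    (P : Place (IsLocalRing.ResidueField A)
      (modularFunctionFieldFullC (IsLocalRing.ResidueField A) M₀))
    (hP : IsSSPlace (IsLocalRing.ResidueField A) M₀ q P) :
    frobAut (IsLocalRing.ResidueField A) M₀ q • P =
      (frobAut (IsLocalRing.ResidueField A) M₀ q)⁻¹ • P := by
  have h := ssFrob_sq_smul hq hM hqM haux A hA P hP
  rw [mul_smul] at h
  rw [eq_inv_smul_iff]
  exact h

end Fermat.Agent.S36G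
end
end MergeWrap_S36_Seed_SSFrob
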