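import Mathlib
import Fermat.Agent.MU.Lib.BadRed.KroneckerCharpolyGen
import Fermat.Agent.MU.Lib.BadRed.HPVal.CharPole
import Fermat.Agent.MU.Lib.HeckeInputs.Modular
import Fermat.Agent.MU.S36.HPVal.Defs
import Fermat.Agent.MU.S36.Seed.OldMod
import Fermat.Agent.MU.S36.Seed.SSFrob
import Fermat.Agent.Lib.BadRed.Mod.FrobAut
import Fermat.Agent.MU.Lib.BadRed.Mod.FrobFix
import Fermat.Agent.MU.S36.Seed.Old
import Fermat.Agent.MU.S36.HPVal.Val
import Fermat.Agent.Lib.BadRed.HPVal.DiscTaylor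
import Fermat.Agent.Lib.FF.Value
import Fermat.Agent.MU.Lib.RedTr.Basic
import Fermat.Agent.MU.S36.HPVal.DiscModG
import Fermat.Agent.MU.S36.HPVal.KCtPole
import Fermat.Agent.MU.Lib.BadRed.Mod.OldSep

section MergeWrap_S36_Seed_OldLift -- from S36/Seed/OldLift.lean

set_option autoImplicit false
set_option linter.style.haveILetI false
set_option linter.unusedSectionVars false
set_option linter.unusedVariables false
set_option synthInstance.maxHeartbeats 400000

noncomputable section

namespace Fermat.Agent.S36G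

open ModularCurve AlgebraicCurve Polynomial Fermat.Agent.BadRed Fermat.Agent.HPVal
  Fermat.Agent.GaussInt Fermat.Agent.F3G Fermat.Agent.Kronecker

local notation "Qb" => AlgebraicClosure ℚ

/- speed: the two instances which the `Algebra` queries of this file resolve to anyway -/
attribute [local instance 10000] SubalgebraClass.toAlgebra HahnSeries.powerSeriesAlgebra

section Lift

variable {M₀ q : ℕ} [NeZero M₀] [NeZero q]

/-- the maps between the modular function fields are integral. -/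
theorem wpl_isIntegral {a b : ℕ} [NeZero a] [NeZero b]
    (φ : ↥(modularFunctionFieldBar a) →ₐ[Qb] ↥(modularFunctionFieldBar b)) :
    φ.toRingHom.IsIntegral :=
  Fermat.Agent.HeckeInputs.hi_isIntegral_of_finiteAlong φ
    (Fermat.Agent.HeckeInputs.hi_finiteAlong φ
      (Fermat.Agent.S24.isFunctionFieldOver_jBar a).transcendental
      (Fermat.Agent.S24.isFunctionFieldOver_jBar b))

/-- `α` is finite. -/
theorem wpl_finiteAlong {a b : ℕ} [NeZero a] [NeZero b]
    (φ : ↥(modularFunctionFieldBar a) →ₐ[Qb] ↥(modularFunctionFieldBar b)) :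
    FiniteAlong Qb φ :=
  Fermat.Agent.HeckeInputs.hi_finiteAlong φ
    (Fermat.Agent.S24.isFunctionFieldOver_jBar a).transcendental
    (Fermat.Agent.S24.isFunctionFieldOver_jBar b)

/-- **(O2)** in the shape used here: the coefficients of `C_g = charpoly_α (β g)` are regular at
the place `v` of `F_{M₀}` if `g` is regular at `w ∘ β` for every place `w` of `F_{M₀ q}` over `v`
(along `α`). -/
theorem wpl_coeff_ord_nonneg (hfin : FiniteAlong Qb (heckeAlphaBar Qb M₀ q))
    (g : ↥(modularFunctionFieldBar M₀)) (v : Place Qb ↥(modularFunctionFieldBar M₀))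
    (hx : ∀ w : Place Qb ↥(modularFunctionFieldBar (M₀ * q)),
      w.restrictAlong (heckeAlphaBar Qb M₀ q) (wpl_isIntegral _) = v →
        0 ≤ (w.restrictAlong (heckeBetaBar Qb M₀ q) (wpl_isIntegral _)).ord g) (i : ℕ) :
    0 ≤ v.ord ((charpolyAlong (heckeAlphaBar Qb M₀ q) hfin (heckeBetaBar Qb M₀ q g)).coeff i) := by
  haveI : HasPrincipalDivisors Qb ↥(modularFunctionFieldBar (M₀ * q)) :=
    Fermat.Agent.S24Diff.hasPrincipalDivisors (Fermat.Agent.S24.isFunctionFieldOver_jBar (M₀ * q))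
  have H : NormFormulaAlong Qb (heckeAlphaBar Qb M₀ q) hfin :=
    Fermat.Agent.HeckeInputs.hi_normFormulaAlong (heckeAlphaBar Qb M₀ q) hfin
      (Fermat.Agent.S24.isFunctionFieldOver_jBar M₀)
      (Fermat.Agent.S24.isFunctionFieldOver_jBar (M₀ * q))
  refine cpole_charpoly_coeff (heckeAlphaBar Qb M₀ q) (wpl_isIntegral _) hfin H v _
    (fun w hw => ?_) i
  rw [← cpole_ord_restrictAlong_nonneg_iff (heckeBetaBar Qb M₀ q) (wpl_isIntegral _)]
  exact hx w hw

variable {A : ValuationSubring Qb}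
  {S0 : Fermat.Agent.S18Key.RedSetup Qb (FBar M₀) (IsLocalRing.ResidueField A)
    ↥(modularFunctionFieldFullC (IsLocalRing.ResidueField A) M₀)}

/-- **(O1)** the coefficients of `C_g` are Gauss-integral for Gauss-integral `g`. -/
theorem wpl_coeff_mem_Ov (hq : q.Prime) (hqM : ¬ q ∣ M₀) (hA : A.LiesOverPrime q)
    (hS0 : IsGaussRed M₀ A S0) (hfin : FiniteAlong Qb (heckeAlphaBar Qb M₀ q))
    (g : FBar M₀) (hg : g ∈ S0.Ov) (i : ℕ) :
    (charpolyAlong (heckeAlphaBar Qb M₀ q) hfin (heckeBetaBar Qb M₀ q g)).coeff i ∈ S0.Ov := by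
  haveI : Fact q.Prime := ⟨hq⟩
  haveI : CharP (IsLocalRing.ResidueField A) q :=
    charP_residueField_of_liesOverPrime A q hq hA
  have hgO : g ∈ gaussOvS M₀ hq A hA := (hS0.mem_iff g).mp hg
  obtain ⟨P, -, -, hP, -⟩ := kroneckerCharpolyGen M₀ hqM hq A hA hfin ⟨g, hgO⟩
  rw [← hP, Polynomial.coeff_map]
  exact (hS0.mem_iff _).mpr (P.coeff i).2

/-- **(O3)** the fibre condition: every place `w` of `F_{M₀ q}` whose image under `α` reduces to
`P'` has its image under `β` reducing to `P`. -/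
def OldFibreAt (S0 : Fermat.Agent.S18Key.RedSetup Qb (FBar M₀) (IsLocalRing.ResidueField A)
      ↥(modularFunctionFieldFullC (IsLocalRing.ResidueField A) M₀)) (q : ℕ) [NeZero q]
    (P P' : Place (IsLocalRing.ResidueField A)
      ↥(modularFunctionFieldFullC (IsLocalRing.ResidueField A) M₀)) : Prop :=
  ∀ w : Place Qb ↥(modularFunctionFieldBar (M₀ * q)),
    S0.r (w.restrictAlong (heckeAlphaBar Qb M₀ q) (wpl_isIntegral _)) = P' →
      S0.r (w.restrictAlong (heckeBetaBar Qb M₀ q) (wpl_isIntegral _)) = P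

/-- the coefficients of `C_g` lie in `R_{P'}` for `g ∈ R_P`. -/
theorem wpl_coeff_mem_discRing (hq : q.Prime) (hqM : ¬ q ∣ M₀) (hA : A.LiesOverPrime q)
    (hS0 : IsGaussRed M₀ A S0) (hfin : FiniteAlong Qb (heckeAlphaBar Qb M₀ q))
    {P P' : Place (IsLocalRing.ResidueField A)
      ↥(modularFunctionFieldFullC (IsLocalRing.ResidueField A) M₀)}
    (hfib : OldFibreAt S0 q P P') (g : FBar M₀) (hg : g ∈ discRing S0 P) (i : ℕ) :
    (charpolyAlong (heckeAlphaBar Qb M₀ q) hfin (heckeBetaBar Qb M₀ q g)).coeff i ∈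
      discRing S0 P' := by
  refine ⟨wpl_coeff_mem_Ov hq hqM hA hS0 hfin g hg.1 i, fun v hv => ?_⟩
  refine wpl_coeff_ord_nonneg hfin g v (fun w hw => ?_) i
  refine hg.2 _ (hfib w ?_)
  rw [hw, hv]

/-- **OLD-LIFT**: for `g ∈ R_P` the characteristic polynomial `C_g` of `β g` along `α` lifts to a
monic polynomial with coefficients in `R_{P'}`. -/
theorem wpl_lift (hq : q.Prime) (hqM : ¬ q ∣ M₀) (hA : A.LiesOverPrime q)
    (hS0 : IsGaussRed M₀ A S0) (hfin : FiniteAlong Qb (heckeAlphaBar Qb M₀ q))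
    {P P' : Place (IsLocalRing.ResidueField A)
      ↥(modularFunctionFieldFullC (IsLocalRing.ResidueField A) M₀)}
    (hfib : OldFibreAt S0 q P P') (g : FBar M₀) (hg : g ∈ discRing S0 P) :
    ∃ Cg : Polynomial (discRing S0 P'), Cg.Monic ∧
      Cg.map (discRing S0 P').subtype =
        charpolyAlong (heckeAlphaBar Qb M₀ q) hfin (heckeBetaBar Qb M₀ q g) := by
  set C := charpolyAlong (heckeAlphaBar Qb M₀ q) hfin (heckeBetaBar Qb M₀ q g) with hC
  have hmem : ∀ i, C.coeff i ∈ discRing S0 P' := fun i =>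
    wpl_coeff_mem_discRing hq hqM hA hS0 hfin hfib g hg i
  have hlift : C ∈ Polynomial.lifts (discRing S0 P').subtype := by
    rw [Polynomial.lifts_iff_coeff_lifts]
    intro n
    exact ⟨⟨C.coeff n, hmem n⟩, rfl⟩
  obtain ⟨Cg, hCg, -, hmon⟩ :=
    Polynomial.lifts_and_natDegree_eq_and_monic hlift (charpolyAlong_monic _ hfin _)
  exact ⟨Cg, hmon, hCg⟩

end Lift

end Fermat.Agent.S36G
end
end MergeWrap_S36_Seed_OldLift

section MergeWrap_S36_Seed_OldFinal -- from S36/Seed/OldFinal.lean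

set_option autoImplicit false
set_option linter.style.haveILetI false
set_option linter.unusedSectionVars false
set_option linter.unusedVariables false
set_option synthInstance.maxHeartbeats 400000

noncomputable section
attribute [local instance 10000] SubalgebraClass.toAlgebra HahnSeries.powerSeriesAlgebra

namespace Fermat.Agent.S36G

open Polynomial ModularCurve AlgebraicCurve Fermat.Agent.F3 Fermat.Agent.F3G
  Fermat.Agent.GaussInt Fermat.Agent.Deuring Fermat.Agent.BadRed Fermat.Agent.HPVal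
  Fermat.Agent.S18Key Fermat.Agent.RR Fermat.Agent.Kronecker

local notation "Qb" => AlgebraicClosure ℚ

section Final

variable {M₀ q : ℕ} [NeZero M₀] [NeZero q] {A : ValuationSubring Qb}
  {S0 : RedSetup Qb (FBar M₀) (IsLocalRing.ResidueField A)
    ↥(modularFunctionFieldFullC (IsLocalRing.ResidueField A) M₀)}

/-- **OLD at a pair `(P, P')`**: the fields `old0`, `old2` at `P` from `old1` at `P'`, the fibre
condition (O3) and the values (O4) at `(P, P')`. -/
theorem oldFin_old02_at (hq : q.Prime) (hqM : ¬ q ∣ M₀) (hA : A.LiesOverPrime q)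
    (hS0 : IsGaussRed M₀ A S0)
    (hFk : IsRRField (IsLocalRing.ResidueField A)
      ↥(modularFunctionFieldFullC (IsLocalRing.ResidueField A) M₀))
    {P P' : Place (IsLocalRing.ResidueField A)
      ↥(modularFunctionFieldFullC (IsLocalRing.ResidueField A) M₀)}
    (hfib : OldFibreAt S0 q P P') (hev : OldEvAt M₀ q S0 hFk P P')
    {FkP : Type} [Field FkP] [Algebra (IsLocalRing.ResidueField A) FkP]
    (S : ValSetup Qb (FBar (M₀ * q * q)) (IsLocalRing.ResidueField A) FkP)
    (hold1 : WPOld S0 P' (wpdIota1 M₀ q) S) :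
    WPOld S0 P (wpIota0 M₀ q) S ∧ WPOld S0 P (wpIota2 M₀ q) S :=
  oldMod_old02_of_lift hFk hq hqM hA S (wpl_finiteAlong (heckeAlphaBar Qb M₀ q)) hold1
    (fun hfin g hg => wpl_lift hq hqM hA hS0 hfin hfib g hg) hev

variable [Fact q.Prime] [CharP (IsLocalRing.ResidueField A) q]
  [PerfectRing (IsLocalRing.ResidueField A) q]

variable (M₀ q A S0) in
/-- **(O3), OLD-FIBRE**, at all supersingular places: a place `w` of `F_{M₀ q}` whose restriction
along `α` reduces to the supersingular place `P'` has its restriction along `β` reducing to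
`Φ • P'`. -/
def OldFibreSS : Prop :=
  ∀ (w : Place Qb ↥(modularFunctionFieldBar (M₀ * q)))
    (P' : Place (IsLocalRing.ResidueField A)
      ↥(modularFunctionFieldFullC (IsLocalRing.ResidueField A) M₀)),
    IsSSPlace (IsLocalRing.ResidueField A) M₀ q P' →
    S0.r (w.restrictAlong (heckeAlphaBar Qb M₀ q) (wpl_isIntegral _)) = P' →
    S0.r (w.restrictAlong (heckeBetaBar Qb M₀ q) (wpl_isIntegral _)) =
      frobAut (IsLocalRing.ResidueField A) M₀ q • P'

variable (M₀ q A S0) in
/-- **(O4), OLD-EV**, at all pairs `P' = Φ • P`, `P = Φ • P'`. -/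
def OldEvSS (hFk : IsRRField (IsLocalRing.ResidueField A)
    ↥(modularFunctionFieldFullC (IsLocalRing.ResidueField A) M₀)) : Prop :=
  ∀ P P' : Place (IsLocalRing.ResidueField A)
      ↥(modularFunctionFieldFullC (IsLocalRing.ResidueField A) M₀),
    frobAut (IsLocalRing.ResidueField A) M₀ q • P = P' →
    frobAut (IsLocalRing.ResidueField A) M₀ q • P' = P →
    OldEvAt M₀ q S0 hFk P P'

/-- (Fq2) in the form `Φ • Φ • P = P`. -/
theorem oldFin_frob_frob (hq : q.Prime) (hqM : ¬ q ∣ M₀) (haux : AuxLevelOK q M₀)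
    (hA : A.LiesOverPrime q)
    {P : Place (IsLocalRing.ResidueField A)
      ↥(modularFunctionFieldFullC (IsLocalRing.ResidueField A) M₀)}
    (hP : IsSSPlace (IsLocalRing.ResidueField A) M₀ q P) :
    frobAut (IsLocalRing.ResidueField A) M₀ q •
      (frobAut (IsLocalRing.ResidueField A) M₀ q • P) = P := by
  have h := ssFrob_sq_smul hq (Nat.pos_of_ne_zero (NeZero.ne M₀)) hqM haux A hA P hP
  rwa [mul_smul] at h

/-- the supersingular places are stable under the Frobenius. -/
theorem oldFin_isSS_frob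
    {P : Place (IsLocalRing.ResidueField A)
      ↥(modularFunctionFieldFullC (IsLocalRing.ResidueField A) M₀)}
    (hP : IsSSPlace (IsLocalRing.ResidueField A) M₀ q P) :
    IsSSPlace (IsLocalRing.ResidueField A) M₀ q
      (frobAut (IsLocalRing.ResidueField A) M₀ q • P) := by
  obtain ⟨u, hu, hpos⟩ := hP
  exact ⟨u, hu, (ord_frobAut_smul_pos_iff (IsLocalRing.ResidueField A) M₀ q q hu P).mpr hpos⟩

/-- (O3) at the pair `(P, Φ • P)`. -/
theorem oldFin_fibreAt (hq : q.Prime) (hqM : ¬ q ∣ M₀) (haux : AuxLevelOK q M₀)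
    (hA : A.LiesOverPrime q) (hfib : OldFibreSS M₀ q A S0)
    {P : Place (IsLocalRing.ResidueField A)
      ↥(modularFunctionFieldFullC (IsLocalRing.ResidueField A) M₀)}
    (hP : IsSSPlace (IsLocalRing.ResidueField A) M₀ q P) :
    OldFibreAt S0 q P (frobAut (IsLocalRing.ResidueField A) M₀ q • P) := by
  intro w hw
  rw [hfib w _ (oldFin_isSS_frob hP) hw]
  exact oldFin_frob_frob hq hqM haux hA hP

/-- **OLD, final**: at a supersingular place `P` the field `old1` at the centre `Φ • P` gives the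
fields `old0` and `old2` at `P`. -/
theorem oldFin_old02 (hq : q.Prime) (hqM : ¬ q ∣ M₀) (haux : AuxLevelOK q M₀)
    (hA : A.LiesOverPrime q) (hS0 : IsGaussRed M₀ A S0)
    (hFk : IsRRField (IsLocalRing.ResidueField A)
      ↥(modularFunctionFieldFullC (IsLocalRing.ResidueField A) M₀))
    (hfib : OldFibreSS M₀ q A S0) (hev : OldEvSS M₀ q A S0 hFk)
    {P : Place (IsLocalRing.ResidueField A)
      ↥(modularFunctionFieldFullC (IsLocalRing.ResidueField A) M₀)}
    (hP : IsSSPlace (IsLocalRing.ResidueField A) M₀ q P)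
    {FkP : Type} [Field FkP] [Algebra (IsLocalRing.ResidueField A) FkP]
    (S : ValSetup Qb (FBar (M₀ * q * q)) (IsLocalRing.ResidueField A) FkP)
    (hold1 : WPOld S0 (frobAut (IsLocalRing.ResidueField A) M₀ q • P) (wpdIota1 M₀ q) S) :
    WPOld S0 P (wpIota0 M₀ q) S ∧ WPOld S0 P (wpIota2 M₀ q) S :=
  oldFin_old02_at hq hqM hA hS0 hFk (oldFin_fibreAt hq hqM haux hA hfib hP)
    (hev P _ rfl (oldFin_frob_frob hq hqM haux hA hP)) S hold1

/-- **OLD, final, for the assembly**: for every residue field `FkP` and every valuation setup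
`S` of `F_{M₀ q²}`, `old1` at `Φ • P` gives `old0 ∧ old2` at `P`. -/
theorem oldFin_old02_ready (hq : q.Prime) (hqM : ¬ q ∣ M₀) (haux : AuxLevelOK q M₀)
    (hA : A.LiesOverPrime q) (hS0 : IsGaussRed M₀ A S0)
    (hFk : IsRRField (IsLocalRing.ResidueField A)
      ↥(modularFunctionFieldFullC (IsLocalRing.ResidueField A) M₀))
    (hfib : OldFibreSS M₀ q A S0) (hev : OldEvSS M₀ q A S0 hFk)
    {P : Place (IsLocalRing.ResidueField A)
      ↥(modularFunctionFieldFullC (IsLocalRing.ResidueField A) M₀)}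
    (hP : IsSSPlace (IsLocalRing.ResidueField A) M₀ q P) :
    ∀ (FkP : Type) [Field FkP] [Algebra (IsLocalRing.ResidueField A) FkP]
      (S : ValSetup Qb (FBar (M₀ * q * q)) (IsLocalRing.ResidueField A) FkP),
      WPOld S0 (frobAut (IsLocalRing.ResidueField A) M₀ q • P) (wpdIota1 M₀ q) S →
        WPOld S0 P (wpIota0 M₀ q) S ∧ WPOld S0 P (wpIota2 M₀ q) S :=
  fun _ _ _ S hold1 => oldFin_old02 hq hqM haux hA hS0 hFk hfib hev hP S hold1

end Final

end Fermat.Agent.S36G
end
end MergeWrap_S36_Seed_OldFinal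

section MergeWrap_S36_Seed_OldEv -- from S36/Seed/OldEv.lean

set_option autoImplicit false
set_option linter.style.haveILetI false
set_option linter.unusedSectionVars false
set_option linter.unusedVariables false
set_option synthInstance.maxHeartbeats 400000
set_option maxHeartbeats 2000000

noncomputable section

namespace Fermat.Agent.S36G

open Polynomial ModularCurve AlgebraicCurve Fermat.Agent.GaussInt Fermat.Agent.BadRed
  Fermat.Agent.HPVal Fermat.Agent.RR Fermat.Agent.F3G

local notation "Qb" => AlgebraicClosure ℚ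

attribute [local instance 10000] SubalgebraClass.toAlgebra HahnSeries.powerSeriesAlgebra

/-! ### values and semilinear automorphisms -/

section Val

variable {k Fk : Type*} [Field k] [Field Fk] [Algebra k Fk]

/-- `ValAt P f c` gives the value `c`. -/
theorem oev_valueAt_of_valAt (hFk : IsRRField k Fk) {P : Place k Fk} {f : Fk} {c : k}
    (h : ValAt P f c) : Fermat.Agent.FF.valueAt hFk P f = c := by
  rcases h with h | h
  · rw [h, Fermat.Agent.FF.valueAt_algebraMap]
  · exact Fermat.Agent.FF.valueAt_eq_of_ord_pos hFk P h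

/-- a function with a value at `P` is regular at `P`. -/
theorem oev_mem_of_valAt {P : Place k Fk} {f : Fk} {c : k} (h : ValAt P f c) :
    f ∈ P.toValuationSubring := by
  rcases h with h | h
  · rw [h]
    exact P.algebraMap_mem' c
  · have hm : f - algebraMap k Fk c ∈ P.toValuationSubring :=
      Fermat.Agent.FF.mem_of_ord_nonneg' P h.le
    have := add_mem hm (P.algebraMap_mem' c)
    rwa [sub_add_cancel] at this

/-- a regular function has its value. -/
theorem oev_valAt_of_mem (hFk : IsRRField k Fk) {P : Place k Fk} {f : Fk}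
    (hf : f ∈ P.toValuationSubring) : ValAt P f (Fermat.Agent.FF.valueAt hFk P f) :=
  Fermat.Agent.FF.valueAt_spec hFk P hf

/-- transport of the value by a semilinear automorphism. -/
theorem oev_valueAt_smul (hFk : IsRRField k Fk) (τ : SemilinearAut k Fk) {P : Place k Fk} {f : Fk}
    (hf : f ∈ P.toValuationSubring) :
    τ • f ∈ (τ • P).toValuationSubring ∧
      Fermat.Agent.FF.valueAt hFk (τ • P) (τ • f) =
        SemilinearAut.baseAut τ (Fermat.Agent.FF.valueAt hFk P f) := by
  have h1 := (valAt_semilinear_smul_iff τ P f _).mpr (oev_valAt_of_mem hFk hf)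
  exact ⟨oev_mem_of_valAt h1, oev_valueAt_of_valAt hFk h1⟩

/-- the value of a power. -/
theorem oev_valueAt_pow (hFk : IsRRField k Fk) {P : Place k Fk} {f : Fk}
    (hf : f ∈ P.toValuationSubring) (n : ℕ) :
    Fermat.Agent.FF.valueAt hFk P (f ^ n) = Fermat.Agent.FF.valueAt hFk P f ^ n := by
  rw [Fermat.Agent.FF.valueAt_of_mem hFk P hf, Fermat.Agent.FF.valueAt_of_mem hFk P (pow_mem hf n),
    ← map_pow]
  rfl

end Val

section Frob

variable (k : Type*) [Field k] (M₀ q : ℕ) [Fact q.Prime] [CharP k q] [PerfectRing k q]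

/-- `(Φ f)(Φ • P) = f(P)^q`. -/
theorem oev_valueAt_frob (hFk : IsRRField k ↥(modularFunctionFieldFullC k M₀))
    {P : Place k ↥(modularFunctionFieldFullC k M₀)} {f : ↥(modularFunctionFieldFullC k M₀)}
    (hf : f ∈ P.toValuationSubring) :
    frobAut k M₀ q • f ∈ (frobAut k M₀ q • P).toValuationSubring ∧
      Fermat.Agent.FF.valueAt hFk (frobAut k M₀ q • P) (frobAut k M₀ q • f) =
        Fermat.Agent.FF.valueAt hFk P f ^ q := by
  obtain ⟨h1, h2⟩ := oev_valueAt_smul hFk (frobAut k M₀ q) hf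
  refine ⟨h1, ?_⟩
  rw [h2]
  exact baseAut_frobAut_apply k M₀ q _

/-- `((Φ⁻¹ f)^q)(Φ⁻¹ • P) = f(P)`. -/
theorem oev_valueAt_frob_inv_pow (hFk : IsRRField k ↥(modularFunctionFieldFullC k M₀))
    {P : Place k ↥(modularFunctionFieldFullC k M₀)} {f : ↥(modularFunctionFieldFullC k M₀)}
    (hf : f ∈ P.toValuationSubring) :
    ((frobAut k M₀ q)⁻¹ • f) ^ q ∈ ((frobAut k M₀ q)⁻¹ • P).toValuationSubring ∧
      Fermat.Agent.FF.valueAt hFk ((frobAut k M₀ q)⁻¹ • P) (((frobAut k M₀ q)⁻¹ • f) ^ q) =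
        Fermat.Agent.FF.valueAt hFk P f := by
  obtain ⟨h1, h2⟩ := oev_valueAt_smul hFk (frobAut k M₀ q)⁻¹ hf
  refine ⟨pow_mem h1 q, ?_⟩
  rw [oev_valueAt_pow hFk h1, h2, SemilinearAut.baseAut_inv]
  have h3 : ∀ c : k, ((SemilinearAut.baseAut (frobAut k M₀ q)).symm c) ^ q = c := by
    intro c
    have h4 := (SemilinearAut.baseAut (frobAut k M₀ q)).apply_symm_apply c
    rw [baseAut_frobAut_apply] at h4
    exact h4
  exact h3 _

end Frob

/-! ### the reduction of the Kronecker polynomial -/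

section Main

variable {M₀ q : ℕ} [NeZero M₀] [NeZero q] [Fact q.Prime]
  {A : ValuationSubring Qb} [CharP (IsLocalRing.ResidueField A) q]
  [PerfectRing (IsLocalRing.ResidueField A) q]
  {S0 : Fermat.Agent.S18Key.RedSetup Qb (FBar M₀) (IsLocalRing.ResidueField A)
    ↥(modularFunctionFieldFullC (IsLocalRing.ResidueField A) M₀)}

/-- **the reduction of a lift of `C_g` to the Gauss ring**, in `Fk₀[X]`: for `g ∈ S0.Ov` and
`Cg ∈ B[X]`, `B ≤ S0.Ov` any subring, with `Cg.map B.subtype = charpolyAlong α (β g)`: the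
coefficientwise reduction of `Cg` is `(X - C ((Φ⁻¹ ḡ)^q)) (X^q - C (Φ ḡ))`. -/
theorem oev_red_poly (hq : q.Prime) (hqM : ¬ q ∣ M₀) (hA : A.LiesOverPrime q)
    (hS0 : IsGaussRed M₀ A S0)
    (hfin : FiniteAlong Qb (heckeAlphaBar Qb M₀ q))
    (g : FBar M₀) (hg : g ∈ S0.Ov)
    (B : Subring (FBar M₀)) (hB : ∀ b ∈ B, b ∈ S0.Ov) (Cg : Polynomial B)
    (hCg : Cg.map B.subtype =
      charpolyAlong (heckeAlphaBar Qb M₀ q) hfin (heckeBetaBar Qb M₀ q g)) (n : ℕ) :
    S0.red ((Cg.coeff n : B) : FBar M₀) =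
      ((X - C (((frobAut (IsLocalRing.ResidueField A) M₀ q)⁻¹ • S0.red g) ^ q)) *
        (X ^ q - C (frobAut (IsLocalRing.ResidueField A) M₀ q • S0.red g)) :
          Polynomial ↥(modularFunctionFieldFullC (IsLocalRing.ResidueField A) M₀)).coeff n := by
  have hgO : g ∈ gaussOvS M₀ hq A hA := (hS0.mem_iff g).mp hg
  obtain ⟨P₁, -, -, hP₁, hred⟩ := kroneckerCharpolyGen M₀ hqM hq A hA hfin ⟨g, hgO⟩
  -- the coefficients of `Cg` and of `P₁` agree in `F₀`
  have hcoef : ((Cg.coeff n : B) : FBar M₀) = ((P₁.coeff n : ↥(gaussOvS M₀ hq A hA)) : FBar M₀) := by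
    have h1 := congrArg (fun p : Polynomial (FBar M₀) => p.coeff n) (hCg.trans hP₁.symm)
    simp only [Polynomial.coeff_map] at h1
    exact h1
  -- the inclusion `Fk₀ → k((t))`
  let ι : ↥(modularFunctionFieldFullC (IsLocalRing.ResidueField A) M₀) →+*
      LaurentSeries (IsLocalRing.ResidueField A) :=
    (modularFunctionFieldFullC (IsLocalRing.ResidueField A) M₀).val.toRingHom
  have hι : Function.Injective ι := Subtype.val_injective
  apply hι
  -- left side
  have hL : ι (S0.red ((Cg.coeff n : B) : FBar M₀)) = (P₁.map (gaussOvRes M₀ hq A hA)).coeff n := by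
    show ((S0.red ((Cg.coeff n : B) : FBar M₀) : ↥(modularFunctionFieldFullC (IsLocalRing.ResidueField A) M₀)) :
      LaurentSeries (IsLocalRing.ResidueField A)) = _
    rw [hS0.coe_red _ (hB _ (Cg.coeff n).2), hcoef, Polynomial.coeff_map, gaussOvRes_apply]
  -- right side
  have hβ : ι (((frobAut (IsLocalRing.ResidueField A) M₀ q)⁻¹ • S0.red g) ^ q) = kcgBeta M₀ hq A hA ⟨g, hgO⟩ := by
    show ((((frobAut (IsLocalRing.ResidueField A) M₀ q)⁻¹ • S0.red g) ^ q : ↥(modularFunctionFieldFullC (IsLocalRing.ResidueField A) M₀)) :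
      LaurentSeries (IsLocalRing.ResidueField A)) = _
    rw [coe_frobAut_inv_smul_pow, hS0.coe_red g hg, kcgBeta, gaussOvRes_apply]
  have hφ : ι (frobAut (IsLocalRing.ResidueField A) M₀ q • S0.red g) = kcgFrob M₀ hq A hA ⟨g, hgO⟩ := by
    show ((frobAut (IsLocalRing.ResidueField A) M₀ q • S0.red g : ↥(modularFunctionFieldFullC (IsLocalRing.ResidueField A) M₀)) :
      LaurentSeries (IsLocalRing.ResidueField A)) = _
    rw [coe_frobAut_smul, hS0.coe_red g hg, kcgFrob, gaussOvRes_apply]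
  have hR : ι (((X - C (((frobAut (IsLocalRing.ResidueField A) M₀ q)⁻¹ • S0.red g) ^ q)) *
        (X ^ q - C (frobAut (IsLocalRing.ResidueField A) M₀ q • S0.red g)) :
          Polynomial ↥(modularFunctionFieldFullC (IsLocalRing.ResidueField A) M₀)).coeff n) =
      (kcgPoly M₀ hq A hA ⟨g, hgO⟩).coeff n := by
    rw [← Polynomial.coeff_map, Polynomial.map_mul, Polynomial.map_sub, Polynomial.map_sub,
      Polynomial.map_X, Polynomial.map_C, Polynomial.map_pow, Polynomial.map_X, Polynomial.map_C,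
      hβ, hφ, kcgPoly]
  rw [hL, hR, hred]

/-- the coefficients of `C_g = charpolyAlong α (β g)` are Gauss-integral, for `g ∈ S0.Ov`. -/
theorem oev_coeff_mem_Ov (hq : q.Prime) (hqM : ¬ q ∣ M₀) (hA : A.LiesOverPrime q)
    (hS0 : IsGaussRed M₀ A S0)
    (hfin : FiniteAlong Qb (heckeAlphaBar Qb M₀ q))
    (g : FBar M₀) (hg : g ∈ S0.Ov) (n : ℕ) :
    (charpolyAlong (heckeAlphaBar Qb M₀ q) hfin (heckeBetaBar Qb M₀ q g)).coeff n ∈ S0.Ov := by
  have hgO : g ∈ gaussOvS M₀ hq A hA := (hS0.mem_iff g).mp hg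
  obtain ⟨P₁, -, -, hP₁, -⟩ := kroneckerCharpolyGen M₀ hqM hq A hA hfin ⟨g, hgO⟩
  rw [← hP₁, Polynomial.coeff_map]
  exact (hS0.mem_iff _).mpr (P₁.coeff n).2

/-- **the reduction of the coefficients of `C_g`** (`= KCDatum.coeff_red`): for `g ∈ S0.Ov`,
`red (C_g.coeff n) = ((X - C ((Φ⁻¹ ḡ)^q)) (X^q - C (Φ ḡ))).coeff n`. -/
theorem oev_coeff_red (hq : q.Prime) (hqM : ¬ q ∣ M₀) (hA : A.LiesOverPrime q)
    (hS0 : IsGaussRed M₀ A S0)
    (hfin : FiniteAlong Qb (heckeAlphaBar Qb M₀ q))
    (g : FBar M₀) (hg : g ∈ S0.Ov) (n : ℕ) :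
    S0.red ((charpolyAlong (heckeAlphaBar Qb M₀ q) hfin (heckeBetaBar Qb M₀ q g)).coeff n) =
      ((X - C (((frobAut (IsLocalRing.ResidueField A) M₀ q)⁻¹ • S0.red g) ^ q)) *
        (X ^ q - C (frobAut (IsLocalRing.ResidueField A) M₀ q • S0.red g)) :
          Polynomial ↥(modularFunctionFieldFullC (IsLocalRing.ResidueField A) M₀)).coeff n := by
  have hcoeffs : (↑(charpolyAlong (heckeAlphaBar Qb M₀ q) hfin
      (heckeBetaBar Qb M₀ q g)).coeffs : Set (FBar M₀)) ⊆ S0.Ov.toSubring := by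
    intro x hx
    obtain ⟨i, -, rfl⟩ := Polynomial.mem_coeffs_iff.mp (Finset.mem_coe.mp hx)
    exact oev_coeff_mem_Ov hq hqM hA hS0 hfin g hg i
  have h := oev_red_poly hq hqM hA hS0 hfin g hg S0.Ov.toSubring (fun b hb => hb)
    ((charpolyAlong (heckeAlphaBar Qb M₀ q) hfin (heckeBetaBar Qb M₀ q g)).toSubring
      S0.Ov.toSubring hcoeffs) (Polynomial.map_toSubring _ _ hcoeffs) n
  rw [Polynomial.coeff_toSubring] at h
  exact h

/-- **the Kronecker datum of `g`** (helper30's `KCDatum`): `C_g = charpolyAlong α (β g)` is a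
Kronecker datum for every Gauss-integral `g` as soon as its coefficients lie in `B'`
(leaves (O2) + (O3) for `B' = discRing S0 P'`). -/
theorem oev_kcDatum (hq : q.Prime) (hqM : ¬ q ∣ M₀) (hA : A.LiesOverPrime q)
    (hS0 : IsGaussRed M₀ A S0)
    (hfin : FiniteAlong Qb (heckeAlphaBar Qb M₀ q))
    (g : FBar M₀) (hg : g ∈ S0.Ov) (B' : Subring (FBar M₀))
    (hmem : ∀ i,
      (charpolyAlong (heckeAlphaBar Qb M₀ q) hfin (heckeBetaBar Qb M₀ q g)).coeff i ∈ B') :
    KCDatum S0 q (frobAut (IsLocalRing.ResidueField A) M₀ q) B' g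
      (charpolyAlong (heckeAlphaBar Qb M₀ q) hfin (heckeBetaBar Qb M₀ q g)) where
  monic := charpolyAlong_monic _ _ _
  coeff_mem := hmem
  coeff_red := fun i => oev_coeff_red hq hqM hA hS0 hfin g hg i

end Main

end Fermat.Agent.S36G
end
end MergeWrap_S36_Seed_OldEv

section MergeWrap_S36_Seed_OldEvPoly -- from S36/Seed/OldEvPoly.lean

set_option autoImplicit false
set_option linter.style.haveILetI false
set_option linter.unusedSectionVars false
set_option linter.unusedVariables false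
set_option synthInstance.maxHeartbeats 400000
set_option maxHeartbeats 2000000

noncomputable section

namespace Fermat.Agent.S36G

open Polynomial ModularCurve AlgebraicCurve Fermat.Agent.GaussInt Fermat.Agent.BadRed
  Fermat.Agent.HPVal Fermat.Agent.RR Fermat.Agent.F3G

local notation "Qb" => AlgebraicClosure ℚ

attribute [local instance 10000] SubalgebraClass.toAlgebra HahnSeries.powerSeriesAlgebra

section Main

variable {M₀ q : ℕ} [NeZero M₀] [NeZero q] [Fact q.Prime]
  {A : ValuationSubring Qb} [CharP (IsLocalRing.ResidueField A) q]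
  [PerfectRing (IsLocalRing.ResidueField A) q]
  {S0 : Fermat.Agent.S18Key.RedSetup Qb (FBar M₀) (IsLocalRing.ResidueField A)
    ↥(modularFunctionFieldFullC (IsLocalRing.ResidueField A) M₀)}

/-- **(O4)**: the evaluation at `P'` of the Kronecker polynomial of `g ∈ R_P`. -/
theorem oev_map_discEv (hq : q.Prime) (hqM : ¬ q ∣ M₀) (hA : A.LiesOverPrime q)
    (hS0 : IsGaussRed M₀ A S0)
    (hFk : IsRRField (IsLocalRing.ResidueField A)
      ↥(modularFunctionFieldFullC (IsLocalRing.ResidueField A) M₀))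
    (P P' : Place (IsLocalRing.ResidueField A)
      ↥(modularFunctionFieldFullC (IsLocalRing.ResidueField A) M₀))
    (hP' : frobAut (IsLocalRing.ResidueField A) M₀ q • P = P')
    (hP : frobAut (IsLocalRing.ResidueField A) M₀ q • P' = P)
    (hfin : FiniteAlong Qb (heckeAlphaBar Qb M₀ q))
    (g : FBar M₀) (hg : g ∈ discRing S0 P)
    (Cg : Polynomial (discRing S0 P'))
    (hCg : Cg.map (discRing S0 P').subtype =
      charpolyAlong (heckeAlphaBar Qb M₀ q) hfin (heckeBetaBar Qb M₀ q g)) :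
    Cg.map (discEv S0 P' hFk) =
      (X - C (discEv S0 P hFk ⟨g, hg⟩)) * (X ^ q - C (discEv S0 P hFk ⟨g, hg⟩ ^ q)) := by
  have hcval : discEv S0 P hFk ⟨g, hg⟩ = Fermat.Agent.FF.valueAt hFk P (S0.red g) :=
    discEv_apply hFk ⟨g, hg⟩
  have hgbP : S0.red g ∈ P.toValuationSubring :=
    Fermat.Agent.S24Res.mem_of_ord_nonneg P (ord_red_nonneg_of_mem hg)
  -- the values of `β̄ = (Φ⁻¹ ḡ)^q` and `φ̄ = Φ ḡ` at `P'`
  have hPinv : (frobAut (IsLocalRing.ResidueField A) M₀ q)⁻¹ • P = P' := by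
    rw [← hP, inv_smul_smul]
  obtain ⟨hφmem, hφval⟩ := oev_valueAt_frob (IsLocalRing.ResidueField A) M₀ q hFk hgbP
  obtain ⟨hβmem, hβval⟩ := oev_valueAt_frob_inv_pow (IsLocalRing.ResidueField A) M₀ q hFk hgbP
  rw [hP'] at hφmem hφval
  rw [hPinv] at hβmem hβval
  rw [← hcval] at hφval hβval
  refine Polynomial.ext fun n => ?_
  have h1 : (Cg.map (discEv S0 P' hFk)).coeff n =
      Fermat.Agent.FF.valueAt hFk P' (S0.red ((Cg.coeff n : discRing S0 P') : FBar M₀)) := by
    rw [Polynomial.coeff_map]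
    exact discEv_apply hFk (Cg.coeff n)
  have h2 := oev_red_poly hq hqM hA hS0 hfin g hg.1 (discRing S0 P') (fun b hb => hb.1) Cg hCg n
  obtain ⟨-, h3⟩ := wpo_valueAt_coeff hFk q P' hβmem hφmem n
  rw [h1, h2, h3, hβval, hφval]

end Main

end Fermat.Agent.S36G
end
end MergeWrap_S36_Seed_OldEvPoly

section MergeWrap_S36_Seed_OldFinal2 -- from S36/Seed/OldFinal2.lean

set_option autoImplicit false
set_option linter.style.haveILetI false
set_option linter.unusedSectionVars false
set_option linter.unusedVariables false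
set_option synthInstance.maxHeartbeats 400000

noncomputable section
attribute [local instance 10000] SubalgebraClass.toAlgebra HahnSeries.powerSeriesAlgebra

namespace Fermat.Agent.S36G

open Polynomial ModularCurve AlgebraicCurve Fermat.Agent.F3 Fermat.Agent.F3G
  Fermat.Agent.GaussInt Fermat.Agent.Deuring Fermat.Agent.BadRed Fermat.Agent.HPVal
  Fermat.Agent.S18Key Fermat.Agent.RR Fermat.Agent.Kronecker

local notation "Qb" => AlgebraicClosure ℚ

section Final2

variable {M₀ q : ℕ} [NeZero M₀] [NeZero q] {A : ValuationSubring Qb}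
  {S0 : RedSetup Qb (FBar M₀) (IsLocalRing.ResidueField A)
    ↥(modularFunctionFieldFullC (IsLocalRing.ResidueField A) M₀)}
  [Fact q.Prime] [CharP (IsLocalRing.ResidueField A) q]
  [PerfectRing (IsLocalRing.ResidueField A) q]

/-- **(O4)** at all pairs `P' = Φ • P`, `P = Φ • P'` (OLD-EV, helper1). -/
theorem oldFin_evSS (hq : q.Prime) (hqM : ¬ q ∣ M₀) (hA : A.LiesOverPrime q)
    (hS0 : IsGaussRed M₀ A S0)
    (hFk : IsRRField (IsLocalRing.ResidueField A)
      ↥(modularFunctionFieldFullC (IsLocalRing.ResidueField A) M₀)) :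
    OldEvSS M₀ q A S0 hFk := fun P P' hP' hP hfin g Cg hCg =>
  oev_map_discEv hq hqM hA hS0 hFk P P' hP' hP hfin (g : FBar M₀) g.2 Cg hCg

/-- **OLD from (O3)**: at a supersingular place `P` the field `old1` at the centre `Φ • P` gives
the fields `old0` and `old2` at `P`. -/
theorem oldFin_old02_of_fibre (hq : q.Prime) (hqM : ¬ q ∣ M₀) (haux : AuxLevelOK q M₀)
    (hA : A.LiesOverPrime q) (hS0 : IsGaussRed M₀ A S0)
    (hFk : IsRRField (IsLocalRing.ResidueField A)
      ↥(modularFunctionFieldFullC (IsLocalRing.ResidueField A) M₀))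
    (hfib : OldFibreSS M₀ q A S0)
    {P : Place (IsLocalRing.ResidueField A)
      ↥(modularFunctionFieldFullC (IsLocalRing.ResidueField A) M₀)}
    (hP : IsSSPlace (IsLocalRing.ResidueField A) M₀ q P)
    {FkP : Type} [Field FkP] [Algebra (IsLocalRing.ResidueField A) FkP]
    (S : ValSetup Qb (FBar (M₀ * q * q)) (IsLocalRing.ResidueField A) FkP)
    (hold1 : WPOld S0 (frobAut (IsLocalRing.ResidueField A) M₀ q • P) (wpdIota1 M₀ q) S) :
    WPOld S0 P (wpIota0 M₀ q) S ∧ WPOld S0 P (wpIota2 M₀ q) S :=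
  oldFin_old02 hq hqM haux hA hS0 hFk hfib (oldFin_evSS hq hqM hA hS0 hFk) hP S hold1

/-- **OLD from (O3)** in the shape `WPOldStep` consumed by `wpv_of_coreModIn`. -/
theorem oldFin_wpOldStep (hq : q.Prime) (hqM : ¬ q ∣ M₀) (haux : AuxLevelOK q M₀)
    (hA : A.LiesOverPrime q) (hS0 : IsGaussRed M₀ A S0)
    (hFk : IsRRField (IsLocalRing.ResidueField A)
      ↥(modularFunctionFieldFullC (IsLocalRing.ResidueField A) M₀))
    (hfib : OldFibreSS M₀ q A S0)
    {P : Place (IsLocalRing.ResidueField A)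
      ↥(modularFunctionFieldFullC (IsLocalRing.ResidueField A) M₀)}
    (hP : IsSSPlace (IsLocalRing.ResidueField A) M₀ q P) :
    WPOldStep (q := q) S0 P (frobAut (IsLocalRing.ResidueField A) M₀ q • P) :=
  fun _ _ _ S hold1 => oldFin_old02_of_fibre hq hqM haux hA hS0 hFk hfib hP S hold1

end Final2

section Exists

variable (M₀ q : ℕ) [NeZero M₀] [NeZero q]

/-- **(O3), the statement of OLD-FIBRE at `wpdSetup`**: for every `A ∣ q`, a place `w` of
`F_{M₀ q}` whose restriction along `α` reduces to the supersingular place `P'` has its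
restriction along `β` reducing to `Φ • P'`. -/
def OldFibreAll : Prop :=
  ∀ (hq : q.Prime) (hqM : ¬ q ∣ M₀) (A : ValuationSubring Qb) (hA : A.LiesOverPrime q)
    (hg : genusFF Qb (modularFunctionFieldBar M₀) =
      genusFF (IsLocalRing.ResidueField A)
        (modularFunctionFieldFullC (IsLocalRing.ResidueField A) M₀))
    [Fact q.Prime] [CharP (IsLocalRing.ResidueField A) q]
    [PerfectRing (IsLocalRing.ResidueField A) q],
    OldFibreSS M₀ q A (wpdSetup A q M₀ hq hA hqM hg)

/-- **OLD, the input of the assembly `Val.lean`**, from (O3). -/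
theorem oldFin_wpOldExists (haux : AuxLevelOK q M₀) (hfib : OldFibreAll M₀ q) :
    WPOldExists M₀ q := by
  intro hq hqM A hA hg _ _ _ P hP
  exact oldFin_wpOldStep hq hqM haux hA (isGaussRed_wpdSetup A q M₀ hq hA hqM hg)
    (wpd_hFk A M₀) (hfib hq hqM A hA hg) hP

end Exists

end Fermat.Agent.S36G
end
end MergeWrap_S36_Seed_OldFinal2

section MergeWrap_S36_Seed_OldFibreAbs -- from S36/Seed/OldFibreAbs.lean

set_option autoImplicit false
set_option linter.style.haveILetI false
set_option linter.unusedSectionVars false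
set_option linter.unusedVariables false

noncomputable section
attribute [local instance 10000] SubalgebraClass.toAlgebra HahnSeries.powerSeriesAlgebra

namespace Fermat.Agent.S36G

open Polynomial AlgebraicCurve Fermat.Agent.HPVal Fermat.Agent.S18Key Fermat.Agent.RR
  Fermat.Agent.FF

section Restrict

variable {K E F : Type*} [Field K] [Field E] [Field F] [Algebra K E] [Algebra K F]

/-- non-negativity of the order is read off on the upper field. -/
theorem olf_ord_restrict_nonneg (φ : E →ₐ[K] F) (hφ : φ.toRingHom.IsIntegral) (w : Place K F)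
    (x : E) : 0 ≤ (w.restrictAlong φ hφ).ord x ↔ 0 ≤ w.ord (φ x) := by
  have e := Place.ord_restrictAlong φ hφ w x
  have hpos : (0 : ℤ) < (Place.ramificationIndexAlong φ w : ℤ) :=
    Int.natCast_pos.mpr (Fermat.Agent.RedTr.ramificationIndexAlong_pos φ hφ w)
  rw [e]
  constructor
  · intro h
    exact mul_nonneg hpos.le h
  · intro h
    by_contra hcon
    rw [not_le] at hcon
    have := mul_neg_of_pos_of_neg hpos hcon
    omega

/-- positivity of the order is read off on the upper field. -/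
theorem olf_ord_restrict_pos (φ : E →ₐ[K] F) (hφ : φ.toRingHom.IsIntegral) (w : Place K F)
    (x : E) : 0 < (w.restrictAlong φ hφ).ord x ↔ 0 < w.ord (φ x) := by
  have e := Place.ord_restrictAlong φ hφ w x
  have hpos : (0 : ℤ) < (Place.ramificationIndexAlong φ w : ℤ) :=
    Int.natCast_pos.mpr (Fermat.Agent.RedTr.ramificationIndexAlong_pos φ hφ w)
  rw [e]
  constructor
  · intro h
    exact mul_pos hpos h
  · intro h
    by_contra hcon
    rw [not_lt] at hcon
    have := mul_nonpos_of_nonneg_of_nonpos hpos.le hcon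
    omega

/-- **the value of `φ f` at `w` is the value of `f` at `w ∘ φ`.** -/
theorem olf_valueAt_restrict (hE : IsRRField K E) (hF : IsRRField K F) (φ : E →ₐ[K] F)
    (hφ : φ.toRingHom.IsIntegral) (w : Place K F) {f : E}
    (hf : 0 ≤ (w.restrictAlong φ hφ).ord f) :
    valueAt hF w (φ f) = valueAt hE (w.restrictAlong φ hφ) f := by
  have hfv : f ∈ (w.restrictAlong φ hφ).toValuationSubring := mem_of_ord_nonneg' _ hf
  have hfw : φ f ∈ w.toValuationSubring :=
    mem_of_ord_nonneg' w ((olf_ord_restrict_nonneg φ hφ w f).mp hf)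
  rw [valueAt_eq_iff hF w hfw]
  rcases valueAt_spec hE (w.restrictAlong φ hφ) hfv with h | h
  · left
    conv_lhs => rw [h]
    exact φ.commutes _
  · right
    have h2 := (olf_ord_restrict_pos φ hφ w _).mp h
    rwa [map_sub, φ.commutes] at h2

end Restrict

section Core

variable {K F₀ F k Fk0 : Type*} [Field K] [Field F₀] [Algebra K F₀] [Field F] [Algebra K F]
  [Field k] [Field Fk0] [Algebra k Fk0]

/-- the value at a place of the residue disc of `P'` of a function of `R_{P'}` lies in `A`, and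
its residue is the value of the reduction at `P'`. -/
theorem olf_value_disc (S0 : RedSetup K F₀ k Fk0) (hFk0 : IsRRField k Fk0) {P' : Place k Fk0}
    {v : Place K F₀} (hv : S0.r v = P') (c : discRing S0 P') :
    ∃ hA : valueAt S0.hF v (c : F₀) ∈ S0.A,
      S0.res ⟨valueAt S0.hF v (c : F₀), hA⟩ = discEv S0 P' hFk0 c := by
  have hreg : ∀ P'', S0.r P'' = S0.r v → 0 ≤ P''.ord (c : F₀) := fun P'' hP'' =>
    c.2.2 P'' (hP''.trans hv)
  have hcv : (c : F₀) ∈ v.toValuationSubring := mem_of_ord_nonneg' v (c.2.2 v hv)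
  have hspec := valueAt_spec S0.hF v hcv
  have hA : valueAt S0.hF v (c : F₀) ∈ S0.A := value_mem_A c.2.1 v hreg _ hspec
  refine ⟨hA, ?_⟩
  have h1 := value_red c.2.1 v hreg _ hA hspec
  rw [hv, red_const hA] at h1
  rw [discEv_apply]
  have hmem : S0.red (c : F₀) ∈ P'.toValuationSubring :=
    mem_of_ord_nonneg' P' (ord_red_nonneg_of_mem c.2)
  exact ((valueAt_eq_iff hFk0 P' hmem _).mpr h1).symm

/-- **OLD-FIBRE, abstract core**: the Kronecker congruence at a place `w` whose restriction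
along `α` reduces to `P'`. -/
theorem olf_value (S0 : RedSetup K F₀ k Fk0) (hFk0 : IsRRField k Fk0) (hF : IsRRField K F)
    (q : ℕ) [Fact q.Prime] [CharP k q] (α β : F₀ →ₐ[K] F) (hα : α.toRingHom.IsIntegral)
    (w : Place K F) (P' : Place k Fk0) (hv : S0.r (w.restrictAlong α hα) = P')
    (Cg : Polynomial (discRing S0 P')) (hC : Cg.Monic) (b₁ b₃ : k)
    (hCev : Cg.map (discEv S0 P' hFk0) = (X - C b₁) * (X ^ q - C (b₃ ^ q))) (g : F₀)
    (hroot : Polynomial.eval₂ ((α : F₀ →+* F).comp (discRing S0 P').subtype) (β g) Cg = 0) :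
    β g ∈ w.toValuationSubring ∧ ∃ hA : valueAt hF w (β g) ∈ S0.A,
      S0.res ⟨valueAt hF w (β g), hA⟩ = b₁ ∨ S0.res ⟨valueAt hF w (β g), hA⟩ = b₃ := by
  -- the coefficients are regular at `w`
  have hmemw : ∀ c : discRing S0 P', α (c : F₀) ∈ w.toValuationSubring := fun c =>
    mem_of_ord_nonneg' w ((olf_ord_restrict_nonneg α hα w _).mp (c.2.2 _ hv))
  let h1 : discRing S0 P' →+* w.toValuationSubring :=
    ((α : F₀ →+* F).comp (discRing S0 P').subtype).codRestrict w.toValuationSubring.toSubring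
      (fun c => hmemw c)
  have hcomp1 : (algebraMap w.toValuationSubring F).comp h1 =
      (α : F₀ →+* F).comp (discRing S0 P').subtype := by
    ext c
    rfl
  -- step 1: `β g` is regular at `w`
  have hP₁m : (Cg.map h1).Monic := hC.map h1
  have hP₁x : Polynomial.eval₂ (algebraMap w.toValuationSubring F) (β g) (Cg.map h1) = 0 := by
    rw [Polynomial.eval₂_map, hcomp1]
    exact hroot
  have hβw : β g ∈ w.toValuationSubring :=
    wpo_mem_of_root w.toValuationSubring (Cg.map h1) hP₁m _ hP₁x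
  refine ⟨hβw, ?_⟩
  -- step 2: the values of the coefficients
  have hval : ∀ c : discRing S0 P',
      valueHom hF w (h1 c) = valueAt S0.hF (w.restrictAlong α hα) (c : F₀) := by
    intro c
    have e1 : valueHom hF w (h1 c) = valueAt hF w (α (c : F₀)) :=
      (valueAt_of_mem hF w (hmemw c)).symm
    rw [e1]
    exact olf_valueAt_restrict S0.hF hF α hα w (c.2.2 _ hv)
  have hvalA : ∀ c : discRing S0 P', valueHom hF w (h1 c) ∈ S0.A := by
    intro c
    rw [hval c]
    exact (olf_value_disc S0 hFk0 hv c).1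
  let φ : discRing S0 P' →+* S0.A :=
    ((valueHom hF w).comp h1).codRestrict S0.A.toSubring (fun c => hvalA c)
  have hcomp2 : (algebraMap S0.A K).comp φ = (valueHom hF w).comp h1 := by
    ext c
    rfl
  have hres : S0.res.comp φ = discEv S0 P' hFk0 := by
    ext c
    obtain ⟨hA, hr⟩ := olf_value_disc S0 hFk0 hv c
    rw [← hr]
    show S0.res (φ c) = _
    congr 1
    apply Subtype.ext
    exact hval c
  -- step 3: the value of `β g`
  have hx1 := wpo_eval_map_res w.toValuationSubring (valueHom hF w) (Cg.map h1) ⟨β g, hβw⟩ hP₁x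
  have hxv : valueHom hF w ⟨β g, hβw⟩ = valueAt hF w (β g) := (valueAt_of_mem hF w hβw).symm
  rw [hxv, Polynomial.map_map, ← hcomp2, ← Polynomial.map_map, Polynomial.eval_map] at hx1
  have hP₂m : (Cg.map φ).Monic := hC.map φ
  have hxA : valueAt hF w (β g) ∈ S0.A := wpo_mem_of_root S0.A (Cg.map φ) hP₂m _ hx1
  refine ⟨hxA, ?_⟩
  have hx2 := wpo_eval_map_res (Fk := k) S0.A S0.res (Cg.map φ) ⟨valueAt hF w (β g), hxA⟩ hx1
  rw [Polynomial.map_map, hres, hCev] at hx2
  have hx3 := wpo_root_cases (k := k) (Fk := k) q b₁ b₃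
    (S0.res ⟨valueAt hF w (β g), hxA⟩) (by
      rw [Algebra.algebraMap_self, Polynomial.map_id]
      exact hx2)
  simpa using hx3

end Core

end Fermat.Agent.S36G
end
end MergeWrap_S36_Seed_OldFibreAbs

section MergeWrap_S36_Seed_OldFibreCusp -- from S36/Seed/OldFibreCusp.lean

set_option autoImplicit false
set_option linter.style.haveILetI false
set_option linter.unusedSectionVars false
set_option synthInstance.maxHeartbeats 400000
set_option maxHeartbeats 1000000

noncomputable section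
attribute [local instance 10000] SubalgebraClass.toAlgebra HahnSeries.powerSeriesAlgebra

namespace Fermat.Agent.S36G

open ModularCurve AlgebraicCurve Fermat.Agent.Deuring Fermat.Agent.GaussInt Fermat.Agent.FF
  Fermat.Agent.HPVal Fermat.Agent.S18Key Fermat.Agent.RR Fermat.Agent.BadRed

local notation "Qb" => AlgebraicClosure ℚ

/-! ### abstract: zeros of `x - c` reduce to zeros of `x̄ - c̄` -/

section Abstract

variable {K F k Fk : Type*} [Field K] [Field F] [Algebra K F] [Field k] [Field Fk] [Algebra k Fk]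

/-- `deg (u⁻¹)_∞ = deg (u)_∞`. -/
theorem olfc_degree_poleDiv_inv (h : IsRRField K F) (u : F) :
    Divisor.degree (poleDiv h u⁻¹) = Divisor.degree (poleDiv h u) := by
  have h1 : poleDiv h u⁻¹ = poleDiv h u + divOf h u := by
    ext v
    rw [Finsupp.add_apply, poleDiv_apply, poleDiv_apply, divOf_apply, v.ord_inv, neg_neg]
    rcases max_cases (v.ord u) 0 with ⟨h1, _⟩ | ⟨h1, _⟩ <;>
      rcases max_cases (-(v.ord u)) 0 with ⟨h2, _⟩ | ⟨h2, _⟩ <;> omega
  rw [h1, map_add, degree_divOf, add_zero]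

/-- the reduction of `x - c`. -/
theorem olfc_red_sub_const (S : RedSetup K F k Fk) {x : F} (hx : x ∈ S.Ov) {c : K}
    (hc : c ∈ S.A) :
    S.red (x - algebraMap K F c) = S.red x - algebraMap k Fk (S.res ⟨c, hc⟩) := by
  rw [red_sub hx ((const_mem_iff c).mpr hc), red_const hc]

/-- **zeros reduce to zeros** (no cancellation): if `deg (x)_∞ ≤ deg (x̄)_∞` and `x - c` is a
unit of `S.Ov`, a zero `v` of `x - c` reduces to a zero of `x̄ - c̄`. -/
theorem olf_push_ord_sub_pos (S : RedSetup K F k Fk) (hFk : IsRRField k Fk) {x : F}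
    (hx : x ∈ S.Ov) {c : K} (hc : c ∈ S.A) (hU : S.IsU (x - algebraMap K F c))
    (hdeg : Divisor.degree (poleDiv S.hF x) ≤ Divisor.degree (poleDiv hFk (S.red x)))
    {v : Place K F} (hv : 0 < v.ord (x - algebraMap K F c)) :
    0 < (S.r v).ord (S.red x - algebraMap k Fk (S.res ⟨c, hc⟩)) := by
  have hUi : S.IsU (x - algebraMap K F c)⁻¹ := hU.inv
  have hred : S.red (x - algebraMap K F c)⁻¹ =
      (S.red x - algebraMap k Fk (S.res ⟨c, hc⟩))⁻¹ := by
    rw [hU.red_inv, olfc_red_sub_const S hx hc]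
  have hdeg' : Divisor.degree (poleDiv S.hF (x - algebraMap K F c)⁻¹) ≤
      Divisor.degree (poleDiv hFk (S.red (x - algebraMap K F c)⁻¹)) := by
    rw [hred, olfc_degree_poleDiv_inv S.hF, olfc_degree_poleDiv_inv hFk,
      Fermat.Agent.RRHur.fibreDeg_poleDiv_sub_const, Fermat.Agent.RRHur.fibreDeg_poleDiv_sub_const]
    exact hdeg
  have hneg : v.ord (x - algebraMap K F c)⁻¹ < 0 := by
    rw [v.ord_inv]
    omega
  have h1 := wpd_push_ord_neg S hFk hUi hdeg' hneg
  rw [hred, Place.ord_inv] at h1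
  omega

/-- in the same situation, `x̄` is regular at `r v`. -/
theorem olf_push_ord_red_nonneg (S : RedSetup K F k Fk) (hFk : IsRRField k Fk) {x : F}
    (hx : x ∈ S.Ov) {c : K} (hc : c ∈ S.A) (hU : S.IsU (x - algebraMap K F c))
    (hdeg : Divisor.degree (poleDiv S.hF x) ≤ Divisor.degree (poleDiv hFk (S.red x)))
    {v : Place K F} (hv : 0 < v.ord (x - algebraMap K F c)) :
    0 ≤ (S.r v).ord (S.red x) := by
  have h1 := olf_push_ord_sub_pos S hFk hx hc hU hdeg hv
  have h2 : S.red x = (S.red x - algebraMap k Fk (S.res ⟨c, hc⟩)) +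
      algebraMap k Fk (S.res ⟨c, hc⟩) := by ring
  rw [h2]
  exact ord_nonneg_add (S.r v) h1.le (ord_const_nonneg _ _)

end Abstract

/-! ### modular: an integral `j`-value is not a cusp of the special fibre -/

section Mod

variable {A : ValuationSubring Qb} {q M : ℕ} [NeZero M]
  {S0 : RedSetup Qb (modularFunctionFieldBar M) (IsLocalRing.ResidueField A)
    ↥(modularFunctionFieldFullC (IsLocalRing.ResidueField A) M)}

/-- **(B) of OLD-FIBRE**: a non-cuspidal place `v` of `F_M` whose `j`-value is integral at `A`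
reduces to a non-cuspidal place of the special fibre. -/
theorem olf_ord_jC_nonneg (hS : IsGaussRed M A S0) (hq : q.Prime) (hA : A.LiesOverPrime q)
    (hqM : ¬ q ∣ M) {v : Place Qb (modularFunctionFieldBar M)}
    (hv : 0 ≤ v.ord (Fermat.Agent.S24.jBar M))
    (hval : valueAt S0.hF v (Fermat.Agent.S24.jBar M) ∈ A) :
    0 ≤ (S0.r v).ord (Fermat.Agent.RRMod.jC (IsLocalRing.ResidueField A) M) := by
  haveI := isAlgClosed_residue A
  set c : Qb := valueAt S0.hF v (Fermat.Agent.S24.jBar M) with hc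
  have hcA : c ∈ S0.A := (hS.mem_A_iff c).mpr hval
  have hjO : Fermat.Agent.S24.jBar M ∈ S0.Ov := hS.jBar_mem hq hA hqM
  have hred := hS.red_jBar hq hA hqM
  -- `j - c` is a unit of the Gauss ring: its reduction `j̄ - c̄` is not zero
  have hne : S0.red (Fermat.Agent.S24.jBar M -
      algebraMap Qb ↥(modularFunctionFieldBar M) c) ≠ 0 := by
    rw [olfc_red_sub_const S0 hjO hcA, hred]
    intro h0
    have htr := Fermat.Agent.RRMod.transcendental_jC (IsLocalRing.ResidueField A) M
    have hj : Fermat.Agent.RRMod.jC (IsLocalRing.ResidueField A) M =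
        algebraMap (IsLocalRing.ResidueField A)
          ↥(modularFunctionFieldFullC (IsLocalRing.ResidueField A) M) (S0.res ⟨c, hcA⟩) :=
      sub_eq_zero.mp h0
    exact htr (by rw [hj]; exact isAlgebraic_algebraMap _)
  have hU : S0.IsU (Fermat.Agent.S24.jBar M - algebraMap Qb ↥(modularFunctionFieldBar M) c) :=
    isU_of_red_ne_zero (sub_mem hjO ((const_mem_iff c).mpr hcA)) hne
  have hdeg : Divisor.degree (poleDiv S0.hF (Fermat.Agent.S24.jBar M)) ≤
      Divisor.degree (poleDiv (wpd_hFk A M) (S0.red (Fermat.Agent.S24.jBar M))) := by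
    rw [hred]
    exact ((oldSep_degree_poleDiv_jBar M).trans
      (oldSep_degree_poleDiv_jC A q M hq hA hqM).symm).le
  -- `v` is a zero of `j - c`
  have hmem : Fermat.Agent.S24.jBar M ∈ v.toValuationSubring := mem_of_ord_nonneg' v hv
  have hpos : 0 < v.ord (Fermat.Agent.S24.jBar M -
      algebraMap Qb ↥(modularFunctionFieldBar M) c) := by
    rcases valueAt_spec S0.hF v hmem with h | h
    · exact absurd (sub_eq_zero.mpr h) hU.ne_zero
    · exact h
  have h1 := olf_push_ord_red_nonneg S0 (wpd_hFk A M) hjO hcA hU hdeg hpos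
  rw [hred] at h1
  exact h1

end Mod

end Fermat.Agent.S36G
end
end MergeWrap_S36_Seed_OldFibreCusp

section MergeWrap_S36_Seed_OldFibre -- from S36/Seed/OldFibre.lean

set_option autoImplicit false
set_option linter.style.haveILetI false
set_option linter.unusedSectionVars false
set_option linter.unusedVariables false
set_option synthInstance.maxHeartbeats 400000
set_option maxHeartbeats 3200000

noncomputable section
attribute [local instance 10000] SubalgebraClass.toAlgebra HahnSeries.powerSeriesAlgebra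

namespace Fermat.Agent.S36G

open Polynomial ModularCurve AlgebraicCurve Fermat.Agent.F3 Fermat.Agent.F3G
  Fermat.Agent.GaussInt Fermat.Agent.Deuring Fermat.Agent.BadRed Fermat.Agent.HPVal
  Fermat.Agent.S18Key Fermat.Agent.RR Fermat.Agent.Kronecker Fermat.Agent.FF

local notation "Qb" => AlgebraicClosure ℚ

section Fibre

variable {M₀ q : ℕ} [NeZero M₀] [NeZero q] {A : ValuationSubring Qb}
  {S0 : RedSetup Qb (FBar M₀) (IsLocalRing.ResidueField A)
    ↥(modularFunctionFieldFullC (IsLocalRing.ResidueField A) M₀)}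
  {hFk : IsRRField (IsLocalRing.ResidueField A)
    ↥(modularFunctionFieldFullC (IsLocalRing.ResidueField A) M₀)}
  {P P' : Place (IsLocalRing.ResidueField A)
    ↥(modularFunctionFieldFullC (IsLocalRing.ResidueField A) M₀)}

/-- **the Kronecker congruence at `w`** for a Gauss-integral function with cuspidal poles: if
`w ∘ α` reduces to `P'`, then `β g` is regular at `w`, its value is integral, with residue
`ḡ(P)`. -/
theorem olf_value_cusp (hq : q.Prime) (hqM : ¬ q ∣ M₀) (hA : A.LiesOverPrime q)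
    (hG : IsGaussRed M₀ A S0)
    (hP : 0 ≤ P.ord (Fermat.Agent.RRMod.jC (IsLocalRing.ResidueField A) M₀))
    (hP' : 0 ≤ P'.ord (Fermat.Agent.RRMod.jC (IsLocalRing.ResidueField A) M₀))
    (hev : OldEvAt M₀ q S0 hFk P P')
    (w : Place Qb (FBar (M₀ * q)))
    (hv : S0.r (w.restrictAlong (heckeAlphaBar Qb M₀ q) (wpl_isIntegral _)) = P')
    (g : FBar M₀) (hgO : g ∈ S0.Ov)
    (hpoles : ∀ v : Place Qb (FBar M₀), 0 ≤ v.ord (Fermat.Agent.S24.jBar M₀) → 0 ≤ v.ord g) :
    ∃ hgP : g ∈ discRing S0 P, heckeBetaBar Qb M₀ q g ∈ w.toValuationSubring ∧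
      ∃ hA' : valueAt (Fermat.Agent.RRMod.isRRField_bar (M₀ * q)) w (heckeBetaBar Qb M₀ q g) ∈
          S0.A,
        S0.res ⟨valueAt (Fermat.Agent.RRMod.isRRField_bar (M₀ * q)) w (heckeBetaBar Qb M₀ q g),
          hA'⟩ = discEv S0 P hFk ⟨g, hgP⟩ := by
  haveI : Fact q.Prime := ⟨hq⟩
  haveI : CharP (IsLocalRing.ResidueField A) q := charP_residueField_of_liesOverPrime A q hq hA
  have hgP : g ∈ discRing S0 P :=
    hG.mem_discRing hq hA hqM ((hG.mem_Ov_iff' hq hA hqM g).mp hgO) hpoles hP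
  refine ⟨hgP, ?_⟩
  have hfin : FiniteAlong Qb (heckeAlphaBar Qb M₀ q) := wpl_finiteAlong _
  have hmem : ∀ n, (charpolyAlong (heckeAlphaBar Qb M₀ q) hfin
      (heckeBetaBar Qb M₀ q g)).coeff n ∈ discRing S0 P' := by
    intro n
    refine hG.mem_discRing hq hA hqM ((hG.mem_Ov_iff' hq hA hqM _).mp
      (oldMod_coeff_mem_Ov hq hqM hA hG hfin g hgO n)) (fun v hv => ?_) hP'
    exact Fermat.Agent.S36.kcp_charpoly_coeff M₀ q hq hqM hfin g hpoles v hv n
  obtain ⟨Cg, hCg⟩ := oldMod_exists_lift (discRing S0 P') _ hmem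
  have hmon : Cg.Monic := oldMod_monic_of_map _ Cg (by
    rw [hCg]
    exact charpolyAlong_monic _ _ _)
  have hCev := hev hfin ⟨g, hgP⟩ Cg hCg
  have hroot : Polynomial.eval₂
      (((heckeAlphaBar Qb M₀ q : FBar M₀ →ₐ[Qb] FBar (M₀ * q)) : FBar M₀ →+* FBar (M₀ * q)).comp
        (discRing S0 P').subtype) (heckeBetaBar Qb M₀ q g) Cg = 0 := by
    rw [← Polynomial.eval₂_map, hCg]
    exact aeval_charpolyAlong _ hfin _
  obtain ⟨h1, hA', h2⟩ := olf_value S0 hFk (Fermat.Agent.RRMod.isRRField_bar (M₀ * q)) q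
    (heckeAlphaBar Qb M₀ q) (heckeBetaBar Qb M₀ q) (wpl_isIntegral _) w P' hv Cg hmon _ _ hCev g
    hroot
  exact ⟨h1, hA', h2.elim id id⟩

/-- **OLD-FIBRE (O3)**, with the cusp statement (`olf_ord_jC_nonneg`) as a hypothesis. -/
theorem olf_fibre_of_cusp (hq : q.Prime) (hqM : ¬ q ∣ M₀) (hA : A.LiesOverPrime q)
    (hG : IsGaussRed M₀ A S0)
    (hgen : genusFF Qb (modularFunctionFieldBar M₀) =
      genusFF (IsLocalRing.ResidueField A)
        (modularFunctionFieldFullC (IsLocalRing.ResidueField A) M₀))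
    (hP : 0 ≤ P.ord (Fermat.Agent.RRMod.jC (IsLocalRing.ResidueField A) M₀))
    (hP' : 0 ≤ P'.ord (Fermat.Agent.RRMod.jC (IsLocalRing.ResidueField A) M₀))
    (hev : OldEvAt M₀ q S0 hFk P P')
    (hcusp : ∀ v : Place Qb (FBar M₀), 0 ≤ v.ord (Fermat.Agent.S24.jBar M₀) →
      valueAt S0.hF v (Fermat.Agent.S24.jBar M₀) ∈ S0.A →
      0 ≤ (S0.r v).ord (Fermat.Agent.RRMod.jC (IsLocalRing.ResidueField A) M₀)) :
    OldFibreAt S0 q P P' := by
  intro w hv
  have hβ : (heckeBetaBar Qb M₀ q).toRingHom.IsIntegral := wpl_isIntegral _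
  -- step 2: `w ∘ β` is not a cusp, and neither is its reduction
  obtain ⟨-, hjw, hjA, -⟩ := olf_value_cusp hq hqM hA hG hP hP' hev w hv
    (Fermat.Agent.S24.jBar M₀) (hG.jBar_mem hq hA hqM) (fun v hv => hv)
  have hjv' : 0 ≤ (w.restrictAlong (heckeBetaBar Qb M₀ q) hβ).ord (Fermat.Agent.S24.jBar M₀) :=
    (olf_ord_restrict_nonneg _ hβ w _).mpr (Fermat.Agent.S24Res.ord_nonneg_of_mem w hjw)
  have hval := olf_valueAt_restrict S0.hF (Fermat.Agent.RRMod.isRRField_bar (M₀ * q))
    (heckeBetaBar Qb M₀ q) hβ w hjv'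
  have hQ : 0 ≤ (S0.r (w.restrictAlong (heckeBetaBar Qb M₀ q) hβ)).ord
      (Fermat.Agent.RRMod.jC (IsLocalRing.ResidueField A) M₀) := by
    refine hcusp _ hjv' ?_
    rw [← hval]
    exact hjA
  -- step 3: separation
  by_contra hne
  obtain ⟨g₀, hg₀O, hg₀p, -, hg₀Q, hg₀P⟩ :=
    exists_oldSep_two A q M₀ hq hA hqM hgen hne hQ hP
  have hg₀O' : g₀ ∈ S0.Ov := (hG.mem_Ov_iff' hq hA hqM g₀).mpr hg₀O
  obtain ⟨hgP, hgw, hgA, hgres⟩ := olf_value_cusp hq hqM hA hG hP hP' hev w hv g₀ hg₀O' hg₀p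
  have h1 : discEv S0 P hFk ⟨g₀, hgP⟩ = 1 :=
    oldMod_discEv_eq_of_valAt S0 P hFk ⟨g₀, hgP⟩ (by
      rw [hG.red_eq hq hA hqM]
      exact hg₀P)
  have hgQ : g₀ ∈ discRing S0 (S0.r (w.restrictAlong (heckeBetaBar Qb M₀ q) hβ)) :=
    hG.mem_discRing hq hA hqM hg₀O hg₀p hQ
  obtain ⟨hA2, hr2⟩ := olf_value_disc S0 hFk
    (rfl : S0.r (w.restrictAlong (heckeBetaBar Qb M₀ q) hβ) = _) ⟨g₀, hgQ⟩
  have h0 : discEv S0 (S0.r (w.restrictAlong (heckeBetaBar Qb M₀ q) hβ)) hFk ⟨g₀, hgQ⟩ = 0 :=
    oldMod_discEv_eq_of_valAt S0 _ hFk ⟨g₀, hgQ⟩ (by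
      rw [hG.red_eq hq hA hqM]
      exact hg₀Q)
  have hval2 := olf_valueAt_restrict S0.hF (Fermat.Agent.RRMod.isRRField_bar (M₀ * q))
    (heckeBetaBar Qb M₀ q) hβ w (hg₀p _ hjv')
  have hcontra : (1 : IsLocalRing.ResidueField A) = 0 := by
    rw [← h1, ← hgres, ← h0, ← hr2]
    congr 1
    exact Subtype.ext hval2
  exact one_ne_zero hcontra

/-- `OldCoeffRegular` (the input (O2) + (O3) of `oldMod_old02_of_regular`). -/
theorem olf_coeffRegular_of_cusp (hq : q.Prime) (hqM : ¬ q ∣ M₀) (hA : A.LiesOverPrime q)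
    (hG : IsGaussRed M₀ A S0)
    (hgen : genusFF Qb (modularFunctionFieldBar M₀) =
      genusFF (IsLocalRing.ResidueField A)
        (modularFunctionFieldFullC (IsLocalRing.ResidueField A) M₀))
    (hP : 0 ≤ P.ord (Fermat.Agent.RRMod.jC (IsLocalRing.ResidueField A) M₀))
    (hP' : 0 ≤ P'.ord (Fermat.Agent.RRMod.jC (IsLocalRing.ResidueField A) M₀))
    (hev : OldEvAt M₀ q S0 hFk P P')
    (hcusp : ∀ v : Place Qb (FBar M₀), 0 ≤ v.ord (Fermat.Agent.S24.jBar M₀) →
      valueAt S0.hF v (Fermat.Agent.S24.jBar M₀) ∈ S0.A →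
      0 ≤ (S0.r v).ord (Fermat.Agent.RRMod.jC (IsLocalRing.ResidueField A) M₀)) :
    OldCoeffRegular M₀ q S0 P P' := fun hfin g n x hx =>
  (wpl_coeff_mem_discRing hq hqM hA hG hfin
    (olf_fibre_of_cusp hq hqM hA hG hgen hP hP' hev hcusp) (g : FBar M₀) g.2 n).2 x hx

/-- `OldLiftAt` (the input OLD-LIFT of `oldMod_old02_of_lift`). -/
theorem olf_liftAt_of_cusp (hq : q.Prime) (hqM : ¬ q ∣ M₀) (hA : A.LiesOverPrime q)
    (hG : IsGaussRed M₀ A S0)
    (hgen : genusFF Qb (modularFunctionFieldBar M₀) =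
      genusFF (IsLocalRing.ResidueField A)
        (modularFunctionFieldFullC (IsLocalRing.ResidueField A) M₀))
    (hP : 0 ≤ P.ord (Fermat.Agent.RRMod.jC (IsLocalRing.ResidueField A) M₀))
    (hP' : 0 ≤ P'.ord (Fermat.Agent.RRMod.jC (IsLocalRing.ResidueField A) M₀))
    (hev : OldEvAt M₀ q S0 hFk P P')
    (hcusp : ∀ v : Place Qb (FBar M₀), 0 ≤ v.ord (Fermat.Agent.S24.jBar M₀) →
      valueAt S0.hF v (Fermat.Agent.S24.jBar M₀) ∈ S0.A →
      0 ≤ (S0.r v).ord (Fermat.Agent.RRMod.jC (IsLocalRing.ResidueField A) M₀)) :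
    OldLiftAt M₀ q S0 P P' := fun hfin g hg =>
  wpl_lift hq hqM hA hG hfin (olf_fibre_of_cusp hq hqM hA hG hgen hP hP' hev hcusp) g hg

/-- **OLD-FIBRE (O3)**: every place `w` of `F_{M₀ q}` whose image under `α` reduces to `P'` has
its image under `β` reducing to `P`. -/
theorem olf_fibre (hq : q.Prime) (hqM : ¬ q ∣ M₀) (hA : A.LiesOverPrime q)
    (hG : IsGaussRed M₀ A S0)
    (hgen : genusFF Qb (modularFunctionFieldBar M₀) =
      genusFF (IsLocalRing.ResidueField A)
        (modularFunctionFieldFullC (IsLocalRing.ResidueField A) M₀))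
    (hP : 0 ≤ P.ord (Fermat.Agent.RRMod.jC (IsLocalRing.ResidueField A) M₀))
    (hP' : 0 ≤ P'.ord (Fermat.Agent.RRMod.jC (IsLocalRing.ResidueField A) M₀))
    (hev : OldEvAt M₀ q S0 hFk P P') : OldFibreAt S0 q P P' :=
  olf_fibre_of_cusp hq hqM hA hG hgen hP hP' hev fun v hv hval =>
    olf_ord_jC_nonneg hG hq hA hqM hv ((hG.mem_A_iff _).mp hval)

/-- **`OldCoeffRegular`** ((O2) + (O3), the input of `oldMod_old02_of_regular`). -/
theorem olf_coeffRegular (hq : q.Prime) (hqM : ¬ q ∣ M₀) (hA : A.LiesOverPrime q)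
    (hG : IsGaussRed M₀ A S0)
    (hgen : genusFF Qb (modularFunctionFieldBar M₀) =
      genusFF (IsLocalRing.ResidueField A)
        (modularFunctionFieldFullC (IsLocalRing.ResidueField A) M₀))
    (hP : 0 ≤ P.ord (Fermat.Agent.RRMod.jC (IsLocalRing.ResidueField A) M₀))
    (hP' : 0 ≤ P'.ord (Fermat.Agent.RRMod.jC (IsLocalRing.ResidueField A) M₀))
    (hev : OldEvAt M₀ q S0 hFk P P') : OldCoeffRegular M₀ q S0 P P' := fun hfin g n x hx =>
  (wpl_coeff_mem_discRing hq hqM hA hG hfin
    (olf_fibre hq hqM hA hG hgen hP hP' hev) (g : FBar M₀) g.2 n).2 x hx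

/-- **`OldLiftAt`** (OLD-LIFT, the input of `oldMod_old02_of_lift`). -/
theorem olf_liftAt (hq : q.Prime) (hqM : ¬ q ∣ M₀) (hA : A.LiesOverPrime q)
    (hG : IsGaussRed M₀ A S0)
    (hgen : genusFF Qb (modularFunctionFieldBar M₀) =
      genusFF (IsLocalRing.ResidueField A)
        (modularFunctionFieldFullC (IsLocalRing.ResidueField A) M₀))
    (hP : 0 ≤ P.ord (Fermat.Agent.RRMod.jC (IsLocalRing.ResidueField A) M₀))
    (hP' : 0 ≤ P'.ord (Fermat.Agent.RRMod.jC (IsLocalRing.ResidueField A) M₀))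
    (hev : OldEvAt M₀ q S0 hFk P P') : OldLiftAt M₀ q S0 P P' := fun hfin g hg =>
  wpl_lift hq hqM hA hG hfin (olf_fibre hq hqM hA hG hgen hP hP' hev) g hg

/-- **OLD, fields `old0` and `old2` from `old1`** at a pair `(P, P')` of non-cuspidal places
with the Kronecker congruence (O4). -/
theorem olf_old02 {FkP : Type} [Field FkP] [Algebra (IsLocalRing.ResidueField A) FkP]
    (hq : q.Prime) (hqM : ¬ q ∣ M₀) (hA : A.LiesOverPrime q)
    (hG : IsGaussRed M₀ A S0)
    (hgen : genusFF Qb (modularFunctionFieldBar M₀) =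
      genusFF (IsLocalRing.ResidueField A)
        (modularFunctionFieldFullC (IsLocalRing.ResidueField A) M₀))
    (hP : 0 ≤ P.ord (Fermat.Agent.RRMod.jC (IsLocalRing.ResidueField A) M₀))
    (hP' : 0 ≤ P'.ord (Fermat.Agent.RRMod.jC (IsLocalRing.ResidueField A) M₀))
    (hev : OldEvAt M₀ q S0 hFk P P')
    (S : ValSetup Qb (FBar (M₀ * q * q)) (IsLocalRing.ResidueField A) FkP)
    (hold1 : WPOld S0 P' (wpdIota1 M₀ q) S) :
    WPOld S0 P (wpIota0 M₀ q) S ∧ WPOld S0 P (wpIota2 M₀ q) S :=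
  oldMod_old02_of_lift hFk hq hqM hA S (wpl_finiteAlong _) hold1
    (olf_liftAt hq hqM hA hG hgen hP hP' hev) hev

end Fibre

end Fermat.Agent.S36G
end
end MergeWrap_S36_Seed_OldFibre

section MergeWrap_S36_Seed_OldFinal3 -- from S36/Seed/OldFinal3.lean

set_option autoImplicit false
set_option linter.style.haveILetI false
set_option linter.unusedSectionVars false
set_option linter.unusedVariables false
set_option synthInstance.maxHeartbeats 400000

noncomputable section
attribute [local instance 10000] SubalgebraClass.toAlgebra HahnSeries.powerSeriesAlgebra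

namespace Fermat.Agent.S36G

open Polynomial ModularCurve AlgebraicCurve Fermat.Agent.F3 Fermat.Agent.F3G
  Fermat.Agent.GaussInt Fermat.Agent.Deuring Fermat.Agent.BadRed Fermat.Agent.HPVal
  Fermat.Agent.S18Key Fermat.Agent.RR Fermat.Agent.Kronecker

local notation "Qb" => AlgebraicClosure ℚ

section Main

variable {M₀ q : ℕ} [NeZero M₀] [NeZero q] {A : ValuationSubring Qb}
  {S0 : RedSetup Qb (FBar M₀) (IsLocalRing.ResidueField A)
    ↥(modularFunctionFieldFullC (IsLocalRing.ResidueField A) M₀)}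
  [Fact q.Prime] [CharP (IsLocalRing.ResidueField A) q]
  [PerfectRing (IsLocalRing.ResidueField A) q]

/-- **OLD**: at a supersingular place `P` the field `old1` at the centre `Φ • P` gives the fields
`old0` and `old2` at `P`. -/
theorem oldFin_old02_main (hq : q.Prime) (hqM : ¬ q ∣ M₀) (haux : AuxLevelOK q M₀)
    (hA : A.LiesOverPrime q) (hS0 : IsGaussRed M₀ A S0)
    (hgen : genusFF Qb (modularFunctionFieldBar M₀) =
      genusFF (IsLocalRing.ResidueField A)
        (modularFunctionFieldFullC (IsLocalRing.ResidueField A) M₀))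
    (hFk : IsRRField (IsLocalRing.ResidueField A)
      ↥(modularFunctionFieldFullC (IsLocalRing.ResidueField A) M₀))
    {P : Place (IsLocalRing.ResidueField A)
      ↥(modularFunctionFieldFullC (IsLocalRing.ResidueField A) M₀)}
    (hP : IsSSPlace (IsLocalRing.ResidueField A) M₀ q P)
    {FkP : Type} [Field FkP] [Algebra (IsLocalRing.ResidueField A) FkP]
    (S : ValSetup Qb (FBar (M₀ * q * q)) (IsLocalRing.ResidueField A) FkP)
    (hold1 : WPOld S0 (frobAut (IsLocalRing.ResidueField A) M₀ q • P) (wpdIota1 M₀ q) S) :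
    WPOld S0 P (wpIota0 M₀ q) S ∧ WPOld S0 P (wpIota2 M₀ q) S :=
  olf_old02 (hFk := hFk) hq hqM hA hS0 hgen (seedOld_ord_jC_nonneg M₀ hq hA hP)
    (seedOld_ord_jC_nonneg M₀ hq hA (oldFin_isSS_frob hP))
    (oldFin_evSS hq hqM hA hS0 hFk P _ rfl (oldFin_frob_frob hq hqM haux hA hP)) S hold1

/-- **OLD** in the shape `WPOldStep` consumed by `wpv_of_coreModIn`. -/
theorem oldFin_wpOldStep_main (hq : q.Prime) (hqM : ¬ q ∣ M₀) (haux : AuxLevelOK q M₀)
    (hA : A.LiesOverPrime q) (hS0 : IsGaussRed M₀ A S0)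
    (hgen : genusFF Qb (modularFunctionFieldBar M₀) =
      genusFF (IsLocalRing.ResidueField A)
        (modularFunctionFieldFullC (IsLocalRing.ResidueField A) M₀))
    (hFk : IsRRField (IsLocalRing.ResidueField A)
      ↥(modularFunctionFieldFullC (IsLocalRing.ResidueField A) M₀))
    {P : Place (IsLocalRing.ResidueField A)
      ↥(modularFunctionFieldFullC (IsLocalRing.ResidueField A) M₀)}
    (hP : IsSSPlace (IsLocalRing.ResidueField A) M₀ q P) :
    WPOldStep (q := q) S0 P (frobAut (IsLocalRing.ResidueField A) M₀ q • P) :=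
  fun _ _ _ S hold1 => oldFin_old02_main hq hqM haux hA hS0 hgen hFk hP S hold1

/-- (O3) at all supersingular places, in the shape `OldFibreSS`. -/
theorem oldFin_fibreSS (hq : q.Prime) (hqM : ¬ q ∣ M₀) (haux : AuxLevelOK q M₀)
    (hA : A.LiesOverPrime q) (hS0 : IsGaussRed M₀ A S0)
    (hgen : genusFF Qb (modularFunctionFieldBar M₀) =
      genusFF (IsLocalRing.ResidueField A)
        (modularFunctionFieldFullC (IsLocalRing.ResidueField A) M₀))
    (hFk : IsRRField (IsLocalRing.ResidueField A)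
      ↥(modularFunctionFieldFullC (IsLocalRing.ResidueField A) M₀)) :
    OldFibreSS M₀ q A S0 := by
  intro w P' hP' hw
  have hQ : IsSSPlace (IsLocalRing.ResidueField A) M₀ q
      (frobAut (IsLocalRing.ResidueField A) M₀ q • P') := oldFin_isSS_frob hP'
  have h2 := oldFin_frob_frob hq hqM haux hA hP'
  exact olf_fibre (hFk := hFk) hq hqM hA hS0 hgen (seedOld_ord_jC_nonneg M₀ hq hA hQ)
    (seedOld_ord_jC_nonneg M₀ hq hA hP')
    (oldFin_evSS hq hqM hA hS0 hFk _ P' h2 rfl) w hw

end Main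

section Exists

variable (M₀ q : ℕ) [NeZero M₀] [NeZero q]

/-- **OLD, the input of the assembly `Val.lean`**: `WPOldExists M₀ q`. -/
theorem oldFin_wpOldExists_main (haux : AuxLevelOK q M₀) : WPOldExists M₀ q := by
  intro hq hqM A hA hg _ _ _ P hP
  exact oldFin_wpOldStep_main hq hqM haux hA (isGaussRed_wpdSetup A q M₀ hq hA hqM hg) hg
    (wpd_hFk A M₀) hP

/-- (O3) in the shape `OldFibreAll`. -/
theorem oldFin_fibreAll (haux : AuxLevelOK q M₀) : OldFibreAll M₀ q := by
  intro hq hqM A hA hg _ _ _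
  exact oldFin_fibreSS hq hqM haux hA (isGaussRed_wpdSetup A q M₀ hq hA hqM hg) hg
    (wpd_hFk A M₀)

end Exists

end Fermat.Agent.S36G
end
end MergeWrap_S36_Seed_OldFinal3
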